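import Fermat.Agent.H14.Num4

/-! Umbrella file for the numerics of `SL(2, ℤ) ⧸ Gamma0 N`:
`card_X`, `card_fix_S`, `card_fix_ST`, `card_orbits_T`. -/

namespace Fermat.Agent.H14

open MatrixGroups CongruenceSubgroup

example (N : ℕ) [NeZero N] :
    Nat.card (SL(2, ℤ) ⧸ Gamma0 N) = ModularCurve.dedekindPsi N := card_X N

example (N : ℕ) :
    Nat.card {x : SL(2, ℤ) ⧸ Gamma0 N // ModularGroup.S • x = x} = ModularCurve.nuTwo N :=
  card_fix_S N

example (N : ℕ) :
    Nat.card {x : SL(2, ℤ) ⧸ Gamma0 N // (ModularGroup.S * ModularGroup.T) • x = x} =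
      ModularCurve.nuThree N := card_fix_ST N

example (N : ℕ) [NeZero N] :
    Nat.card (MulAction.orbitRel.Quotient (Subgroup.zpowers ModularGroup.T)
      (SL(2, ℤ) ⧸ Gamma0 N)) = ModularCurve.cuspCount N := card_orbits_T N

end Fermat.Agent.H14
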