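import Fermat.Agent.H14.DualCusp

set_option autoImplicit false

open UpperHalfPlane ModularForm MatrixGroups ModularGroup Filter Function
open scoped Manifold Topology

noncomputable section

namespace Fermat.Agent.H14

variable {X : Type} [MulAction SL(2, ℤ) X] [Fintype X] [DecidableEq X]
variable (st : Setup X) (B : FreeBasis X)

include st

omit [DecidableEq X] in
lemma S_eq_zero {l : ℤ} (hl : l ≤ 0) : S' X l = ⊥ := by
  rw [eq_bot_iff]
  intro v hv
  rw [Submodule.mem_bot]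
  rcases hl.lt_or_eq with h | rfl
  · exact st.hneg l h v (S_le_V l hv)
  · obtain ⟨c, rfl⟩ := st.hzero v (S_le_V 0 hv)
    funext x z
    have h1 : Tendsto (fun _ : ℍ => c) atImInfty (𝓝 0) := hv.2.2 x
    exact tendsto_nhds_unique tendsto_const_nhds h1

lemma wt_le_ten (j : X) : B.wt j ≤ 10 := by
  by_contra h
  push Not at h
  obtain ⟨m, hm⟩ := B.wt_even j
  have h12 : 12 ≤ B.wt j := by lia
  have h1 := finrank_S st B (12 - B.wt j)
  rw [S_eq_zero st (by lia), finrank_bot] at h1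
  have h2 := (Finset.sum_eq_zero_iff.mp h1.symm) j (Finset.mem_univ j)
  rw [show 12 - B.wt j + B.wt j - 12 = 0 by ring, rdim_zero] at h2
  exact one_ne_zero h2

lemma wt_cases (j : X) : B.wt j = 0 ∨ B.wt j = 2 ∨ B.wt j = 4 ∨ B.wt j = 6 ∨ B.wt j = 8 ∨
    B.wt j = 10 := by
  obtain ⟨m, hm⟩ := B.wt_even j
  have h1 := wt_le_ten st B j
  have h2 := B.wt_nonneg j
  lia

omit st in
/-- number of generators of given weight -/
def FreeBasis.cnt (B : FreeBasis X) (i : ℤ) : ℕ := (Finset.univ.filter fun j => B.wt j = i).card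

/-- summation of a function of the weights. -/
lemma sum_wt {M : Type*} [AddCommMonoid M] (φ : ℤ → M) :
    ∑ j, φ (B.wt j) = B.cnt 0 • φ 0 + B.cnt 2 • φ 2 + B.cnt 4 • φ 4 + B.cnt 6 • φ 6 +
      B.cnt 8 • φ 8 + B.cnt 10 • φ 10 := by
  classical
  have h1 : ∀ j ∈ (Finset.univ : Finset X), B.wt j ∈ ({0, 2, 4, 6, 8, 10} : Finset ℤ) := by
    intro j _
    have := wt_cases st B j
    simpa using this
  rw [← Finset.sum_fiberwise_of_maps_to h1]
  have h2 : ∀ i ∈ ({0, 2, 4, 6, 8, 10} : Finset ℤ), ∑ j ∈ Finset.univ.filter (fun j => B.wt j = i),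
      φ (B.wt j) = B.cnt i • φ i := by
    intro i _
    rw [FreeBasis.cnt, ← Finset.sum_const]
    refine Finset.sum_congr rfl fun j hj => ?_
    rw [(Finset.mem_filter.mp hj).2]
  rw [Finset.sum_congr rfl h2]
  rw [Finset.sum_insert (by decide), Finset.sum_insert (by decide), Finset.sum_insert (by decide),
    Finset.sum_insert (by decide), Finset.sum_insert (by decide), Finset.sum_singleton]
  simp only [add_assoc]

lemma card_eq : Fintype.card X = B.cnt 0 + B.cnt 2 + B.cnt 4 + B.cnt 6 + B.cnt 8 + B.cnt 10 := by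
  have := sum_wt st B (fun _ => (1 : ℕ))
  simp only [Finset.sum_const, Finset.card_univ, smul_eq_mul, mul_one] at this
  exact this

lemma cnt_zero [Nonempty X] : B.cnt 0 = 1 := by
  have h1 := B.finrank_V 0
  have h2 := sum_wt st B (fun i => rdim (0 - i))
  have e0 : rdim (0 - 0) = 1 := by rw [sub_zero]; exact rdim_zero
  have e2 : rdim (0 - 2) = 0 := rdim_of_neg (by norm_num)
  have e4 : rdim (0 - 4) = 0 := rdim_of_neg (by norm_num)
  have e6 : rdim (0 - 6) = 0 := rdim_of_neg (by norm_num)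
  have e8 : rdim (0 - 8) = 0 := rdim_of_neg (by norm_num)
  have e10 : rdim (0 - 10) = 0 := rdim_of_neg (by norm_num)
  simp only [e0, e2, e4, e6, e8, e10, smul_eq_mul, mul_one, mul_zero, add_zero] at h2
  rw [← h2, ← h1]
  -- the space of constants
  have h3 : V X 0 = Submodule.span ℂ {(1 : X → ℍ → ℂ)} := by
    apply le_antisymm
    · intro v hv
      obtain ⟨c, rfl⟩ := st.hzero v hv
      rw [Submodule.mem_span_singleton]
      exact ⟨c, by ext; simp⟩
    · rw [Submodule.span_singleton_le_iff_mem]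
      exact one_mem_V
  rw [h3, finrank_span_singleton]
  intro h
  obtain ⟨x⟩ := ‹Nonempty X›
  have := congrFun (congrFun h x) UpperHalfPlane.I
  simp at this

lemma finrank_S_two : Module.finrank ℂ (S' X 2) = B.cnt 10 := by
  have h1 := finrank_S st B 2
  have h2 := sum_wt st B (fun i => rdim (2 + i - 12))
  have e0 : rdim (2 + 0 - 12) = 0 := rdim_of_neg (by norm_num)
  have e2 : rdim (2 + 2 - 12) = 0 := rdim_of_neg (by norm_num)
  have e4 : rdim (2 + 4 - 12) = 0 := rdim_of_neg (by norm_num)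
  have e6 : rdim (2 + 6 - 12) = 0 := rdim_of_neg (by norm_num)
  have e8 : rdim (2 + 8 - 12) = 0 := rdim_of_neg (by norm_num)
  have e10 : rdim (2 + 10 - 12) = 1 := by norm_num; exact rdim_zero
  simp only [e0, e2, e4, e6, e8, e10, smul_eq_mul, mul_one, mul_zero, zero_add] at h2
  rw [h1, h2]

/-! ### cusps -/

omit [Fintype X] [DecidableEq X] st in
/-- the `T`-invariant vectors. -/
def W0 (X : Type) [MulAction SL(2, ℤ) X] : Submodule ℂ (X → ℂ) where
  carrier := {v | ∀ x, v (T • x) = v x}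
  zero_mem' := fun _ => rfl
  add_mem' := fun {a b} ha hb x => by simp [ha x, hb x]
  smul_mem' := fun c a ha x => by simp [ha x]

omit [DecidableEq X] in
lemma finrank_V_sub_S {k : ℤ} (hk : Even k) (hkK : B.K ≤ k) :
    Module.finrank ℂ (V X k) = Module.finrank ℂ (S' X k) + Module.finrank ℂ (W0 X) := by
  classical
  have hfin := st.fin k
  -- the constant term map
  have hmem : ∀ f : V X k, coefL st.hw0 st.hw k 0 f ∈ W0 X := by
    intro f x
    have := coef_T st.hw0 st.hw f.2 0 x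
    rw [pow_zero, mul_one] at this
    exact this
  let ψ : V X k →ₗ[ℂ] W0 X := (coefL st.hw0 st.hw k 0).codRestrict (W0 X) hmem
  have hsurj : Function.Surjective ψ := by
    rintro ⟨v, hv⟩
    obtain ⟨f, hf, hf1, -⟩ := exists_coef st B hk hkK (n := 0) st.hw0 (v := v)
      (fun x => by rw [pow_zero, mul_one]; exact hv x)
    exact ⟨⟨f, hf⟩, Subtype.ext hf1⟩
  have h1 := LinearMap.finrank_range_add_finrank_ker ψ
  rw [LinearMap.range_eq_top.mpr hsurj, finrank_top] at h1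
  have hker : Module.finrank ℂ (LinearMap.ker ψ) = Module.finrank ℂ (S' X k) := by
    refine LinearEquiv.finrank_eq (LinearEquiv.ofBijective
      ({ toFun := fun f => ⟨(f : V X k), ?_⟩, map_add' := ?_, map_smul' := ?_ } :
        LinearMap.ker ψ →ₗ[ℂ] S' X k) ⟨?_, ?_⟩)
    · refine ⟨(f : V X k).2.1, (f : V X k).2.2.1, fun x => ?_⟩
      have hw0' : (0 : ℝ) < st.w := by exact_mod_cast st.hw0
      have h2 := (V_good st.hw (f : V X k).2 x).tendsto hw0'
      have h3 : ψ f = 0 := f.2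
      have h4 := congrFun (congrArg Subtype.val h3) x
      have h5 : (qExpansion (st.w : ℝ) (((f : V X k) : X → ℍ → ℂ) x)).coeff 0 = 0 := h4
      rw [h5] at h2
      exact h2
    · intro a b; rfl
    · intro c a; rfl
    · intro a b hab
      have h2 := congrArg Subtype.val hab
      exact Subtype.ext (Subtype.ext h2)
    · rintro ⟨g, hg⟩
      refine ⟨⟨⟨g, S_le_V k hg⟩, ?_⟩, rfl⟩
      rw [LinearMap.mem_ker]
      apply Subtype.ext
      funext x
      have hw0' : (0 : ℝ) < st.w := by exact_mod_cast st.hw0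
      have h2 := (V_good st.hw (S_le_V k hg) x).tendsto hw0'
      exact tendsto_nhds_unique h2 (hg.2.2 x)
  rw [hker] at h1
  lia

lemma cusp_count : (Module.finrank ℂ (W0 X) : ℤ) = B.cnt 0 + B.cnt 2 - B.cnt 10 := by
  -- take a large multiple of 12
  set M : ℕ := B.K.toNat + 1 with hM
  have hMK : B.K ≤ 12 * (M : ℤ) := by lia
  have h1 := finrank_V_sub_S st B (k := 12 * (M : ℤ)) (by exact ⟨6 * M, by ring⟩) hMK
  rw [B.finrank_V, finrank_S st B] at h1
  have hV := sum_wt st B (fun i => rdim (12 * (M : ℤ) - i))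
  have hS := sum_wt st B (fun i => rdim (12 * (M : ℤ) + i - 12))
  rw [hV, hS] at h1
  have hMpos : 1 ≤ M := by lia
  have key : ∀ n : ℕ, Even n → rdim n = if n % 12 = 2 then n / 12 else n / 12 + 1 := by
    intro n hn
    rw [rdim_nat hn]
    simp only [Nat.ModEq]
    rfl
  have v0 : rdim (12 * (M : ℤ) - 0) = M + 1 := by
    rw [show (12 * (M : ℤ) - 0) = ((12 * M : ℕ) : ℤ) by push_cast; ring, key _ ⟨6 * M, by ring⟩]
    split_ifs <;> lia
  have v2 : rdim (12 * (M : ℤ) - 2) = M := by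
    rw [show (12 * (M : ℤ) - 2) = ((12 * M - 2 : ℕ) : ℤ) by lia, key _ ⟨6 * M - 1, by lia⟩]
    split_ifs <;> lia
  have v4 : rdim (12 * (M : ℤ) - 4) = M := by
    rw [show (12 * (M : ℤ) - 4) = ((12 * M - 4 : ℕ) : ℤ) by lia, key _ ⟨6 * M - 2, by lia⟩]
    split_ifs <;> lia
  have v6 : rdim (12 * (M : ℤ) - 6) = M := by
    rw [show (12 * (M : ℤ) - 6) = ((12 * M - 6 : ℕ) : ℤ) by lia, key _ ⟨6 * M - 3, by lia⟩]
    split_ifs <;> lia
  have v8 : rdim (12 * (M : ℤ) - 8) = M := by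
    rw [show (12 * (M : ℤ) - 8) = ((12 * M - 8 : ℕ) : ℤ) by lia, key _ ⟨6 * M - 4, by lia⟩]
    split_ifs <;> lia
  have v10 : rdim (12 * (M : ℤ) - 10) = M - 1 := by
    rw [show (12 * (M : ℤ) - 10) = ((12 * M - 10 : ℕ) : ℤ) by lia, key _ ⟨6 * M - 5, by lia⟩]
    split_ifs <;> lia
  have s0 : rdim (12 * (M : ℤ) + 0 - 12) = M := by
    rw [show (12 * (M : ℤ) + 0 - 12) = ((12 * M - 12 : ℕ) : ℤ) by lia, key _ ⟨6 * M - 6, by lia⟩]
    split_ifs <;> lia
  have s2 : rdim (12 * (M : ℤ) + 2 - 12) = M - 1 := by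
    rw [show (12 * (M : ℤ) + 2 - 12) = ((12 * M - 10 : ℕ) : ℤ) by lia, key _ ⟨6 * M - 5, by lia⟩]
    split_ifs <;> lia
  have s4 : rdim (12 * (M : ℤ) + 4 - 12) = M := by
    rw [show (12 * (M : ℤ) + 4 - 12) = ((12 * M - 8 : ℕ) : ℤ) by lia, key _ ⟨6 * M - 4, by lia⟩]
    split_ifs <;> lia
  have s6 : rdim (12 * (M : ℤ) + 6 - 12) = M := by
    rw [show (12 * (M : ℤ) + 6 - 12) = ((12 * M - 6 : ℕ) : ℤ) by lia, key _ ⟨6 * M - 3, by lia⟩]
    split_ifs <;> lia
  have s8 : rdim (12 * (M : ℤ) + 8 - 12) = M := by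
    rw [show (12 * (M : ℤ) + 8 - 12) = ((12 * M - 4 : ℕ) : ℤ) by lia, key _ ⟨6 * M - 2, by lia⟩]
    split_ifs <;> lia
  have s10 : rdim (12 * (M : ℤ) + 10 - 12) = M := by
    rw [show (12 * (M : ℤ) + 10 - 12) = ((12 * M - 2 : ℕ) : ℤ) by lia, key _ ⟨6 * M - 1, by lia⟩]
    split_ifs <;> lia
  rw [v0, v2, v4, v6, v8, v10, s0, s2, s4, s6, s8, s10] at h1
  simp only [smul_eq_mul] at h1
  zify [hMpos] at h1
  linarith

/-! ### elliptic points -/

omit st in
lemma trace_formula {γ : SL(2, ℤ)} {z : ℍ} (hz : γ • z = z) :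
    ∑ j, (denom γ z) ^ (B.wt j) = (Fintype.card {x : X // γ • x = x} : ℂ) := by
  classical
  have h1 : ∀ j x, B.F j (γ • x) z = denom γ z ^ (B.wt j) * B.F j x z := by
    intro j x
    have := congrFun ((B.mem j).2.1 γ x) z
    rw [SL_slash_apply, hz] at this
    have hd := denom_ne_zero (γ : GL (Fin 2) ℝ) z
    rw [← this, zpow_neg]
    field_simp
  set P : Matrix X X ℂ := Matrix.of fun x y => if γ • y = x then 1 else 0 with hP
  set Dg : Matrix X X ℂ := Matrix.diagonal fun j => denom γ z ^ (B.wt j) with hD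
  have h2 : B.A z * P = Dg * B.A z := by
    ext j y
    rw [Matrix.mul_apply, hD, Matrix.diagonal_mul]
    simp only [hP, Matrix.of_apply, mul_ite, mul_one, mul_zero, Finset.sum_ite_eq, Finset.mem_univ,
      if_true]
    exact h1 j y
  have h3 : Dg.trace = P.trace := by
    have h4 : Dg = B.A z * P * (B.A z)⁻¹ := by
      rw [h2, Matrix.mul_nonsing_inv_cancel_right _ _ (B.isUnit_det z)]
    rw [h4, Matrix.trace_mul_comm, ← Matrix.mul_assoc, Matrix.nonsing_inv_mul _ (B.isUnit_det z),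
      Matrix.one_mul]
  rw [hD, Matrix.trace_diagonal] at h3
  rw [h3, Matrix.trace, Fintype.card_subtype]
  simp [hP]

omit [MulAction SL(2, ℤ) X] [Fintype X] [DecidableEq X] st in
lemma S_smul_I : S • UpperHalfPlane.I = UpperHalfPlane.I := by
  have := (ModularGroup.stabilizer_I (g := S)).mpr (by simp)
  exact this

omit [MulAction SL(2, ℤ) X] [Fintype X] [DecidableEq X] st in
lemma ST_smul_ρ : (S * T) • ρ = ρ := by
  rw [mul_smul, ← SL_neg_smul S, ← S_inv, inv_smul_eq_iff, eq_comm, UpperHalfPlane.ext_iff,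
    modular_S_smul, modular_T_smul, UpperHalfPlane.coe_mk, coe_vadd,
    ← mul_one (_ : ℂ)⁻¹, inv_mul_eq_iff_eq_mul₀ (neg_ne_zero.mpr ρ.ne_zero)]
  grind [ρ_sq, Complex.ofReal_one]

lemma count_two : (Fintype.card {x : X // S • x = x} : ℤ) =
    B.cnt 0 - B.cnt 2 + B.cnt 4 - B.cnt 6 + B.cnt 8 - B.cnt 10 := by
  have h1 := trace_formula B S_smul_I
  rw [ModularGroup.denom_S] at h1
  have h2 := sum_wt st B (fun i => (UpperHalfPlane.I : ℂ) ^ i)
  rw [h1] at h2
  have hI : (UpperHalfPlane.I : ℂ) = Complex.I := rfl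
  have e0 : Complex.I ^ (0 : ℤ) = 1 := by simp
  have e2 : Complex.I ^ (2 : ℤ) = -1 := by rw [zpow_ofNat]; exact Complex.I_sq
  have e4 : Complex.I ^ (4 : ℤ) = 1 := by rw [zpow_ofNat]; exact Complex.I_pow_four
  have e6 : Complex.I ^ (6 : ℤ) = -1 := by
    rw [zpow_ofNat, show 6 = 4 + 2 by rfl, pow_add, Complex.I_pow_four, Complex.I_sq]; simp
  have e8 : Complex.I ^ (8 : ℤ) = 1 := by
    rw [zpow_ofNat, show 8 = 4 + 4 by rfl, pow_add, Complex.I_pow_four]; simp
  have e10 : Complex.I ^ (10 : ℤ) = -1 := by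
    rw [zpow_ofNat, show 10 = 4 + 4 + 2 by rfl, pow_add, pow_add, Complex.I_pow_four, Complex.I_sq]
    simp
  simp only [hI, e0, e2, e4, e6, e8, e10, nsmul_eq_mul, mul_one, mul_neg] at h2
  have h3 : ((Fintype.card {x : X // S • x = x} : ℤ) : ℂ) =
    ((B.cnt 0 - B.cnt 2 + B.cnt 4 - B.cnt 6 + B.cnt 8 - B.cnt 10 : ℤ) : ℂ) := by
    push_cast
    rw [h2]; ring
  exact_mod_cast h3

lemma count_three : 2 * (Fintype.card {x : X // (S * T) • x = x} : ℤ) =
    2 * B.cnt 0 - B.cnt 2 - B.cnt 4 + 2 * B.cnt 6 - B.cnt 8 - B.cnt 10 := by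
  have h1 := trace_formula B ST_smul_ρ
  have hd : denom ((S * T : SL(2, ℤ)) : GL (Fin 2) ℝ) ρ = (ρ : ℂ) + 1 := by
    have h10 : (S * T : SL(2, ℤ)) 1 0 = 1 := by decide
    have h11 : (S * T : SL(2, ℤ)) 1 1 = 1 := by decide
    rw [ModularGroup.denom_apply, h10, h11]
    simp
  rw [hd] at h1
  have h2 := sum_wt st B (fun i => ((ρ : ℂ) + 1) ^ i)
  rw [h1] at h2
  set r : ℂ := (ρ : ℂ) with hr
  have hr2 : r ^ 2 = -r - 1 := ρ_sq
  have hre : r.re = -1 / 2 := rfl
  have e0 : (r + 1) ^ (0 : ℤ) = 1 := by simp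
  have f2 : (r + 1) ^ 2 = r := by linear_combination hr2
  have e2 : (r + 1) ^ (2 : ℤ) = r := by norm_cast
  have e4 : (r + 1) ^ (4 : ℤ) = -r - 1 := by
    norm_cast; rw [show 4 = 2 * 2 by rfl, pow_mul, f2]; exact hr2
  have e6 : (r + 1) ^ (6 : ℤ) = 1 := by
    norm_cast; rw [show 6 = 2 * 3 by rfl, pow_mul, f2]; linear_combination (r - 1) * hr2
  have e8 : (r + 1) ^ (8 : ℤ) = r := by
    norm_cast; rw [show 8 = 2 * 4 by rfl, pow_mul, f2]
    linear_combination (r ^ 2 - r) * hr2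
  have e10 : (r + 1) ^ (10 : ℤ) = -r - 1 := by
    norm_cast; rw [show 10 = 2 * 5 by rfl, pow_mul, f2]
    linear_combination (r ^ 3 - r ^ 2 + 1) * hr2
  simp only [e0, e2, e4, e6, e8, e10, nsmul_eq_mul, mul_one] at h2
  have h3 := congrArg Complex.re h2
  simp only [Complex.natCast_re, Complex.add_re, Complex.mul_re, Complex.natCast_im, zero_mul,
    sub_zero, Complex.sub_re, Complex.neg_re, Complex.one_re, hre] at h3
  have h4 : (2 * (Fintype.card {x : X // (S * T) • x = x} : ℤ) : ℝ) =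
    ((2 * B.cnt 0 - B.cnt 2 - B.cnt 4 + 2 * B.cnt 6 - B.cnt 8 - B.cnt 10 : ℤ) : ℝ) := by
    push_cast
    rw [h3]; ring
  exact_mod_cast h4

omit B in
/-- the abstract dimension formula for weight two. -/
theorem finrank_S_two_eq [Nonempty X] : (Module.finrank ℂ (S' X 2) : ℚ) =
    1 + (Fintype.card X : ℚ) / 12 - (Fintype.card {x : X // S • x = x} : ℚ) / 4 -
      (Fintype.card {x : X // (S * T) • x = x} : ℚ) / 3 - (Module.finrank ℂ (W0 X) : ℚ) / 2 := by
  obtain ⟨B⟩ := st.exists_freeBasis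
  have h1 := finrank_S_two st B
  have h2 := cnt_zero st B
  have h3 := card_eq st B
  have h4 := cusp_count st B
  have h5 := count_two st B
  have h6 := count_three st B
  rw [h1]
  have h3' : (Fintype.card X : ℚ) = B.cnt 0 + B.cnt 2 + B.cnt 4 + B.cnt 6 + B.cnt 8 + B.cnt 10 := by
    exact_mod_cast h3
  have h4' : (Module.finrank ℂ (W0 X) : ℚ) = B.cnt 0 + B.cnt 2 - B.cnt 10 := by exact_mod_cast h4
  have h5' : (Fintype.card {x : X // S • x = x} : ℚ) =
    B.cnt 0 - B.cnt 2 + B.cnt 4 - B.cnt 6 + B.cnt 8 - B.cnt 10 := by exact_mod_cast h5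
  have h6' : 2 * (Fintype.card {x : X // (S * T) • x = x} : ℚ) =
    2 * B.cnt 0 - B.cnt 2 - B.cnt 4 + 2 * B.cnt 6 - B.cnt 8 - B.cnt 10 := by exact_mod_cast h6
  have h2' : (B.cnt 0 : ℚ) = 1 := by exact_mod_cast h2
  linarith

end Fermat.Agent.H14
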