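import Mathlib

set_option autoImplicit false

open UpperHalfPlane ModularForm MatrixGroups ModularGroup
open scoped Manifold Topology

noncomputable section

namespace Fermat.Agent.H14

/-- level one modular forms of weight `k`, as plain functions. -/
def R (k : ℤ) : Submodule ℂ (ℍ → ℂ) where
  carrier := {f | MDiff f ∧ (∀ γ : SL(2, ℤ), f ∣[k] γ = f) ∧ IsBoundedAtImInfty f}
  zero_mem' := ⟨fun _ => mdifferentiableAt_const, fun γ => by simp, zero_form_isBoundedAtImInfty⟩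
  add_mem' := by
    rintro f g ⟨hf1, hf2, hf3⟩ ⟨hg1, hg2, hg3⟩
    refine ⟨hf1.add hg1, fun γ => ?_, hf3.add hg3⟩
    rw [SlashAction.add_slash, hf2, hg2]
  smul_mem' := by
    rintro c f ⟨hf1, hf2, hf3⟩
    refine ⟨hf1.const_smul c, fun γ => ?_, hf3.const_smul_left c⟩
    rw [SL_smul_slash, hf2]

variable (X : Type*) [MulAction SL(2, ℤ) X]

/-- vector-valued modular forms for the permutation representation on `X`. -/
def V (k : ℤ) : Submodule ℂ (X → ℍ → ℂ) where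
  carrier := {f | (∀ x, MDiff (f x)) ∧ (∀ (γ : SL(2, ℤ)) (x : X), f (γ • x) ∣[k] γ = f x) ∧
    ∀ x, IsBoundedAtImInfty (f x)}
  zero_mem' := ⟨fun _ _ => mdifferentiableAt_const, fun γ x => by simp,
    fun _ => zero_form_isBoundedAtImInfty⟩
  add_mem' := by
    rintro f g ⟨hf1, hf2, hf3⟩ ⟨hg1, hg2, hg3⟩
    refine ⟨fun x => (hf1 x).add (hg1 x), fun γ x => ?_, fun x => (hf3 x).add (hg3 x)⟩
    rw [Pi.add_apply, SlashAction.add_slash, hf2, hg2, Pi.add_apply]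
  smul_mem' := by
    rintro c f ⟨hf1, hf2, hf3⟩
    refine ⟨fun x => (hf1 x).const_smul c, fun γ x => ?_, fun x => (hf3 x).const_smul_left c⟩
    rw [Pi.smul_apply, SL_smul_slash, hf2, Pi.smul_apply]

/-- vector-valued cusp forms. -/
def S' (k : ℤ) : Submodule ℂ (X → ℍ → ℂ) where
  carrier := {f | (∀ x, MDiff (f x)) ∧ (∀ (γ : SL(2, ℤ)) (x : X), f (γ • x) ∣[k] γ = f x) ∧
    ∀ x, IsZeroAtImInfty (f x)}
  zero_mem' := ⟨fun _ _ => mdifferentiableAt_const, fun γ x => by simp,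
    fun _ => Filter.zero_zeroAtFilter _⟩
  add_mem' := by
    rintro f g ⟨hf1, hf2, hf3⟩ ⟨hg1, hg2, hg3⟩
    refine ⟨fun x => (hf1 x).add (hg1 x), fun γ x => ?_, fun x => (hf3 x).add (hg3 x)⟩
    rw [Pi.add_apply, SlashAction.add_slash, hf2, hg2, Pi.add_apply]
  smul_mem' := by
    rintro c f ⟨hf1, hf2, hf3⟩
    refine ⟨fun x => (hf1 x).const_smul c, fun γ x => ?_, fun x => (hf3 x).smul c⟩
    rw [Pi.smul_apply, SL_smul_slash, hf2, Pi.smul_apply]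

variable {X}

lemma mem_R {k : ℤ} {f : ℍ → ℂ} : f ∈ R k ↔
    MDiff f ∧ (∀ γ : SL(2, ℤ), f ∣[k] γ = f) ∧ IsBoundedAtImInfty f := Iff.rfl

lemma mem_V {k : ℤ} {f : X → ℍ → ℂ} : f ∈ V X k ↔ (∀ x, MDiff (f x)) ∧
    (∀ (γ : SL(2, ℤ)) (x : X), f (γ • x) ∣[k] γ = f x) ∧ ∀ x, IsBoundedAtImInfty (f x) := Iff.rfl

lemma mem_S {k : ℤ} {f : X → ℍ → ℂ} : f ∈ S' X k ↔ (∀ x, MDiff (f x)) ∧
    (∀ (γ : SL(2, ℤ)) (x : X), f (γ • x) ∣[k] γ = f x) ∧ ∀ x, IsZeroAtImInfty (f x) := Iff.rfl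

lemma S_le_V (k : ℤ) : S' X k ≤ V X k := fun _ hf => ⟨hf.1, hf.2.1, fun x => (hf.2.2 x).isBoundedAtImInfty⟩

/-- elements of `R k` are the coercions of `ModularForm 𝒮ℒ k`. -/
def toR (k : ℤ) : ModularForm 𝒮ℒ k ≃ₗ[ℂ] R k where
  toFun f := ⟨f, f.holo', fun γ => by
      rw [SL_slash]; exact f.slash_action_eq' _ ⟨γ, rfl⟩, ModularFormClass.bdd_at_infty f⟩
  map_add' _ _ := rfl
  map_smul' _ _ := rfl
  invFun f :=
    { toFun := f.1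
      slash_action_eq' := by
        rintro _ ⟨γ, rfl⟩
        exact f.2.2.1 γ
      holo' := f.2.1
      bdd_at_cusps' := fun {c} hc => by
        rw [OnePoint.isBoundedAt_iff_forall_SL2Z hc]
        intro γ _
        rw [f.2.2.1 γ]
        exact f.2.2.2 }
  left_inv _ := rfl
  right_inv _ := rfl

@[simp] lemma toR_coe {k : ℤ} (f : ModularForm 𝒮ℒ k) : ((toR k f : R k) : ℍ → ℂ) = f := rfl

@[simp] lemma toR_symm_coe {k : ℤ} (f : R k) : (((toR k).symm f : ModularForm 𝒮ℒ k) : ℍ → ℂ) = f := rfl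

lemma coe_mem_R {k : ℤ} (f : ModularForm 𝒮ℒ k) : (f : ℍ → ℂ) ∈ R k := (toR k f).2

lemma exists_of_mem_R {k : ℤ} {f : ℍ → ℂ} (hf : f ∈ R k) : ∃ g : ModularForm 𝒮ℒ k, ⇑g = f :=
  ⟨(toR k).symm ⟨f, hf⟩, rfl⟩

lemma one_mem_R : (1 : ℍ → ℂ) ∈ R 0 := coe_mem_R (1 : ModularForm 𝒮ℒ 0)

lemma mul_mem_R {k l : ℤ} {f g : ℍ → ℂ} (hf : f ∈ R k) (hg : g ∈ R l) : f * g ∈ R (k + l) := by
  refine ⟨hf.1.mul hg.1, fun γ => ?_, hf.2.2.mul hg.2.2⟩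
  rw [mul_slash_SL2, hf.2.1, hg.2.1]

lemma mul_mem_V {k l : ℤ} {f : ℍ → ℂ} {g : X → ℍ → ℂ} (hf : f ∈ R k) (hg : g ∈ V X l) :
    (fun x => f * g x) ∈ V X (k + l) := by
  refine ⟨fun x => hf.1.mul (hg.1 x), fun γ x => ?_, fun x => hf.2.2.mul (hg.2.2 x)⟩
  show (f * g (γ • x)) ∣[k + l] γ = f * g x
  rw [mul_slash_SL2, hf.2.1, hg.2.1]

lemma V_mul_V {k l : ℤ} {f g : X → ℍ → ℂ} (hf : f ∈ V X k) (hg : g ∈ V X l) :
    f * g ∈ V X (k + l) := by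
  refine ⟨fun x => (hf.1 x).mul (hg.1 x), fun γ x => ?_, fun x => (hf.2.2 x).mul (hg.2.2 x)⟩
  rw [Pi.mul_apply, mul_slash_SL2, hf.2.1, hg.2.1, Pi.mul_apply]

lemma one_mem_V : (1 : X → ℍ → ℂ) ∈ V X 0 :=
  ⟨fun _ => one_mem_R.1, fun γ x => one_mem_R.2.1 γ, fun _ => one_mem_R.2.2⟩

end Fermat.Agent.H14
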