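import Mathlib
import Fermat.Agent.H14.Basic

/-! # Modular forms for a finite index subgroup as vector-valued forms. -/

set_option autoImplicit false
set_option backward.isDefEq.respectTransparency.types false

open UpperHalfPlane ModularForm MatrixGroups ModularGroup
open scoped Manifold Topology

noncomputable section

namespace Fermat.Agent.H14

variable (Γ : Subgroup SL(2, ℤ))

/-- the vector-valued function attached to a function on the upper half plane. -/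
def ind (k : ℤ) (f : ℍ → ℂ) : SL(2, ℤ) ⧸ Γ → ℍ → ℂ := fun x => f ∣[k] (x.out)⁻¹

variable {Γ}

lemma ind_mk {k : ℤ} {f : ℍ → ℂ} (hf : ∀ γ ∈ Γ, f ∣[k] γ = f) (γ : SL(2, ℤ)) :
    ind Γ k f (γ : SL(2, ℤ) ⧸ Γ) = f ∣[k] γ⁻¹ := by
  obtain ⟨κ, hκ⟩ := QuotientGroup.mk_out_eq_mul Γ γ
  rw [ind, hκ, mul_inv_rev, SlashAction.slash_mul, hf _ (Γ.inv_mem κ.2)]

lemma ind_one {k : ℤ} {f : ℍ → ℂ} (hf : ∀ γ ∈ Γ, f ∣[k] γ = f) :
    ind Γ k f ((1 : SL(2, ℤ)) : SL(2, ℤ) ⧸ Γ) = f := by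
  rw [ind_mk hf, inv_one, SlashAction.slash_one]

lemma ind_smul {k : ℤ} {f : ℍ → ℂ} (hf : ∀ γ ∈ Γ, f ∣[k] γ = f) (γ : SL(2, ℤ))
    (x : SL(2, ℤ) ⧸ Γ) : ind Γ k f (γ • x) ∣[k] γ = ind Γ k f x := by
  obtain ⟨δ, rfl⟩ := QuotientGroup.mk_surjective x
  rw [MulAction.Quotient.smul_coe, smul_eq_mul, ind_mk hf, ind_mk hf, ← SlashAction.slash_mul]
  congr 1
  group

lemma mdiff_slash {k : ℤ} {f : ℍ → ℂ} (hf : MDifferentiable 𝓘(ℂ) 𝓘(ℂ) f) (γ : SL(2, ℤ)) :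
    MDifferentiable 𝓘(ℂ) 𝓘(ℂ) (f ∣[k] γ) := by
  rw [SL_slash]
  exact hf.slash _ _

lemma ind_mem_V {k : ℤ} {f : ℍ → ℂ} (h1 : MDifferentiable 𝓘(ℂ) 𝓘(ℂ) f)
    (hf : ∀ γ ∈ Γ, f ∣[k] γ = f) (h2 : ∀ γ : SL(2, ℤ), IsBoundedAtImInfty (f ∣[k] γ)) :
    ind Γ k f ∈ V (SL(2, ℤ) ⧸ Γ) k := by
  refine ⟨fun x => mdiff_slash h1 _, fun γ x => ind_smul hf γ x, fun x => h2 _⟩

lemma slash_mem {k : ℤ} (f : ModularForm Γ k) {γ : SL(2, ℤ)} (hγ : γ ∈ Γ) :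
    (f : ℍ → ℂ) ∣[k] γ = f := by
  rw [SL_slash]
  exact f.slash_action_eq' _ ⟨γ, hγ, rfl⟩

lemma slash_mem' {k : ℤ} (f : CuspForm Γ k) {γ : SL(2, ℤ)} (hγ : γ ∈ Γ) :
    (f : ℍ → ℂ) ∣[k] γ = f := by
  rw [SL_slash]
  exact f.slash_action_eq' _ ⟨γ, hγ, rfl⟩

lemma V_slash_inv {k : ℤ} {v : SL(2, ℤ) ⧸ Γ → ℍ → ℂ} (hv : ∀ (γ : SL(2, ℤ)) x, v (γ • x) ∣[k] γ = v x)
    (γ : SL(2, ℤ)) : v (γ : SL(2, ℤ) ⧸ Γ) = v ((1 : SL(2, ℤ)) : SL(2, ℤ) ⧸ Γ) ∣[k] γ⁻¹ := by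
  have := hv γ⁻¹ (γ : SL(2, ℤ) ⧸ Γ)
  rw [MulAction.Quotient.smul_coe, smul_eq_mul, inv_mul_cancel] at this
  exact this.symm

lemma V_one_slash {k : ℤ} {v : SL(2, ℤ) ⧸ Γ → ℍ → ℂ} (hv : ∀ (γ : SL(2, ℤ)) x, v (γ • x) ∣[k] γ = v x)
    {γ : SL(2, ℤ)} (hγ : γ ∈ Γ) :
    v ((1 : SL(2, ℤ)) : SL(2, ℤ) ⧸ Γ) ∣[k] γ = v ((1 : SL(2, ℤ)) : SL(2, ℤ) ⧸ Γ) := by
  have := hv γ ((1 : SL(2, ℤ)) : SL(2, ℤ) ⧸ Γ)
  rw [MulAction.Quotient.smul_coe, smul_eq_mul, mul_one] at this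
  have h : (γ : SL(2, ℤ) ⧸ Γ) = ((1 : SL(2, ℤ)) : SL(2, ℤ) ⧸ Γ) := by
    rw [QuotientGroup.eq]
    simpa using Γ.inv_mem hγ
  rwa [h] at this

variable (Γ) [Γ.FiniteIndex]

/-- Modular forms for `Γ` are the same as vector-valued modular forms of level one. -/
def toV (k : ℤ) : ModularForm Γ k ≃ₗ[ℂ] V (SL(2, ℤ) ⧸ Γ) k where
  toFun f := ⟨ind Γ k f, ind_mem_V f.holo' (fun _ h => slash_mem f h)
    (fun γ => ModularFormClass.bdd_at_infty_slash f γ)⟩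
  map_add' f g := by
    apply Subtype.ext
    funext x
    exact SlashAction.add_slash _ _ _ _
  map_smul' c f := by
    apply Subtype.ext
    funext x
    exact SL_smul_slash _ _ _ _
  invFun v :=
    { toFun := v.1 ((1 : SL(2, ℤ)) : SL(2, ℤ) ⧸ Γ)
      slash_action_eq' := by
        rintro _ ⟨γ, hγ, rfl⟩
        exact V_one_slash v.2.2.1 hγ
      holo' := v.2.1 _
      bdd_at_cusps' := fun {c} hc => by
        rw [Subgroup.IsArithmetic.isCusp_iff_isCusp_SL2Z] at hc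
        rw [OnePoint.isBoundedAt_iff_forall_SL2Z hc]
        intro γ _
        have := V_slash_inv v.2.2.1 γ⁻¹
        rw [inv_inv] at this
        rw [← this]
        exact v.2.2.2 _ }
  left_inv f := by
    ext z
    exact congrFun (ind_one (fun _ h => slash_mem f h)) z
  right_inv v := by
    apply Subtype.ext
    funext x
    obtain ⟨γ, rfl⟩ := QuotientGroup.mk_surjective x
    exact (ind_mk (fun _ h => V_one_slash v.2.2.1 h) γ).trans (V_slash_inv v.2.2.1 γ).symm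

/-- Cusp forms for `Γ` are the same as vector-valued cusp forms of level one. -/
def toS (k : ℤ) : CuspForm Γ k ≃ₗ[ℂ] S' (SL(2, ℤ) ⧸ Γ) k where
  toFun f := ⟨ind Γ k f, fun x => mdiff_slash f.holo' _,
    fun γ x => ind_smul (fun _ h => slash_mem' f h) γ x,
    fun x => CuspFormClass.zero_at_infty_slash f _⟩
  map_add' f g := by
    apply Subtype.ext
    funext x
    exact SlashAction.add_slash _ _ _ _
  map_smul' c f := by
    apply Subtype.ext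
    funext x
    exact SL_smul_slash _ _ _ _
  invFun v :=
    { toFun := v.1 ((1 : SL(2, ℤ)) : SL(2, ℤ) ⧸ Γ)
      slash_action_eq' := by
        rintro _ ⟨γ, hγ, rfl⟩
        exact V_one_slash v.2.2.1 hγ
      holo' := v.2.1 _
      zero_at_cusps' := fun {c} hc => by
        rw [Subgroup.IsArithmetic.isCusp_iff_isCusp_SL2Z] at hc
        rw [OnePoint.isZeroAt_iff_forall_SL2Z hc]
        intro γ _
        have := V_slash_inv v.2.2.1 γ⁻¹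
        rw [inv_inv] at this
        rw [← this]
        exact v.2.2.2 _ }
  left_inv f := by
    ext z
    exact congrFun (ind_one (fun _ h => slash_mem' f h)) z
  right_inv v := by
    apply Subtype.ext
    funext x
    obtain ⟨γ, rfl⟩ := QuotientGroup.mk_surjective x
    exact (ind_mk (fun _ h => V_one_slash v.2.2.1 h) γ).trans (V_slash_inv v.2.2.1 γ).symm

omit [Γ.FiniteIndex] in
lemma toV_ext {k : ℤ} {v : SL(2, ℤ) ⧸ Γ → ℍ → ℂ} (hv : ∀ (γ : SL(2, ℤ)) x, v (γ • x) ∣[k] γ = v x)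
    (h1 : v ((1 : SL(2, ℤ)) : SL(2, ℤ) ⧸ Γ) = 0) : v = 0 := by
  funext x
  obtain ⟨γ, rfl⟩ := QuotientGroup.mk_surjective x
  rw [V_slash_inv hv γ, h1, SlashAction.zero_slash]
  rfl

lemma hneg_quot (k : ℤ) (hk : k < 0) (v : SL(2, ℤ) ⧸ Γ → ℍ → ℂ) (hv : v ∈ V (SL(2, ℤ) ⧸ Γ) k) :
    v = 0 := by
  apply toV_ext Γ hv.2.1
  have := ModularForm.isZero_of_neg_weight hk ((toV Γ k).symm ⟨v, hv⟩)
  exact congrArg (fun f : ModularForm Γ k => (f : ℍ → ℂ)) this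

lemma hzero_quot (v : SL(2, ℤ) ⧸ Γ → ℍ → ℂ) (hv : v ∈ V (SL(2, ℤ) ⧸ Γ) 0) :
    ∃ c : ℂ, v = fun _ _ => c := by
  obtain ⟨c, hc⟩ := ModularForm.eq_const_of_weight_zero ((toV Γ 0).symm ⟨v, hv⟩)
  refine ⟨c, ?_⟩
  have hc' : v ((1 : SL(2, ℤ)) : SL(2, ℤ) ⧸ Γ) = fun _ => c := hc
  funext x
  obtain ⟨γ, rfl⟩ := QuotientGroup.mk_surjective x
  rw [V_slash_inv hv.2.1 γ, hc']
  ext z
  simp [SL_slash_apply]

end Fermat.Agent.H14
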