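import Mathlib

set_option autoImplicit false

open Filter PeriodPair
open scoped Topology

noncomputable section

namespace Fermat.Agent.H14

/-- local uniqueness for the Weierstrass differential equation. -/
lemma ode_unique {u v : ℂ → ℂ} (hu : AnalyticAt ℂ u 0) (hv : AnalyticAt ℂ v 0) {g2 g3 : ℂ}
    (hU : ∀ᶠ z in 𝓝[≠] (0 : ℂ), (deriv u z - 2 / z ^ 3) ^ 2 =
      4 * (u z + 1 / z ^ 2) ^ 3 - g2 * (u z + 1 / z ^ 2) - g3)
    (hV : ∀ᶠ z in 𝓝[≠] (0 : ℂ), (deriv v z - 2 / z ^ 3) ^ 2 =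
      4 * (v z + 1 / z ^ 2) ^ 3 - g2 * (v z + 1 / z ^ 2) - g3) :
    ∀ᶠ z in 𝓝 (0 : ℂ), u z = v z := by
  by_contra hcon
  have hd : AnalyticAt ℂ (u - v) 0 := hu.sub hv
  have hord : analyticOrderAt (u - v) 0 ≠ ⊤ := by
    intro h
    apply hcon
    filter_upwards [analyticOrderAt_eq_top.mp h] with z hz
    simpa [sub_eq_zero] using hz
  obtain ⟨h, hh, hh0, hdh⟩ := hd.analyticOrderAt_ne_top.mp hord
  set n := analyticOrderNatAt (u - v) 0 with hn
  have hder : ∀ᶠ z in 𝓝 (0 : ℂ), deriv u z - deriv v z =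
      n * z ^ (n - 1) * h z + z ^ n * deriv h z := by
    have h1 := hdh.deriv
    filter_upwards [h1, hu.eventually_analyticAt, hv.eventually_analyticAt,
      hh.eventually_analyticAt] with z hz hzu hzv hzh
    have e1 : deriv (u - v) z = deriv u z - deriv v z :=
      deriv_sub hzu.differentiableAt hzv.differentiableAt
    rw [← e1, hz]
    have e2 : (fun z : ℂ => (z - 0) ^ n • h z) = fun z => z ^ n * h z := by
      ext z; simp
    rw [e2, deriv_fun_mul (by fun_prop) hzh.differentiableAt]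
    simp
  have key : ∀ᶠ z in 𝓝[≠] (0 : ℂ), (n * h z + z * deriv h z) *
      (z ^ 3 * (deriv u z + deriv v z) - 4) =
      h z * (4 * ((z ^ 2 * u z + 1) ^ 2 + (z ^ 2 * u z + 1) * (z ^ 2 * v z + 1) +
        (z ^ 2 * v z + 1) ^ 2) - g2 * z ^ 4) := by
    filter_upwards [hU, hV, hder.filter_mono nhdsWithin_le_nhds,
      hdh.filter_mono nhdsWithin_le_nhds, self_mem_nhdsWithin] with z h1 h2 h3 h4 hz
    have hz0 : z ≠ 0 := hz
    have h4' : u z - v z = z ^ n * h z := by simpa using h4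
    have h1' : (z ^ 3 * deriv u z - 2) ^ 2 = 4 * (z ^ 2 * u z + 1) ^ 3 -
        g2 * z ^ 4 * (z ^ 2 * u z + 1) - g3 * z ^ 6 := by
      have e : (z ^ 3 * deriv u z - 2) ^ 2 = z ^ 6 * (deriv u z - 2 / z ^ 3) ^ 2 := by
        field_simp
      rw [e, h1]
      field_simp
    have h2' : (z ^ 3 * deriv v z - 2) ^ 2 = 4 * (z ^ 2 * v z + 1) ^ 3 -
        g2 * z ^ 4 * (z ^ 2 * v z + 1) - g3 * z ^ 6 := by
      have e : (z ^ 3 * deriv v z - 2) ^ 2 = z ^ 6 * (deriv v z - 2 / z ^ 3) ^ 2 := by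
        field_simp
      rw [e, h2]
      field_simp
    have h5 : z * (deriv u z - deriv v z) = z ^ n * (n * h z + z * deriv h z) := by
      rw [h3]
      rcases Nat.eq_zero_or_pos n with h0 | hpos
      · rw [h0]; simp
      · obtain ⟨m, hm⟩ : ∃ m, n = m + 1 := ⟨n - 1, by omega⟩
        rw [hm]; simp only [Nat.add_sub_cancel]; push_cast; ring
    have h6 : z ^ 2 * z ^ n * ((n * h z + z * deriv h z) *
        (z ^ 3 * (deriv u z + deriv v z) - 4)) = z ^ 2 * z ^ n * (h z * (4 * ((z ^ 2 * u z + 1) ^ 2 +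
        (z ^ 2 * u z + 1) * (z ^ 2 * v z + 1) + (z ^ 2 * v z + 1) ^ 2) - g2 * z ^ 4)) := by
      have e1 : z ^ 2 * z ^ n * ((n * h z + z * deriv h z) *
        (z ^ 3 * (deriv u z + deriv v z) - 4)) = z ^ 2 * (z * (deriv u z - deriv v z)) *
        (z ^ 3 * (deriv u z + deriv v z) - 4) := by rw [h5]; ring
      have e2 : z ^ 2 * z ^ n * (h z * (4 * ((z ^ 2 * u z + 1) ^ 2 +
        (z ^ 2 * u z + 1) * (z ^ 2 * v z + 1) + (z ^ 2 * v z + 1) ^ 2) - g2 * z ^ 4)) =
        z ^ 2 * (u z - v z) * (4 * ((z ^ 2 * u z + 1) ^ 2 +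
        (z ^ 2 * u z + 1) * (z ^ 2 * v z + 1) + (z ^ 2 * v z + 1) ^ 2) - g2 * z ^ 4) := by
        rw [h4']; ring
      rw [e1, e2]
      linear_combination h1' - h2'
    have hne : z ^ 2 * z ^ n ≠ 0 := mul_ne_zero (pow_ne_zero _ hz0) (pow_ne_zero _ hz0)
    exact mul_left_cancel₀ hne h6
  have hu' : ContinuousAt (deriv u) 0 := hu.deriv.continuousAt
  have hv' : ContinuousAt (deriv v) 0 := hv.deriv.continuousAt
  have hh' : ContinuousAt (deriv h) 0 := hh.deriv.continuousAt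
  have hcu := hu.continuousAt
  have hcv := hv.continuousAt
  have hch := hh.continuousAt
  have l1 : ContinuousAt (fun z : ℂ => (n * h z + z * deriv h z) *
      (z ^ 3 * (deriv u z + deriv v z) - 4)) 0 := by fun_prop
  have l2 : ContinuousAt (fun z : ℂ => h z * (4 * ((z ^ 2 * u z + 1) ^ 2 +
      (z ^ 2 * u z + 1) * (z ^ 2 * v z + 1) + (z ^ 2 * v z + 1) ^ 2) - g2 * z ^ 4)) 0 := by fun_prop
  have l3 := tendsto_nhds_unique_of_eventuallyEq (l1.mono_left nhdsWithin_le_nhds)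
    (l2.mono_left nhdsWithin_le_nhds) key
  simp at l3
  have l4 : (n : ℂ) * 4 = -12 := by
    apply mul_left_cancel₀ hh0
    linear_combination -l3
  have l5 := congrArg Complex.re l4
  simp at l5
  have : (0 : ℝ) ≤ n := Nat.cast_nonneg n
  linarith

variable {L M : PeriodPair}

lemma eventually_ode (L : PeriodPair) : ∀ᶠ z in 𝓝[≠] (0 : ℂ),
    (deriv (L.weierstrassPExcept 0) z - 2 / z ^ 3) ^ 2 =
      4 * (L.weierstrassPExcept 0 z + 1 / z ^ 2) ^ 3 -
        L.g₂ * (L.weierstrassPExcept 0 z + 1 / z ^ 2) - L.g₃ := by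
  have hopen := L.compl_lattice_sdiff_singleton_mem_nhds 0
  filter_upwards [mem_nhdsWithin_of_mem_nhds hopen, self_mem_nhdsWithin] with z hz hz0
  have hzL : z ∉ L.lattice := by
    intro h; exact hz ⟨h, hz0⟩
  have h1 := L.derivWeierstrassP_sq z hzL
  have h2 : L.weierstrassP z = L.weierstrassPExcept 0 z + 1 / z ^ 2 := by
    have := L.weierstrassPExcept_add 0 z
    simp at this
    rw [← this]; simp
  have h3 : L.derivWeierstrassP z = deriv (L.weierstrassPExcept 0) z - 2 / z ^ 3 := by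
    have := L.derivWeierstrassPExcept_sub 0 z
    simp at this
    rw [← this, L.eqOn_deriv_weierstrassPExcept_derivWeierstrassPExcept 0 hz]
  rw [h2, h3] at h1
  exact h1

lemma eventually_eq_near_zero (h2 : L.g₂ = M.g₂) (h3 : L.g₃ = M.g₃) :
    ∀ᶠ z in 𝓝[≠] (0 : ℂ), L.weierstrassP z = M.weierstrassP z := by
  have h1 := ode_unique (L.analyticAt_weierstrassPExcept 0) (M.analyticAt_weierstrassPExcept 0)
    (eventually_ode L) (by rw [h2, h3]; exact eventually_ode M)
  filter_upwards [h1.filter_mono nhdsWithin_le_nhds] with z hz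
  have e1 := L.weierstrassPExcept_add 0 z
  have e2 := M.weierstrassPExcept_add 0 z
  simp at e1 e2
  rw [← e1, ← e2, hz]

lemma eqOn_compl (h2 : L.g₂ = M.g₂) (h3 : L.g₃ = M.g₃) :
    Set.EqOn L.weierstrassP M.weierstrassP ((L.lattice : Set ℂ) ∪ M.lattice)ᶜ := by
  have hc : ((L.lattice : Set ℂ) ∪ M.lattice).Countable := by
    refine Set.Countable.union ?_ ?_
    · have : Countable L.lattice := L.latticeEquivProd.toEquiv.countable_iff.mpr inferInstance
      exact Set.countable_coe_iff.mp this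
    · have : Countable M.lattice := M.latticeEquivProd.toEquiv.countable_iff.mpr inferInstance
      exact Set.countable_coe_iff.mp this
  have hconn : IsPreconnected ((L.lattice : Set ℂ) ∪ M.lattice)ᶜ :=
    (Set.Countable.isConnected_compl_of_one_lt_rank (by simp) hc).2
  have hclosed : IsClosed ((L.lattice : Set ℂ) ∪ M.lattice) := L.isClosed_lattice.union M.isClosed_lattice
  have hnear : ∀ᶠ z in 𝓝[≠] (0 : ℂ), z ∈ ((L.lattice : Set ℂ) ∪ M.lattice)ᶜ := by
    filter_upwards [mem_nhdsWithin_of_mem_nhds (L.compl_lattice_sdiff_singleton_mem_nhds 0),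
      mem_nhdsWithin_of_mem_nhds (M.compl_lattice_sdiff_singleton_mem_nhds 0),
      self_mem_nhdsWithin] with z h1 h2 h3
    rintro (h | h)
    · exact h1 ⟨h, h3⟩
    · exact h2 ⟨h, h3⟩
  have hev := (eventually_eq_near_zero h2 h3)
  -- find a point
  have hev2 : ∀ᶠ z in 𝓝[≠] (0 : ℂ), ∀ᶠ y in 𝓝 z, L.weierstrassP y = M.weierstrassP y := by
    obtain ⟨U, hUo, hU0, hU⟩ := mem_nhdsWithin.mp hev
    have hopen : IsOpen (U ∩ {(0 : ℂ)}ᶜ) := hUo.inter isOpen_compl_singleton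
    refine mem_nhdsWithin.mpr ⟨U, hUo, hU0, ?_⟩
    intro z hz
    filter_upwards [hopen.mem_nhds hz] with y hy
    exact hU hy
  obtain ⟨z₀, hz₀, hz₀'⟩ := (hnear.and hev2).exists
  exact (L.analyticOnNhd_weierstrassP.mono (by
    intro z hz h; exact hz (Or.inl h))).eqOn_of_preconnected_of_eventuallyEq
    (M.analyticOnNhd_weierstrassP.mono (by intro z hz h; exact hz (Or.inr h))) hconn hz₀ hz₀'

lemma lattice_le (h2 : L.g₂ = M.g₂) (h3 : L.g₃ = M.g₃) : L.lattice ≤ M.lattice := by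
  intro l hl
  by_contra hlM
  have h1 := L.order_weierstrassP l hl
  have h4 : 0 ≤ meromorphicOrderAt M.weierstrassP l :=
    (M.analyticOnNhd_weierstrassP l hlM).meromorphicOrderAt_nonneg
  have h5 : L.weierstrassP =ᶠ[𝓝[≠] l] M.weierstrassP := by
    filter_upwards [mem_nhdsWithin_of_mem_nhds (L.compl_lattice_sdiff_singleton_mem_nhds l),
      mem_nhdsWithin_of_mem_nhds (M.compl_lattice_sdiff_singleton_mem_nhds l),
      self_mem_nhdsWithin] with z e1 e2 e3
    apply eqOn_compl h2 h3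
    rintro (h | h)
    · exact e1 ⟨h, e3⟩
    · exact e2 ⟨h, e3⟩
  rw [← meromorphicOrderAt_congr h5, h1] at h4
  exact absurd h4 (by decide)

/-- a lattice is determined by its invariants `g₂`, `g₃`. -/
theorem lattice_eq (h2 : L.g₂ = M.g₂) (h3 : L.g₃ = M.g₃) : L.lattice = M.lattice :=
  le_antisymm (lattice_le h2 h3) (lattice_le h2.symm h3.symm)

theorem lattice_eq_of_G (h4 : L.G 4 = M.G 4) (h6 : L.G 6 = M.G 6) : L.lattice = M.lattice :=
  lattice_eq (by rw [g₂, g₂, h4]) (by rw [g₃, g₃, h6])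

end Fermat.Agent.H14
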