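import Mathlib
import Fermat.Prelude.Def_ModularCurve_GenusNumerics

/-! # Cosets of `Γ₀(N)` in `SL₂(ℤ)`: index, fixed points of `S`, `S * T`. -/

set_option autoImplicit false
set_option backward.isDefEq.respectTransparency.types false

open MatrixGroups Matrix CongruenceSubgroup

namespace Fermat.Agent.H14

section

variable (N : ℕ)

lemma mk_eq_mk_iff (γ γ' : SL(2, ℤ)) :
    ((γ : SL(2, ℤ) ⧸ Gamma0 N) = (γ' : SL(2, ℤ) ⧸ Gamma0 N)) ↔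
      (N : ℤ) ∣ γ 0 0 * γ' 1 0 - γ 1 0 * γ' 0 0 := by
  rw [QuotientGroup.eq, Gamma0_mem, ZMod.intCast_zmod_eq_zero_iff_dvd]
  have : (γ⁻¹ * γ') 1 0 = γ 0 0 * γ' 1 0 - γ 1 0 * γ' 0 0 := by
    simp [SpecialLinearGroup.SL2_inv_expl, Matrix.mul_apply, Fin.sum_univ_two]
    ring
  rw [this]

lemma S_mul_entries (γ : SL(2, ℤ)) :
    (ModularGroup.S * γ) 0 0 = - γ 1 0 ∧ (ModularGroup.S * γ) 1 0 = γ 0 0 := by
  constructor <;> simp [ModularGroup.S, Matrix.mul_apply, Fin.sum_univ_two]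

lemma T_zpow_mul_entries (n : ℤ) (γ : SL(2, ℤ)) :
    (ModularGroup.T ^ n * γ) 0 0 = γ 0 0 + n * γ 1 0 ∧ (ModularGroup.T ^ n * γ) 1 0 = γ 1 0 := by
  constructor <;> simp [ModularGroup.coe_T_zpow, Matrix.mul_apply, Fin.sum_univ_two]

lemma ST_mul_entries (γ : SL(2, ℤ)) :
    (ModularGroup.S * ModularGroup.T * γ) 0 0 = - γ 1 0 ∧
      (ModularGroup.S * ModularGroup.T * γ) 1 0 = γ 0 0 + γ 1 0 := by
  constructor <;> simp [ModularGroup.S, ModularGroup.T, Matrix.mul_apply, Fin.sum_univ_two]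

lemma det_eq (γ : SL(2, ℤ)) : γ 0 0 * γ 1 1 - γ 0 1 * γ 1 0 = 1 := by
  have := γ.det_coe
  rwa [Matrix.det_fin_two] at this

/-- the coset of `(r, -1; 1, 0)`. -/
def rho (r : ℤ) : SL(2, ℤ) := ⟨!![r, -1; 1, 0], by simp⟩

@[simp] lemma rho_00 (r : ℤ) : rho r 0 0 = r := rfl
@[simp] lemma rho_10 (r : ℤ) : rho r 1 0 = 1 := rfl

lemma exists_rho_of_unit (γ : SL(2, ℤ)) (h : IsUnit ((γ 1 0 : ℤ) : ZMod N)) :
    ∃ r : ℤ, (γ : SL(2, ℤ) ⧸ Gamma0 N) = (rho r : SL(2, ℤ) ⧸ Gamma0 N) := by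
  obtain ⟨u, hu⟩ := h
  obtain ⟨r, hr⟩ := ZMod.intCast_surjective (((γ 0 0 : ℤ) : ZMod N) * ((u⁻¹ : (ZMod N)ˣ) : ZMod N))
  refine ⟨r, ?_⟩
  rw [mk_eq_mk_iff, ← ZMod.intCast_zmod_eq_zero_iff_dvd]
  simp only [rho_00, rho_10]
  push_cast
  rw [hr, ← hu]
  rw [mul_left_comm]
  simp

lemma S_fix_iff (γ : SL(2, ℤ)) :
    (ModularGroup.S • (γ : SL(2, ℤ) ⧸ Gamma0 N) = (γ : SL(2, ℤ) ⧸ Gamma0 N)) ↔
      (N : ℤ) ∣ γ 0 0 ^ 2 + γ 1 0 ^ 2 := by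
  rw [MulAction.Quotient.smul_coe, smul_eq_mul, mk_eq_mk_iff, (S_mul_entries γ).1,
    (S_mul_entries γ).2, ← dvd_neg]
  ring_nf

lemma ST_fix_iff (γ : SL(2, ℤ)) :
    ((ModularGroup.S * ModularGroup.T) • (γ : SL(2, ℤ) ⧸ Gamma0 N) =
      (γ : SL(2, ℤ) ⧸ Gamma0 N)) ↔
      (N : ℤ) ∣ γ 0 0 ^ 2 + γ 0 0 * γ 1 0 + γ 1 0 ^ 2 := by
  rw [MulAction.Quotient.smul_coe, smul_eq_mul, mk_eq_mk_iff, (ST_mul_entries γ).1,
    (ST_mul_entries γ).2, ← dvd_neg]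
  ring_nf

/-- general statement for the fixed points -/
lemma card_fix_aux (g : SL(2, ℤ)) (P : ZMod N → Prop)
    (h1 : ∀ r : ℤ, (g • (rho r : SL(2, ℤ) ⧸ Gamma0 N) = (rho r : SL(2, ℤ) ⧸ Gamma0 N)) ↔
      P (r : ZMod N))
    (h2 : ∀ γ : SL(2, ℤ), g • (γ : SL(2, ℤ) ⧸ Gamma0 N) = (γ : SL(2, ℤ) ⧸ Gamma0 N) →
      IsUnit ((γ 1 0 : ℤ) : ZMod N)) :
    Nat.card {x : SL(2, ℤ) ⧸ Gamma0 N // g • x = x} = Nat.card {x : ZMod N // P x} := by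
  symm
  have hs : ∀ r : ZMod N, ∃ r' : ℤ, (r' : ZMod N) = r := ZMod.intCast_surjective
  choose f hf using hs
  have hrho : ∀ r r' : ℤ, ((rho r : SL(2, ℤ) ⧸ Gamma0 N) = (rho r' : SL(2, ℤ) ⧸ Gamma0 N)) ↔
      (r : ZMod N) = (r' : ZMod N) := by
    intro r r'
    rw [mk_eq_mk_iff, rho_00, rho_10, rho_00, rho_10, mul_one, one_mul,
      ← ZMod.intCast_zmod_eq_zero_iff_dvd]
    push_cast
    rw [sub_eq_zero]
  refine Nat.card_congr (Equiv.ofBijective (fun r => ⟨(rho (f r.1) : SL(2, ℤ) ⧸ Gamma0 N),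
    (h1 _).2 (by rw [hf]; exact r.2)⟩) ⟨?_, ?_⟩)
  · rintro ⟨r, hr⟩ ⟨r', hr'⟩ h
    simp only [Subtype.mk.injEq, hrho, hf] at h
    exact Subtype.ext h
  · rintro ⟨x, hx⟩
    obtain ⟨γ, rfl⟩ := QuotientGroup.mk_surjective x
    obtain ⟨r, hr⟩ := exists_rho_of_unit N γ (h2 γ hx)
    refine ⟨⟨(r : ZMod N), ?_⟩, ?_⟩
    · rw [← h1, ← hr]
      exact hx
    · simp only [Subtype.mk.injEq]
      rw [hr, hrho, hf]

theorem card_fix_S :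
    Nat.card {x : SL(2, ℤ) ⧸ Gamma0 N // ModularGroup.S • x = x} = ModularCurve.nuTwo N := by
  rw [ModularCurve.nuTwo]
  refine card_fix_aux N _ _ (fun r => ?_) (fun γ hγ => ?_)
  · rw [S_fix_iff, ← ZMod.intCast_zmod_eq_zero_iff_dvd]
    simp
  · rw [S_fix_iff, ← ZMod.intCast_zmod_eq_zero_iff_dvd] at hγ
    push_cast at hγ
    have hd := congrArg (Int.cast : ℤ → ZMod N) (det_eq γ)
    push_cast at hd
    set a : ZMod N := ((γ 0 0 : ℤ) : ZMod N)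
    set b : ZMod N := ((γ 0 1 : ℤ) : ZMod N)
    set c : ZMod N := ((γ 1 0 : ℤ) : ZMod N)
    set d : ZMod N := ((γ 1 1 : ℤ) : ZMod N)
    refine IsUnit.of_mul_eq_one (-c * d ^ 2 - 2 * a * b * d + b ^ 2 * c) ?_
    have : (a * d - b * c) ^ 2 = 1 := by rw [hd]; simp
    linear_combination this - d ^ 2 * hγ

theorem card_fix_ST :
    Nat.card {x : SL(2, ℤ) ⧸ Gamma0 N // (ModularGroup.S * ModularGroup.T) • x = x} =
      ModularCurve.nuThree N := by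
  rw [ModularCurve.nuThree]
  refine card_fix_aux N _ _ (fun r => ?_) (fun γ hγ => ?_)
  · rw [ST_fix_iff, ← ZMod.intCast_zmod_eq_zero_iff_dvd]
    simp
  · rw [ST_fix_iff, ← ZMod.intCast_zmod_eq_zero_iff_dvd] at hγ
    push_cast at hγ
    have hd := congrArg (Int.cast : ℤ → ZMod N) (det_eq γ)
    push_cast at hd
    set a : ZMod N := ((γ 0 0 : ℤ) : ZMod N)
    set b : ZMod N := ((γ 0 1 : ℤ) : ZMod N)
    set c : ZMod N := ((γ 1 0 : ℤ) : ZMod N)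
    set d : ZMod N := ((γ 1 1 : ℤ) : ZMod N)
    refine IsUnit.of_mul_eq_one (-(a + c) * d ^ 2 - 2 * a * b * d + b ^ 2 * c) ?_
    have : (a * d - b * c) ^ 2 = 1 := by rw [hd]; simp
    linear_combination this - d ^ 2 * hγ

end

end Fermat.Agent.H14
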