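import Mathlib
import Fermat.Agent.H14.Forms
import Fermat.Agent.H14.Lattice
import Fermat.Agent.H14.Num1

/-! # Values of modular forms for `Γ₀(N)` separate cosets. -/

set_option autoImplicit false
set_option backward.isDefEq.respectTransparency.types false

open UpperHalfPlane ModularForm MatrixGroups CongruenceSubgroup
open scoped Manifold Topology

noncomputable section

namespace Fermat.Agent.H14

/-- Lagrange interpolation. -/
lemma span_eq_top_of_separates {X : Type*} [Finite X] (M : Submonoid (X → ℂ))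
    (h : ∀ x y, x ≠ y → ∃ f ∈ M, f x ≠ f y) : Submodule.span ℂ (M : Set (X → ℂ)) = ⊤ := by
  classical
  have := Fintype.ofFinite X
  have hA : Subalgebra.toSubmodule (Algebra.adjoin ℂ (M : Set (X → ℂ))) =
      Submodule.span ℂ (M : Set (X → ℂ)) := by
    rw [Algebra.adjoin_eq_span, Submonoid.closure_eq]
  rw [← hA]
  have hMA : ∀ f ∈ M, f ∈ Algebra.adjoin ℂ (M : Set (X → ℂ)) := fun f hf =>
    Algebra.subset_adjoin hf
  have hδ : ∀ x : X, (Pi.single x 1 : X → ℂ) ∈ Algebra.adjoin ℂ (M : Set (X → ℂ)) := by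
    intro x
    have h' : ∀ y : X, ∃ f ∈ Algebra.adjoin ℂ (M : Set (X → ℂ)), f x = 1 ∧ (y ≠ x → f y = 0) := by
      intro y
      by_cases hxy : y = x
      · exact ⟨1, one_mem _, rfl, fun h => absurd hxy h⟩
      · obtain ⟨f, hf, hne⟩ := h x y (Ne.symm hxy)
        have hne' : f x - f y ≠ 0 := sub_ne_zero.2 hne
        refine ⟨(f x - f y)⁻¹ • (f - algebraMap ℂ (X → ℂ) (f y)),
          Subalgebra.smul_mem _ (Subalgebra.sub_mem _ (hMA f hf) (Subalgebra.algebraMap_mem _ _)) _,
          ?_, fun _ => ?_⟩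
        · simp [hne']
        · simp
    choose f hf h1 h2 using h'
    have : (Pi.single x 1 : X → ℂ) = ∏ y, f y := by
      funext z
      rw [Finset.prod_apply]
      by_cases hz : z = x
      · subst hz
        rw [Pi.single_eq_same]
        exact (Finset.prod_eq_one (fun y _ => h1 y)).symm
      · rw [Pi.single_eq_of_ne hz]
        exact (Finset.prod_eq_zero (f := fun y => f y z) (Finset.mem_univ z) (h2 z hz)).symm
    rw [this]
    exact Subalgebra.prod_mem _ (fun y _ => hf y)
  rw [eq_top_iff]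
  intro v _
  have : v = ∑ x, v x • (Pi.single x 1 : X → ℂ) := by
    funext z
    simp [Finset.sum_apply, Pi.single_apply]
  rw [this]
  exact Submodule.sum_mem _ (fun x _ => Submodule.smul_mem _ _ (hδ x))

/-- the period pair `(l τ, l)`. -/
def pp (τ : ℍ) (l : ℂ) (hl : l ≠ 0) : PeriodPair where
  ω₁ := l * τ
  ω₂ := l
  indep := by
    rw [LinearIndependent.pair_iff]
    intro s t h
    have h1 : l * (s * τ + t) = 0 := by
      rw [← h]
      simp only [Complex.real_smul]
      ring
    have h2 : (s * τ + t : ℂ) = 0 := (mul_eq_zero.1 h1).resolve_left hl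
    have h3 := congrArg Complex.im h2
    simp at h3
    have h4 : s = 0 := h3.resolve_right τ.im_pos.ne'
    subst h4
    simp at h2
    exact ⟨rfl, h2⟩

lemma G_pp (τ : ℍ) (l : ℂ) (hl : l ≠ 0) {k : ℕ} (hk : 3 ≤ k) :
    (pp τ l hl).G k = (l ^ k)⁻¹ * (2 * riemannZeta k) * (E hk τ) := by
  have h1 : (pp τ l hl).G k = (l ^ k)⁻¹ * ∑' v : Fin 2 → ℤ, EisensteinSeries.eisSummand k v τ := by
    rw [PeriodPair.G, ← ((pp τ l hl).latticeEquivProd.symm.toEquiv).tsum_eq,
      ← (finTwoArrowEquiv ℤ).symm.tsum_eq, ← tsum_mul_left]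
    apply tsum_congr
    intro x
    have e : (((pp τ l hl).latticeEquivProd.symm.toEquiv x : (pp τ l hl).lattice) : ℂ) =
      l * (x.1 * τ + x.2) := (PeriodPair.latticeEquiv_symm_apply _ x).trans (by
        change (x.1 : ℂ) * (l * τ) + x.2 * l = _
        ring)
    rw [e, mul_pow, mul_inv]
    simp [EisensteinSeries.eisSummand, finTwoArrowEquiv_symm_apply]
  rw [h1, tsum_eisSummand_eq_riemannZeta_mul_eisensteinSeries hk]
  have h2 : E hk τ = (1 / 2 : ℂ) * eisensteinSeries (N := 1) 0 k τ := rfl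
  rw [h2]
  ring

end Fermat.Agent.H14
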