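import Mathlib
import Fermat.Agent.H14.Eval

/-! # Values of modular forms for `Γ₀(N)` separate cosets. -/

set_option autoImplicit false
set_option backward.isDefEq.respectTransparency.types false

open UpperHalfPlane ModularForm MatrixGroups CongruenceSubgroup
open scoped Manifold Topology Pointwise

noncomputable section

namespace Fermat.Agent.H14

variable (N : ℕ) [NeZero N]

/-- the matrix `diag(N, 1)` over `ℚ`. -/
def gQ : GL (Fin 2) ℚ := Matrix.GeneralLinearGroup.mkOfDetNeZero !![(N : ℚ), 0; 0, 1]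
  (by simp [Matrix.det_fin_two, NeZero.ne N])

/-- the matrix `diag(N, 1)` over `ℝ`. -/
def gR : GL (Fin 2) ℝ := (gQ N).map (Rat.castHom ℝ)

lemma gR_coe : ((gR N : GL (Fin 2) ℝ) : Matrix (Fin 2) (Fin 2) ℝ) = !![(N : ℝ), 0; 0, 1] := by
  ext i j
  fin_cases i <;> fin_cases j <;> simp [gR, gQ, Matrix.GeneralLinearGroup.mkOfDetNeZero]

lemma bdd_aux {k : ℤ} (f : ModularForm 𝒮ℒ k) (γ : SL(2, ℤ)) :
    IsBoundedAtImInfty (((f : ℍ → ℂ) ∣[k] gR N) ∣[k] γ) := by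
  have h1 : (ConjAct.toConjAct (gR N)⁻¹ • (𝒮ℒ : Subgroup (GL (Fin 2) ℝ))).IsArithmetic := by
    have := Subgroup.IsArithmetic.conj (𝒮ℒ : Subgroup (GL (Fin 2) ℝ)) (gQ N)⁻¹
    rwa [map_inv] at this
  exact ModularFormClass.bdd_at_infty_slash (ModularForm.translate f (gR N)) γ

lemma inv_aux {k : ℤ} (f : ModularForm 𝒮ℒ k) (γ : SL(2, ℤ)) (hγ : γ ∈ Gamma0 N) :
    ((f : ℍ → ℂ) ∣[k] gR N) ∣[k] γ = ((f : ℍ → ℂ) ∣[k] gR N) := by
  rw [Gamma0_mem, ZMod.intCast_zmod_eq_zero_iff_dvd] at hγ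
  obtain ⟨c, hc⟩ := hγ
  have hdet := det_eq γ
  let γ' : SL(2, ℤ) := ⟨!![γ 0 0, N * γ 0 1; c, γ 1 1], by
    rw [Matrix.det_fin_two_of]
    rw [hc] at hdet
    linear_combination hdet⟩
  have key : gR N * Matrix.SpecialLinearGroup.mapGL ℝ γ = Matrix.SpecialLinearGroup.mapGL ℝ γ' * gR N := by
    apply Units.ext
    rw [Units.val_mul, Units.val_mul, gR_coe]
    ext i j
    have h10 : ((γ 1 0 : ℤ) : ℝ) = N * c := by rw [hc]; push_cast; rfl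
    fin_cases i <;> fin_cases j <;>
      simp [Matrix.mul_apply, Fin.sum_univ_two, γ', h10, mul_comm]
  have h0 : ((f : ℍ → ℂ) ∣[k] gR N) ∣[k] γ =
      (f : ℍ → ℂ) ∣[k] (gR N * Matrix.SpecialLinearGroup.mapGL ℝ γ) := by
    rw [SlashAction.slash_mul]
    rfl
  rw [h0, key, SlashAction.slash_mul]
  congr 1
  exact f.slash_action_eq' _ ⟨γ', rfl⟩

/-- the forms `E_k(Nz)`, vector-valued -/
def EN {k : ℕ} (hk : 3 ≤ k) : SL(2, ℤ) ⧸ Gamma0 N → ℍ → ℂ :=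
  ind (Gamma0 N) k ((E hk : ℍ → ℂ) ∣[(k : ℤ)] gR N)

lemma EN_mem {k : ℕ} (hk : 3 ≤ k) : EN N hk ∈ V (SL(2, ℤ) ⧸ Gamma0 N) k :=
  ind_mem_V ((ModularFormClass.holo (E hk)).slash _ _) (fun γ hγ => inv_aux N (E hk) γ hγ)
    (fun γ => bdd_aux N (E hk) γ)

/-- the action of `diag(N, 1)`. -/
lemma coe_gR_smul (z : ℍ) : ((gR N • z : ℍ) : ℂ) = N * z := by
  have hdet : 0 < (gR N).det.val := by
    rw [Matrix.GeneralLinearGroup.val_det_apply, gR_coe]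
    simp [Matrix.det_fin_two, Nat.pos_of_ne_zero (NeZero.ne N)]
  rw [coe_smul_of_det_pos hdet, num, denom, gR_coe]
  simp

lemma EN_apply {k : ℕ} (hk : 3 ≤ k) (δ : SL(2, ℤ)) (z : ℍ) :
    EN N hk ((δ⁻¹ : SL(2, ℤ)) : SL(2, ℤ) ⧸ Gamma0 N) z =
      (N : ℂ) ^ ((k : ℤ) - 1) * E hk (gR N • (δ • z)) * (denom δ z) ^ (-(k : ℤ)) := by
  rw [EN, ind_mk (fun γ hγ => inv_aux N (E hk) γ hγ), inv_inv, SL_slash_apply, slash_apply]
  have hdet : (gR N).det.val = N := by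
    rw [Matrix.GeneralLinearGroup.val_det_apply, gR_coe]
    simp [Matrix.det_fin_two]
  have hden : denom (gR N) (δ • z : ℍ) = 1 := by
    rw [denom, gR_coe]
    simp
  have hσ : σ (gR N) (E hk (gR N • (δ • z))) = E hk (gR N • (δ • z)) := by
    rw [σ, if_pos (by rw [hdet]; exact_mod_cast Nat.pos_of_ne_zero (NeZero.ne N))]
    rfl
  rw [hσ, hden, hdet]
  simp
  ring

/-- the lattice `ℤ N(az+b) + ℤ(cz+d)` determines the coset. -/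
lemma coset_eq_of_lattice (δ δ' : SL(2, ℤ)) (z : ℍ)
    (h : (pp (gR N • (δ • z)) (denom δ z) (denom_ne_zero _ z)).lattice =
      (pp (gR N • (δ' • z)) (denom δ' z) (denom_ne_zero _ z)).lattice) :
    ((δ⁻¹ : SL(2, ℤ)) : SL(2, ℤ) ⧸ Gamma0 N) = ((δ'⁻¹ : SL(2, ℤ)) : SL(2, ℤ) ⧸ Gamma0 N) := by
  have h1 : (denom δ z) ∈ (pp (gR N • (δ' • z)) (denom δ' z) (denom_ne_zero _ z)).lattice := by
    rw [← h]
    exact PeriodPair.ω₂_mem_lattice _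
  rw [PeriodPair.mem_lattice] at h1
  obtain ⟨s, t, h2⟩ := h1
  have h3 : (s : ℂ) * (denom δ' z * (gR N • (δ' • z) : ℍ)) + t * denom δ' z = denom δ z := h2
  have hd : ∀ ε : SL(2, ℤ), (denom ε z : ℂ) = (ε 1 0 : ℂ) * z + (ε 1 1 : ℂ) := fun ε =>
    ModularGroup.denom_apply ε z
  have hn : denom δ' z * (gR N • (δ' • z) : ℍ) = (N : ℂ) * ((δ' 0 0 : ℂ) * z + (δ' 0 1 : ℂ)) := by
    have h0 := denom_ne_zero δ' z
    rw [coe_gR_smul, coe_specialLinearGroup_apply]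
    rw [hd] at h0 ⊢
    simp only [eq_intCast, algebraMap_int_eq, Complex.ofReal_intCast]
    field_simp
  rw [hn, hd, hd] at h3
  have him := congrArg Complex.im h3
  simp at him
  have hz := z.im_pos.ne'
  have hc : (δ 1 0 : ℝ) = s * N * (δ' 0 0 : ℝ) + t * (δ' 1 0 : ℝ) := by
    apply mul_right_cancel₀ hz
    linear_combination -him
  have hre := congrArg Complex.re h3
  simp at hre
  have hd' : (δ 1 1 : ℝ) = s * N * (δ' 0 1 : ℝ) + t * (δ' 1 1 : ℝ) := by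
    linear_combination -hre - z.re * hc
  have hc2 : δ 1 0 = s * N * δ' 0 0 + t * δ' 1 0 := by exact_mod_cast hc
  have hd2 : δ 1 1 = s * N * δ' 0 1 + t * δ' 1 1 := by exact_mod_cast hd'
  rw [mk_eq_mk_iff]
  have e : (δ⁻¹ : SL(2, ℤ)) 0 0 * (δ'⁻¹ : SL(2, ℤ)) 1 0 - (δ⁻¹ : SL(2, ℤ)) 1 0 * (δ'⁻¹ : SL(2, ℤ)) 0 0 =
      δ 1 0 * δ' 1 1 - δ 1 1 * δ' 1 0 := by
    simp [Matrix.SpecialLinearGroup.SL2_inv_expl]
    ring
  rw [e, hc2, hd2]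
  refine ⟨s, ?_⟩
  linear_combination (s * N : ℤ) * det_eq δ'

lemma G_eq {k : ℕ} (hk : 3 ≤ k) (δ : SL(2, ℤ)) (z : ℍ) :
    (pp (gR N • (δ • z)) (denom δ z) (denom_ne_zero _ z)).G k =
      (2 * riemannZeta k) * ((N : ℂ) ^ ((k : ℤ) - 1))⁻¹ *
        EN N hk ((δ⁻¹ : SL(2, ℤ)) : SL(2, ℤ) ⧸ Gamma0 N) z := by
  have hN : (N : ℂ) ≠ 0 := by exact_mod_cast NeZero.ne N
  rw [G_pp _ _ _ hk, EN_apply]
  have : ((N : ℂ) ^ ((k : ℤ) - 1)) ≠ 0 := zpow_ne_zero _ hN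
  rw [zpow_neg, zpow_natCast]
  field_simp

/-- the values at `z` separate the cosets -/
lemma separates (z : ℍ) (x y : SL(2, ℤ) ⧸ Gamma0 N) (hxy : x ≠ y) :
    ∃ k : ℤ, ∃ f ∈ V (SL(2, ℤ) ⧸ Gamma0 N) k, f x z ≠ f y z := by
  by_contra hcon
  push Not at hcon
  apply hxy
  obtain ⟨γ, rfl⟩ := QuotientGroup.mk_surjective x
  obtain ⟨γ', rfl⟩ := QuotientGroup.mk_surjective y
  have h4 := hcon _ _ (EN_mem N (k := 4) (by norm_num))
  have h6 := hcon _ _ (EN_mem N (k := 6) (by norm_num))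
  have e : γ = (γ⁻¹)⁻¹ := (inv_inv γ).symm
  have e' : γ' = (γ'⁻¹)⁻¹ := (inv_inv γ').symm
  rw [e, e'] at h4 h6 ⊢
  apply coset_eq_of_lattice N _ _ z
  apply lattice_eq_of_G
  · rw [G_eq N (k := 4) (by norm_num), G_eq N (k := 4) (by norm_num), h4]
  · rw [G_eq N (k := 6) (by norm_num), G_eq N (k := 6) (by norm_num), h6]

lemma hev_Gamma0 (z : ℍ) (v : SL(2, ℤ) ⧸ Gamma0 N → ℂ) :
    v ∈ Submodule.span ℂ {u | ∃ k : ℤ, ∃ f ∈ V (SL(2, ℤ) ⧸ Gamma0 N) k, u = fun x => f x z} := by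
  let M : Submonoid (SL(2, ℤ) ⧸ Gamma0 N → ℂ) :=
    { carrier := {u | ∃ k : ℤ, ∃ f ∈ V (SL(2, ℤ) ⧸ Gamma0 N) k, u = fun x => f x z}
      one_mem' := ⟨0, 1, one_mem_V, rfl⟩
      mul_mem' := by
        rintro _ _ ⟨k, f, hf, rfl⟩ ⟨l, g, hg, rfl⟩
        exact ⟨k + l, f * g, V_mul_V hf hg, rfl⟩ }
  have h := span_eq_top_of_separates M (fun x y hxy => by
    obtain ⟨k, f, hf, h⟩ := separates N z x y hxy
    exact ⟨_, ⟨k, f, hf, rfl⟩, h⟩)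
  have h2 : v ∈ Submodule.span ℂ (M : Set (SL(2, ℤ) ⧸ Gamma0 N → ℂ)) := by
    rw [h]; trivial
  exact h2

end Fermat.Agent.H14
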