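import Mathlib
import Fermat.Agent.H14.Eval2
import Fermat.Agent.H14.Count
import Fermat.Agent.H14.Numerics

/-! # The dimension of the space of weight two cusp forms for `Γ₀(N)`. -/

set_option autoImplicit false
set_option backward.isDefEq.respectTransparency.types false

open UpperHalfPlane ModularForm MatrixGroups CongruenceSubgroup
open scoped Manifold Topology

noncomputable section

namespace Fermat.Agent.H14

/-- `W0 X` has dimension the number of `T`-orbits. -/
lemma finrank_W0 (X : Type) [MulAction SL(2, ℤ) X] [Finite X] :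
    Module.finrank ℂ (W0 X) = Nat.card (MulAction.orbitRel.Quotient
      (Subgroup.zpowers ModularGroup.T) X) := by
  classical
  have := Fintype.ofFinite X
  have : Fintype (MulAction.orbitRel.Quotient (Subgroup.zpowers ModularGroup.T) X) :=
    Fintype.ofFinite _
  have hinv : ∀ (v : W0 X) (n : ℤ) (x : X), (v : X → ℂ) ((ModularGroup.T ^ n : SL(2, ℤ)) • x) =
      (v : X → ℂ) x := by
    intro v n
    induction n using Int.induction_on with
    | zero => intro x; simp
    | succ n ih =>
      intro x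
      rw [_root_.zpow_add, zpow_one, mul_smul, ih]
      exact v.2 x
    | pred n ih =>
      intro x
      have h1 := ih (ModularGroup.T⁻¹ • x)
      have h2 := v.2 (ModularGroup.T⁻¹ • x)
      rw [smul_inv_smul] at h2
      rw [sub_eq_add_neg, _root_.zpow_add, zpow_neg_one, mul_smul, h1]
      exact h2.symm
  let e : W0 X ≃ₗ[ℂ] (MulAction.orbitRel.Quotient (Subgroup.zpowers ModularGroup.T) X → ℂ) :=
    { toFun := fun v => Quotient.lift (v : X → ℂ) (by
        rintro a b ⟨⟨g, hg⟩, h⟩
        obtain ⟨n, rfl⟩ := Subgroup.mem_zpowers_iff.1 hg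
        rw [← h]
        exact hinv v n b)
      map_add' := fun v w => by
        funext q
        induction q using Quotient.inductionOn with
        | h x => rfl
      map_smul' := fun c v => by
        funext q
        induction q using Quotient.inductionOn with
        | h x => rfl
      invFun := fun u => ⟨fun x => u (Quotient.mk _ x), fun x => congrArg u
        (Quotient.sound ⟨⟨ModularGroup.T, Subgroup.mem_zpowers _⟩, rfl⟩)⟩
      left_inv := fun v => rfl
      right_inv := fun u => by
        funext q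
        induction q using Quotient.inductionOn with
        | h x => rfl }
  rw [e.finrank_eq, Module.finrank_fintype_fun_eq_card, Nat.card_eq_fintype_card]

variable (N : ℕ) [NeZero N]

instance : Finite (SL(2, ℤ) ⧸ Gamma0 N) := Subgroup.finite_quotient_of_finiteIndex

omit [NeZero N] in
lemma T_zpow_smul_eq (x : SL(2, ℤ) ⧸ Gamma0 N) :
    (ModularGroup.T ^ (N : ℤ) : SL(2, ℤ)) • x = x := by
  obtain ⟨γ, rfl⟩ := QuotientGroup.mk_surjective x
  rw [MulAction.Quotient.smul_coe, smul_eq_mul, mk_eq_mk_iff, (T_zpow_mul_entries _ _).1,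
    (T_zpow_mul_entries _ _).2]
  exact ⟨γ 1 0 ^ 2, by ring⟩

omit [NeZero N] in
lemma neg_one_smul_eq (x : SL(2, ℤ) ⧸ Gamma0 N) : (-1 : SL(2, ℤ)) • x = x := by
  obtain ⟨γ, rfl⟩ := QuotientGroup.mk_surjective x
  rw [MulAction.Quotient.smul_coe, smul_eq_mul, mk_eq_mk_iff]
  have h1 : ((-1 : SL(2, ℤ)) * γ) 0 0 = - γ 0 0 := by simp
  have h2 : ((-1 : SL(2, ℤ)) * γ) 1 0 = - γ 1 0 := by simp
  rw [h1, h2]
  exact ⟨0, by ring⟩

/-- the structure for `Γ₀(N)`. -/
def setupGamma0 [Fintype (SL(2, ℤ) ⧸ Gamma0 N)] : Setup (SL(2, ℤ) ⧸ Gamma0 N) where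
  w := N
  hw0 := Nat.pos_of_ne_zero (NeZero.ne N)
  hw := T_zpow_smul_eq N
  hneg := hneg_quot (Gamma0 N)
  hzero := hzero_quot (Gamma0 N)
  hodd := neg_one_smul_eq N
  hev := hev_Gamma0 N

theorem finrank_cuspForm_two :
    (Module.finrank ℂ (CuspForm (Gamma0 N) 2) : ℚ) = ModularCurve.genusFormula N := by
  classical
  have := Fintype.ofFinite (SL(2, ℤ) ⧸ Gamma0 N)
  have h := finrank_S_two_eq (setupGamma0 N)
  have h1 : Module.finrank ℂ (W0 (SL(2, ℤ) ⧸ Gamma0 N)) = ModularCurve.cuspCount N :=
    (finrank_W0 _).trans (card_orbits_T N)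
  rw [(toS (Gamma0 N) 2).finrank_eq, h, ModularCurve.genusFormula, h1, ← card_X, ← card_fix_S, ← card_fix_ST, ← Nat.card_eq_fintype_card, ← Nat.card_eq_fintype_card,
    ← Nat.card_eq_fintype_card]

end Fermat.Agent.H14
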