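import Mathlib
import Fermat.Agent.H14.Num1

/-! # Orbits of `T` on cosets of `Γ₀(N)` in `SL₂(ℤ)`. -/

set_option autoImplicit false
set_option backward.isDefEq.respectTransparency.types false

open MatrixGroups Matrix CongruenceSubgroup

namespace Fermat.Agent.H14

section

lemma exists_rep {δ : ℕ} [NeZero δ] (g : ℕ) (hg : g ∣ δ) (s : (ZMod g)ˣ) :
    ∃ γ : SL(2, ℤ), γ 1 0 = δ ∧ ((γ 0 0 : ℤ) : ZMod g) = s := by
  obtain ⟨u, hu⟩ := ZMod.unitsMap_surjective hg s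
  have hc : IsCoprime ((u : ZMod δ).val : ℤ) (δ : ℤ) :=
    Nat.isCoprime_iff_coprime.2 (ZMod.val_coe_unit_coprime u)
  obtain ⟨γ, h1, h2⟩ := hc.exists_SL2_col 0
  refine ⟨γ, h2, ?_⟩
  rw [h1, ← hu, ZMod.unitsMap_val]
  simp [ZMod.natCast_val]

lemma isCoprime_col (γ : SL(2, ℤ)) : IsCoprime (γ 0 0) (γ 1 0) :=
  ⟨γ 1 1, - γ 0 1, by linear_combination det_eq γ⟩

/-- lemma on equality -/
lemma delta_eq {N : ℕ} (hN : N ≠ 0) {γ γ' : SL(2, ℤ)} {δ δ' : ℕ} (hδ : δ ∣ N) (hδ' : δ' ∣ N)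
    (h1 : γ 1 0 = δ) (h2 : γ' 1 0 = δ')
    (h : (N : ℤ) ∣ γ 0 0 * γ' 1 0 - γ 1 0 * γ' 0 0) : δ = δ' ∧
      ((N / δ : ℕ) : ℤ) ∣ γ 0 0 - γ' 0 0 := by
  have hc := isCoprime_col γ
  have hc' := isCoprime_col γ'
  rw [h1] at hc
  rw [h2] at hc'
  rw [h1, h2] at h
  have e1 : δ ∣ δ' := by
    have : (δ : ℤ) ∣ γ 0 0 * δ' := by
      have h3 := (Int.natCast_dvd_natCast.2 hδ).trans h
      have h4 : (δ : ℤ) ∣ (δ : ℤ) * γ' 0 0 := dvd_mul_right _ _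
      have := dvd_add h3 h4
      rwa [sub_add_cancel] at this
    exact Int.natCast_dvd_natCast.1 (hc.symm.dvd_of_dvd_mul_left this)
  have e2 : δ' ∣ δ := by
    have : (δ' : ℤ) ∣ γ' 0 0 * δ := by
      have h3 := (Int.natCast_dvd_natCast.2 hδ').trans h
      have h4 : (δ' : ℤ) ∣ γ 0 0 * (δ' : ℤ) := dvd_mul_left _ _
      have := dvd_sub h4 h3
      rwa [sub_sub_cancel, mul_comm] at this
    exact Int.natCast_dvd_natCast.1 (hc'.symm.dvd_of_dvd_mul_left this)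
  have e := Nat.dvd_antisymm e1 e2
  subst e
  refine ⟨rfl, ?_⟩
  obtain ⟨M, rfl⟩ := hδ
  have hδ0 : δ ≠ 0 := fun h => hN (by simp [h])
  rw [Nat.mul_div_cancel_left _ (Nat.pos_of_ne_zero hδ0)]
  have : ((δ * M : ℕ) : ℤ) = (δ : ℤ) * M := by push_cast; rfl
  rw [this, show γ 0 0 * (δ : ℤ) - δ * γ' 0 0 = (δ : ℤ) * (γ 0 0 - γ' 0 0) by ring] at h
  exact Int.dvd_of_mul_dvd_mul_left (by exact_mod_cast hδ0) h

variable (N : ℕ)

/-- the cusps of `Γ₀(N)`. -/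
abbrev CuspIdx : Type := Σ δ : {δ // δ ∈ N.divisors}, (ZMod (Nat.gcd δ.1 (N / δ.1)))ˣ

lemma exists_rep' [NeZero N] (i : CuspIdx N) : ∃ γ : SL(2, ℤ), γ 1 0 = i.1.1 ∧
    ((γ 0 0 : ℤ) : ZMod (Nat.gcd i.1.1 (N / i.1.1))) = i.2 := by
  have h : i.1.1 ≠ 0 := fun h => by
    have := i.1.2
    simp [h] at this
  have : NeZero i.1.1 := ⟨h⟩
  exact exists_rep _ (Nat.gcd_dvd_left _ _) _

/-- representatives of the cusps -/
noncomputable def rep [NeZero N] (i : CuspIdx N) : SL(2, ℤ) := (exists_rep' N i).choose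

lemma rep_10 [NeZero N] (i : CuspIdx N) : rep N i 1 0 = i.1.1 := (exists_rep' N i).choose_spec.1

lemma rep_00 [NeZero N] (i : CuspIdx N) :
    ((rep N i 0 0 : ℤ) : ZMod (Nat.gcd i.1.1 (N / i.1.1))) = i.2 := (exists_rep' N i).choose_spec.2

lemma gcd_dvd_aux {δ M g : ℕ} (hg : g = Nat.gcd δ M) {n a a' : ℤ} (h : (M : ℤ) ∣ a + n * δ - a') :
    (g : ℤ) ∣ a - a' := by
  have h1 : (g : ℤ) ∣ M := by exact_mod_cast hg ▸ Nat.gcd_dvd_right _ _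
  have h2 : (g : ℤ) ∣ δ := by exact_mod_cast hg ▸ Nat.gcd_dvd_left _ _
  have h3 := h1.trans h
  have h4 : (g : ℤ) ∣ n * δ := Dvd.dvd.mul_left h2 n
  have := dvd_sub h3 h4
  rwa [show a + n * δ - a' - n * δ = a - a' by ring] at this

/-- the width of the cusp -/
def cwidth (i : CuspIdx N) : ℕ := (N / i.1.1) / Nat.gcd i.1.1 (N / i.1.1)

lemma rep_inj [NeZero N] (i j : CuspIdx N) (n : ℤ)
    (h : ModularGroup.T ^ n • (rep N i : SL(2, ℤ) ⧸ Gamma0 N) = (rep N j : SL(2, ℤ) ⧸ Gamma0 N)) :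
    i = j := by
  rw [MulAction.Quotient.smul_coe, smul_eq_mul, mk_eq_mk_iff] at h
  have hi : i.1.1 ∣ N := Nat.dvd_of_mem_divisors i.1.2
  have hj : j.1.1 ∣ N := Nat.dvd_of_mem_divisors j.1.2
  obtain ⟨h1, h2⟩ := delta_eq (NeZero.ne N) hi hj
    (by rw [(T_zpow_mul_entries _ _).2, rep_10]) (rep_10 N j) h
  rw [(T_zpow_mul_entries _ _).1, rep_10] at h2
  have h3 := gcd_dvd_aux (g := Nat.gcd i.1.1 (N / i.1.1)) rfl h2
  have hi2 := rep_00 N i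
  have hj2 := rep_00 N j
  generalize rep N i 0 0 = a at *
  generalize rep N j 0 0 = b at *
  obtain ⟨⟨δ, hδ⟩, s⟩ := i
  obtain ⟨⟨δ', hδ'⟩, s'⟩ := j
  simp only at h1
  subst h1
  have : s = s' := by
    apply Units.ext
    rw [← hi2, ← hj2, ← sub_eq_zero, ← Int.cast_sub, ZMod.intCast_zmod_eq_zero_iff_dvd]
    exact h3
  subst this
  rfl

lemma rep_surj [NeZero N] (γ : SL(2, ℤ)) : ∃ (i : CuspIdx N) (n : ℤ),
    (γ : SL(2, ℤ) ⧸ Gamma0 N) = ModularGroup.T ^ n • (rep N i : SL(2, ℤ) ⧸ Gamma0 N) := by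
  have hN : N ≠ 0 := NeZero.ne N
  set δ : ℕ := Int.gcd (γ 1 0) N with hδ
  have hδN : δ ∣ N := by
    have := Int.gcd_dvd_right (γ 1 0) N
    exact Int.natCast_dvd_natCast.1 this
  have hδ0 : δ ≠ 0 := fun h => hN (Nat.eq_zero_of_zero_dvd (h ▸ hδN))
  obtain ⟨u, hu⟩ : (δ : ℤ) ∣ γ 1 0 := Int.gcd_dvd_left _ _
  obtain ⟨M, hM⟩ := hδN
  have hM' : N / δ = M := by
    conv_lhs => rw [hM]
    exact Nat.mul_div_cancel_left _ (Nat.pos_of_ne_zero hδ0)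
  obtain ⟨x, y, hxy⟩ : ∃ x y : ℤ, x * u + y * M = 1 := by
    refine ⟨Int.gcdA (γ 1 0) N, Int.gcdB (γ 1 0) N, ?_⟩
    have h1 := Int.gcd_eq_gcd_ab (γ 1 0) N
    rw [← hδ] at h1
    have h2 : (N : ℤ) = δ * M := by exact_mod_cast hM
    have hδ0' : (δ : ℤ) ≠ 0 := by exact_mod_cast hδ0
    apply mul_left_cancel₀ hδ0'
    calc (δ : ℤ) * (Int.gcdA (γ 1 0) N * u + Int.gcdB (γ 1 0) N * M)
        = (δ * u) * Int.gcdA (γ 1 0) N + (δ * M) * Int.gcdB (γ 1 0) N := by ring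
      _ = δ * 1 := by rw [← h2, ← hu, ← h1, mul_one]
  set g : ℕ := Nat.gcd δ M with hg
  have hgδ : (g : ℤ) ∣ δ := by exact_mod_cast Nat.gcd_dvd_left _ _
  have hgM : (g : ℤ) ∣ M := by exact_mod_cast Nat.gcd_dvd_right _ _
  have hunit : IsUnit (((γ 0 0 * x : ℤ)) : ZMod (Nat.gcd δ (N / δ))) := by
    rw [hM', ← hg]
    refine IsUnit.of_mul_eq_one ((γ 1 1 * u : ℤ) : ZMod g) ?_
    suffices h : (((γ 0 0 * x) * (γ 1 1 * u) - 1 : ℤ) : ZMod g) = 0 by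
      push_cast at h ⊢
      linear_combination h
    rw [ZMod.intCast_zmod_eq_zero_iff_dvd]
    obtain ⟨p, hp⟩ := hgδ
    obtain ⟨q, hq⟩ := hgM
    refine ⟨(γ 0 1 * p * u) * (x * u) - y * q, ?_⟩
    have hd := det_eq γ
    rw [hu, hp] at hd
    rw [hq] at hxy
    linear_combination (x * u) * hd + hxy
  have hmem : δ ∈ N.divisors := Nat.mem_divisors.2 ⟨hM ▸ dvd_mul_right _ _, hN⟩
  refine ⟨⟨⟨δ, hmem⟩, hunit.unit⟩, ?_⟩
  have h1 := rep_00 N ⟨⟨δ, hmem⟩, hunit.unit⟩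
  have h2 := rep_10 N ⟨⟨δ, hmem⟩, hunit.unit⟩
  rw [IsUnit.unit_spec, ← sub_eq_zero, ← Int.cast_sub, ZMod.intCast_zmod_eq_zero_iff_dvd] at h1
  simp only [hM'] at h1
  obtain ⟨k, hk⟩ := h1
  simp only at h2
  generalize hR : rep N ⟨⟨δ, hmem⟩, hunit.unit⟩ = ρ at *
  have hbz := Nat.gcd_eq_gcd_ab δ M
  rw [hbz] at hk
  refine ⟨- (Nat.gcdA δ M * k), ?_⟩
  rw [MulAction.Quotient.smul_coe, smul_eq_mul, mk_eq_mk_iff, (T_zpow_mul_entries _ _).1,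
    (T_zpow_mul_entries _ _).2, h2, hu]
  refine ⟨γ 0 0 * y - u * (Nat.gcdB δ M) * k, ?_⟩
  have h3 : (N : ℤ) = δ * M := by exact_mod_cast hM
  rw [h3]
  linear_combination (-(δ : ℤ) * u) * hk - (δ : ℤ) * γ 0 0 * hxy

end

end Fermat.Agent.H14
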