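import Mathlib
import Fermat.Agent.H14.Num2

/-! # Counting cosets and cusps of `Γ₀(N)`. -/

set_option autoImplicit false
set_option backward.isDefEq.respectTransparency.types false

open MatrixGroups Matrix CongruenceSubgroup

namespace Fermat.Agent.H14

section

variable (N : ℕ)

lemma T_zpow_smul_rep_iff [NeZero N] (i : CuspIdx N) (n m : ℤ) :
    (ModularGroup.T ^ n • (rep N i : SL(2, ℤ) ⧸ Gamma0 N) =
      ModularGroup.T ^ m • (rep N i : SL(2, ℤ) ⧸ Gamma0 N)) ↔ (cwidth N i : ℤ) ∣ n - m := by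
  rw [MulAction.Quotient.smul_coe, MulAction.Quotient.smul_coe, smul_eq_mul, smul_eq_mul,
    mk_eq_mk_iff, (T_zpow_mul_entries _ _).1,
    (T_zpow_mul_entries _ _).2, (T_zpow_mul_entries _ _).1,
    (T_zpow_mul_entries _ _).2, rep_10]
  have hi : i.1.1 ∣ N := Nat.dvd_of_mem_divisors i.1.2
  have hδ0 : i.1.1 ≠ 0 := fun h => NeZero.ne N (Nat.eq_zero_of_zero_dvd (h ▸ hi))
  unfold cwidth
  generalize rep N i 0 0 = a
  generalize i.1.1 = δ at *
  obtain ⟨M, hM⟩ := hi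
  have hM0 : M ≠ 0 := fun h => NeZero.ne N (by rw [hM, h, mul_zero])
  have hM' : N / δ = M := by
    conv_lhs => rw [hM]
    exact Nat.mul_div_cancel_left _ (Nat.pos_of_ne_zero hδ0)
  rw [hM']
  have hg0 : 0 < Nat.gcd δ M := Nat.gcd_pos_of_pos_left _ (Nat.pos_of_ne_zero hδ0)
  obtain ⟨δ', M', hco, h1, h2⟩ := Nat.exists_coprime δ M
  have hMg : M / Nat.gcd δ M = M' := Nat.div_eq_of_eq_mul_left hg0 h2
  rw [hMg]
  have e : (a + n * δ) * δ - δ * (a + m * δ) = δ * ((n - m) * δ) := by ring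
  rw [e, hM]
  push_cast
  rw [mul_dvd_mul_iff_left (by exact_mod_cast hδ0)]
  have h1' : (δ : ℤ) = δ' * (Nat.gcd δ M : ℕ) := by exact_mod_cast h1
  have h2' : (M : ℤ) = M' * (Nat.gcd δ M : ℕ) := by exact_mod_cast h2
  have hg0' : ((Nat.gcd δ M : ℕ) : ℤ) ≠ 0 := by exact_mod_cast hg0.ne'
  generalize ((Nat.gcd δ M : ℕ) : ℤ) = g at *
  rw [h1', h2', ← mul_assoc, mul_dvd_mul_iff_right hg0']
  have hco' : IsCoprime (M' : ℤ) (δ' : ℤ) := Nat.isCoprime_iff_coprime.2 hco.symm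
  exact ⟨fun h => hco'.dvd_of_dvd_mul_right h, fun h => Dvd.dvd.mul_right h _⟩

lemma cwidth_pos [NeZero N] (i : CuspIdx N) : 0 < cwidth N i := by
  have hi : i.1.1 ∣ N := Nat.dvd_of_mem_divisors i.1.2
  unfold cwidth
  have h1 : 0 < N / i.1.1 := Nat.div_pos (Nat.le_of_dvd (Nat.pos_of_ne_zero (NeZero.ne N)) hi)
    (Nat.pos_of_mem_divisors i.1.2)
  exact Nat.div_pos (Nat.gcd_le_right _ h1) (Nat.gcd_pos_of_pos_right _ h1)

/-- counting cosets -/
lemma card_eq_card_sigma [NeZero N] :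
    Nat.card (SL(2, ℤ) ⧸ Gamma0 N) = Nat.card (Σ i : CuspIdx N, Fin (cwidth N i)) := by
  symm
  refine Nat.card_congr (Equiv.ofBijective (fun p => ModularGroup.T ^ ((p.2 : ℕ) : ℤ) •
    (rep N p.1 : SL(2, ℤ) ⧸ Gamma0 N)) ⟨?_, ?_⟩)
  · rintro ⟨i, n⟩ ⟨j, m⟩ h
    simp only at h
    have hij : i = j := by
      apply rep_inj N i j (-(m : ℕ) + (n : ℕ))
      rw [_root_.zpow_add, mul_smul, h, ← mul_smul, ← _root_.zpow_add]
      simp
    subst hij
    rw [T_zpow_smul_rep_iff] at h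
    have : (n : ℕ) = (m : ℕ) := by
      have hn := n.2
      have hm := m.2
      obtain ⟨k, hk⟩ := h
      have hw : (0 : ℤ) < cwidth N i := by exact_mod_cast cwidth_pos N i
      have hn' : ((n : ℕ) : ℤ) < cwidth N i := by exact_mod_cast hn
      have hm' : ((m : ℕ) : ℤ) < cwidth N i := by exact_mod_cast hm
      have hk0 : k = 0 := by
        by_contra hk0
        rcases lt_or_gt_of_ne hk0 with h0 | h0
        · nlinarith
        · nlinarith
      subst hk0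
      have : ((n : ℕ) : ℤ) = (m : ℕ) := by linarith
      exact_mod_cast this
    have h' : n = m := Fin.ext this
    subst h'
    rfl
  · intro x
    obtain ⟨γ, rfl⟩ := QuotientGroup.mk_surjective x
    obtain ⟨i, n, h⟩ := rep_surj N γ
    have hw : (0 : ℤ) < cwidth N i := by exact_mod_cast cwidth_pos N i
    have hmod := Int.emod_nonneg n hw.ne'
    have hmod2 := Int.emod_lt_of_pos n hw
    refine ⟨⟨i, ⟨(n % cwidth N i).toNat, by omega⟩⟩, ?_⟩
    simp only
    rw [h, T_zpow_smul_rep_iff, Int.toNat_of_nonneg hmod]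
    refine ⟨-(n / cwidth N i), ?_⟩
    have := Int.emod_add_mul_ediv n (cwidth N i)
    linarith

instance [NeZero N] : Finite (CuspIdx N) := by
  have : ∀ δ : {δ // δ ∈ N.divisors}, Finite (ZMod (Nat.gcd δ.1 (N / δ.1)))ˣ := fun δ => by
    have h : 0 < Nat.gcd δ.1 (N / δ.1) := Nat.gcd_pos_of_pos_left _ (Nat.pos_of_mem_divisors δ.2)
    have : NeZero (Nat.gcd δ.1 (N / δ.1)) := ⟨h.ne'⟩
    infer_instance
  infer_instance

lemma card_units_gcd [NeZero N] (δ : {δ // δ ∈ N.divisors}) :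
    Nat.card (ZMod (Nat.gcd δ.1 (N / δ.1)))ˣ = Nat.totient (Nat.gcd δ.1 (N / δ.1)) := by
  have h : 0 < Nat.gcd δ.1 (N / δ.1) := Nat.gcd_pos_of_pos_left _ (Nat.pos_of_mem_divisors δ.2)
  have : NeZero (Nat.gcd δ.1 (N / δ.1)) := ⟨h.ne'⟩
  rw [Nat.card_eq_fintype_card, ZMod.card_units_eq_totient]

lemma card_cuspIdx [NeZero N] : Nat.card (CuspIdx N) = ModularCurve.cuspCount N := by
  have : ∀ δ : {δ // δ ∈ N.divisors}, Finite (ZMod (Nat.gcd δ.1 (N / δ.1)))ˣ := fun δ => by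
    have h : 0 < Nat.gcd δ.1 (N / δ.1) := Nat.gcd_pos_of_pos_left _ (Nat.pos_of_mem_divisors δ.2)
    have : NeZero (Nat.gcd δ.1 (N / δ.1)) := ⟨h.ne'⟩
    infer_instance
  rw [Nat.card_sigma, ModularCurve.cuspCount]
  simp_rw [card_units_gcd]
  exact Finset.sum_coe_sort N.divisors (fun d => Nat.totient (Nat.gcd d (N / d)))

/-- counting cusps -/
theorem card_orbits_T [NeZero N] :
    Nat.card (MulAction.orbitRel.Quotient (Subgroup.zpowers ModularGroup.T)
      (SL(2, ℤ) ⧸ Gamma0 N)) = ModularCurve.cuspCount N := by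
  rw [← card_cuspIdx]
  symm
  refine Nat.card_congr (Equiv.ofBijective (fun i => Quotient.mk _
    (rep N i : SL(2, ℤ) ⧸ Gamma0 N)) ⟨?_, ?_⟩)
  · intro i j h
    have h' := Quotient.exact h
    obtain ⟨⟨g, hg⟩, h'⟩ := h'
    obtain ⟨n, rfl⟩ := Subgroup.mem_zpowers_iff.1 hg
    exact (rep_inj N j i n h').symm
  · intro x
    induction x using Quotient.inductionOn with
    | h x =>
      obtain ⟨γ, rfl⟩ := QuotientGroup.mk_surjective x
      obtain ⟨i, n, h⟩ := rep_surj N γ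
      refine ⟨i, ?_⟩
      apply Quotient.sound
      refine ⟨⟨ModularGroup.T ^ (-n), Subgroup.mem_zpowers_iff.2 ⟨-n, rfl⟩⟩, ?_⟩
      simp only
      rw [h]
      change ModularGroup.T ^ (-n) • ModularGroup.T ^ n • (rep N i : SL(2, ℤ) ⧸ Gamma0 N) = _
      rw [← mul_smul, ← _root_.zpow_add]
      simp

end

end Fermat.Agent.H14
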