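import Mathlib
import Fermat.Agent.H14.Num3

/-! # The index of `Γ₀(N)`. -/

set_option autoImplicit false
set_option backward.isDefEq.respectTransparency.types false

open MatrixGroups Matrix CongruenceSubgroup

namespace Fermat.Agent.H14

section

open ArithmeticFunction

lemma sum_mu (n : ℕ) (hn : n ≠ 0) :
    ∑ e ∈ n.divisors, (moebius e : ℤ) = if n = 1 then 1 else 0 := by
  have h := congrArg (fun f : ArithmeticFunction ℤ => f n) moebius_mul_coe_zeta
  simp only [coe_mul_zeta_apply, ArithmeticFunction.one_apply] at h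
  exact h

lemma sum_mu_sq (m : ℕ) (hm : m ≠ 0) :
    ∑ e ∈ m.divisors with e ^ 2 ∣ m, (moebius e : ℤ) = if Squarefree m then 1 else 0 := by
  obtain ⟨s, t, hst, hs⟩ := Nat.sq_mul_squarefree m
  have ht0 : t ≠ 0 := by rintro rfl; simp at hst; exact hm hst.symm
  have hs0 : s ≠ 0 := hs.ne_zero
  have h1 : (m.divisors.filter (fun e => e ^ 2 ∣ m)) = t.divisors := by
    ext e
    simp only [Finset.mem_filter, Nat.mem_divisors]
    constructor
    · rintro ⟨⟨-, -⟩, h⟩
      refine ⟨?_, ht0⟩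
      have he0 : e ≠ 0 := by rintro rfl; simp at h; exact hm h
      rw [← Nat.factorization_le_iff_dvd he0 ht0]
      intro p
      have h2 := (Nat.factorization_le_iff_dvd (pow_ne_zero 2 he0) hm).2 h p
      rw [← hst, Nat.factorization_mul (pow_ne_zero 2 ht0) hs0, Nat.factorization_pow,
        Nat.factorization_pow] at h2
      simp only [Finsupp.coe_smul, Finsupp.coe_add, Pi.add_apply, Pi.smul_apply, smul_eq_mul] at h2
      have h3 := hs.natFactorization_le_one p
      omega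
    · rintro ⟨h, -⟩
      have h2 : e ^ 2 ∣ m := by
        rw [← hst]
        exact Dvd.dvd.mul_right (pow_dvd_pow_of_dvd h 2) s
      exact ⟨⟨(dvd_pow_self e (by norm_num)).trans h2, hm⟩, h2⟩
  rw [h1, sum_mu t ht0]
  have h2 : t = 1 ↔ Squarefree m := by
    constructor
    · rintro rfl
      rw [← hst]
      simpa using hs
    · intro h
      have := h t ⟨s, by rw [← hst]; ring⟩
      exact Nat.isUnit_iff.1 this
  by_cases h : t = 1
  · rw [if_pos h, if_pos (h2.1 h)]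
  · rw [if_neg h, if_neg (fun h' => h (h2.2 h'))]

lemma totient_mul_div (M g : ℕ) (hg : g ∣ M) (hM : M ≠ 0) :
    ((Nat.totient g * (M / g) : ℕ) : ℤ) = ∑ e ∈ g.divisors, moebius e * ((M / e : ℕ) : ℤ) := by
  have hg0 : g ≠ 0 := by rintro rfl; exact hM (Nat.eq_zero_of_zero_dvd hg)
  have h := (sum_eq_iff_sum_mul_moebius_eq (R := ℤ) (f := fun n => (Nat.totient n : ℤ))
    (g := fun n => (n : ℤ))).1 (fun n hn => by
      have := Nat.sum_totient n
      exact_mod_cast this) g (Nat.pos_of_ne_zero hg0)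
  simp only [Int.cast_id] at h
  push_cast
  rw [← h, Finset.sum_mul]
  rw [Nat.sum_divisorsAntidiagonal (f := fun x y => ((moebius x : ℤ) : ℤ) * (y : ℤ) *
    ((M : ℤ) / (g : ℤ)))]
  apply Finset.sum_congr rfl
  intro e he
  obtain ⟨heg, -⟩ := Nat.mem_divisors.1 he
  rw [mul_assoc]
  congr 1
  obtain ⟨k, hk⟩ := heg
  obtain ⟨l, hl⟩ := hg
  have he0 : e ≠ 0 := by rintro rfl; exact hg0 (by simpa using hk)
  have e1 : g / e = k := Nat.div_eq_of_eq_mul_right (Nat.pos_of_ne_zero he0) hk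
  have e2 : (M : ℤ) / g = l := by
    rw [hl]
    push_cast
    exact Int.mul_ediv_cancel_left _ (by exact_mod_cast hg0)
  have e3 : (M : ℤ) / e = k * l := by
    rw [hl, hk]
    push_cast
    rw [mul_assoc]
    exact Int.mul_ediv_cancel_left _ (by exact_mod_cast he0)
  rw [e1, e2, e3]

lemma psi_identity (N : ℕ) (hN : N ≠ 0) :
    ∑ δ ∈ N.divisors, Nat.totient (Nat.gcd δ (N / δ)) * ((N / δ) / Nat.gcd δ (N / δ)) =
      ModularCurve.dedekindPsi N := by
  have key : ((∑ δ ∈ N.divisors, Nat.totient (Nat.gcd δ (N / δ)) *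
      ((N / δ) / Nat.gcd δ (N / δ)) : ℕ) : ℤ) = (ModularCurve.dedekindPsi N : ℕ) := by
    have h1 : ∀ δ ∈ N.divisors, ((Nat.totient (Nat.gcd δ (N / δ)) *
      ((N / δ) / Nat.gcd δ (N / δ)) : ℕ) : ℤ) =
        ∑ e ∈ (Nat.gcd δ (N / δ)).divisors, moebius e * (((N / δ) / e : ℕ) : ℤ) := by
      intro δ hδ
      apply totient_mul_div _ _ (Nat.gcd_dvd_right _ _)
      have := Nat.div_pos (Nat.le_of_dvd (Nat.pos_of_ne_zero hN) (Nat.dvd_of_mem_divisors hδ))
        (Nat.pos_of_mem_divisors hδ)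
      exact this.ne'
    push_cast
    push_cast at h1
    rw [Finset.sum_congr rfl h1, Finset.sum_sigma', ModularCurve.dedekindPsi]
    have h2 : ((∑ d ∈ N.divisors with Squarefree d, N / d : ℕ) : ℤ) =
        ∑ m ∈ N.divisors, ∑ e ∈ m.divisors with e ^ 2 ∣ m, moebius e * ((N / m : ℕ) : ℤ) := by
      push_cast
      rw [Finset.sum_filter]
      apply Finset.sum_congr rfl
      intro m hm
      rw [← Finset.sum_mul, sum_mu_sq m (Nat.pos_of_mem_divisors hm).ne']
      split_ifs <;> simp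
    rw [h2, Finset.sum_sigma']
    refine Finset.sum_bij' (fun p _ => ⟨p.1 * p.2, p.2⟩) (fun p _ => ⟨p.1 / p.2, p.2⟩) ?_ ?_ ?_ ?_ ?_
    · rintro ⟨δ, e⟩ h
      simp only [Finset.mem_sigma, Nat.mem_divisors, Finset.mem_filter] at h ⊢
      obtain ⟨⟨hδ, -⟩, he, hne⟩ := h
      obtain ⟨M, hM⟩ := hδ
      have hδ0 : δ ≠ 0 := by rintro rfl; exact hN (by simpa using hM)
      have hNδ : N / δ = M := Nat.div_eq_of_eq_mul_right (Nat.pos_of_ne_zero hδ0) hM
      rw [hNδ] at he
      have he1 : e ∣ δ := he.trans (Nat.gcd_dvd_left _ _)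
      have he2 : e ∣ M := he.trans (Nat.gcd_dvd_right _ _)
      have he0 : e ≠ 0 := by rintro rfl; exact hδ0 (Nat.eq_zero_of_zero_dvd he1)
      refine ⟨⟨hM ▸ Nat.mul_dvd_mul_left δ he2, hN⟩, ⟨dvd_mul_left _ _, mul_ne_zero hδ0 he0⟩, ?_⟩
      rw [pow_two]
      exact Nat.mul_dvd_mul_right he1 e
    · rintro ⟨m, e⟩ h
      simp only [Finset.mem_sigma, Nat.mem_divisors, Finset.mem_filter] at h ⊢
      obtain ⟨⟨hm, -⟩, ⟨he, hm0⟩, hem⟩ := h
      obtain ⟨k, hk⟩ := hem
      have he0 : e ≠ 0 := by rintro rfl; exact hm0 (by simpa using hk)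
      have e1 : m / e = e * k := Nat.div_eq_of_eq_mul_right (Nat.pos_of_ne_zero he0)
        (by rw [hk]; ring)
      obtain ⟨l, hl⟩ := hm
      have hk0 : k ≠ 0 := by rintro rfl; exact hm0 (by simpa using hk)
      have e2 : N / (e * k) = e * l := Nat.div_eq_of_eq_mul_right
        (Nat.pos_of_ne_zero (mul_ne_zero he0 hk0)) (by rw [hl, hk]; ring)
      rw [e1, e2]
      refine ⟨⟨⟨e * l, by rw [hl, hk]; ring⟩, hN⟩, Nat.dvd_gcd (dvd_mul_right _ _)
        (dvd_mul_right _ _), ?_⟩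
      exact (Nat.gcd_pos_of_pos_left _ (Nat.pos_of_ne_zero (mul_ne_zero he0 hk0))).ne'
    · rintro ⟨δ, e⟩ h
      simp only [Finset.mem_sigma, Nat.mem_divisors] at h
      obtain ⟨⟨hδ, -⟩, he, hne⟩ := h
      have he0 : e ≠ 0 := by rintro rfl; exact hne (Nat.eq_zero_of_zero_dvd he)
      simp only
      rw [Nat.mul_div_cancel _ (Nat.pos_of_ne_zero he0)]
    · rintro ⟨m, e⟩ h
      simp only [Finset.mem_sigma, Nat.mem_divisors, Finset.mem_filter] at h
      obtain ⟨⟨hm, -⟩, ⟨he, hm0⟩, hem⟩ := h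
      simp only
      rw [Nat.div_mul_cancel he]
    · rintro ⟨δ, e⟩ h
      simp only
      rw [← Nat.div_div_eq_div_mul]
      push_cast
      rfl
  exact_mod_cast key

theorem card_X (N : ℕ) [NeZero N] :
    Nat.card (SL(2, ℤ) ⧸ Gamma0 N) = ModularCurve.dedekindPsi N := by
  rw [card_eq_card_sigma, ← psi_identity N (NeZero.ne N)]
  have hf2 : ∀ δ : {δ // δ ∈ N.divisors}, Fintype (ZMod (Nat.gcd δ.1 (N / δ.1)))ˣ := fun δ => by
    have h : 0 < Nat.gcd δ.1 (N / δ.1) := Nat.gcd_pos_of_pos_left _ (Nat.pos_of_mem_divisors δ.2)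
    have : NeZero (Nat.gcd δ.1 (N / δ.1)) := ⟨h.ne'⟩
    infer_instance
  rw [Nat.card_sigma]
  simp only [Nat.card_eq_fintype_card, Fintype.card_fin]
  rw [Fintype.sum_sigma, ← Finset.sum_coe_sort N.divisors]
  apply Finset.sum_congr rfl
  intro δ _
  simp only [cwidth, Finset.sum_const, Finset.card_univ, smul_eq_mul]
  rw [← Nat.card_eq_fintype_card, card_units_gcd]

end

end Fermat.Agent.H14
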