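import Fermat.Agent.H14.LevelOne

set_option autoImplicit false

open UpperHalfPlane ModularForm MatrixGroups ModularGroup Filter Function
open scoped Manifold Topology

noncomputable section

namespace Fermat.Agent.H14

local notation "𝕢" => Periodic.qParam

/-- scalar functions with a `q`-expansion in the parameter of width `w`. -/
structure Good (w : ℝ) (g : ℍ → ℂ) : Prop where
  per : Function.Periodic (g ∘ ofComplex) w
  hol : MDiff g
  bdd : IsBoundedAtImInfty g

namespace Good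

variable {w : ℝ} {g h : ℍ → ℂ}

lemma hasSum (hw : 0 < w) (hg : Good w g) (τ : ℍ) :
    HasSum (fun m : ℕ ↦ (qExpansion w g).coeff m • 𝕢 w τ ^ m) (g τ) :=
  hasSum_qExpansion hw hg.per hg.hol hg.bdd τ

lemma analytic (hw : 0 < w) (hg : Good w g) : AnalyticAt ℂ (cuspFunction w g) 0 :=
  analyticAt_cuspFunction_zero hw hg.per hg.hol hg.bdd

lemma tendsto (hw : 0 < w) (hg : Good w g) :
    Tendsto g atImInfty (𝓝 ((qExpansion w g).coeff 0)) := by
  have hanal := hg.analytic hw
  rw [qExpansion_coeff_zero hw hanal hg.per, ← cuspFunction_apply_zero hw hanal hg.per]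
  exact (hanal.continuousAt.tendsto.comp (qParam_tendsto_atImInfty hw)).congr
    (fun τ ↦ eq_cuspFunction τ hw.ne' hg.per)

lemma qParam_add (hw : 0 < w) (z : ℂ) : 𝕢 w (z + w) = 𝕢 w z := by
  have hw' : (w : ℂ) ≠ 0 := by exact_mod_cast hw.ne'
  simp only [Periodic.qParam]
  rw [show 2 * (Real.pi : ℂ) * Complex.I * (z + w) / w = 2 * Real.pi * Complex.I * z / w +
    2 * Real.pi * Complex.I by field_simp]
  rw [Complex.exp_add, Complex.exp_two_pi_mul_I, mul_one]

lemma coeff_unique {c : ℕ → ℂ} (hw : 0 < w) (hg : Good w g)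
    (hf : ∀ τ : ℍ, HasSum (fun m ↦ c m • 𝕢 w τ ^ m) (g τ)) (m : ℕ) :
    c m = (qExpansion w g).coeff m :=
  letI : FunLike (ℍ → ℂ) ℍ ℂ := ⟨id, fun _ _ h => h⟩
  qExpansion_coeff_unique (F := ℍ → ℂ) g hw (hg.analytic hw) hf m

/-- dividing by a power of `q`. -/
lemma div_pow (hw : 0 < w) (hg : Good w g) {m : ℕ} (h0 : ∀ n < m, (qExpansion w g).coeff n = 0) :
    Good w (fun τ => g τ / 𝕢 w τ ^ m) ∧
      ∀ n, (qExpansion w (fun τ : ℍ => g τ / 𝕢 w τ ^ m)).coeff n = (qExpansion w g).coeff (n + m) := by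
  have hsum : ∀ τ : ℍ, HasSum (fun n : ℕ ↦ (qExpansion w g).coeff (n + m) • 𝕢 w τ ^ n)
      (g τ / 𝕢 w τ ^ m) := by
    intro τ
    have h1 := hg.hasSum hw τ
    rw [← hasSum_nat_add_iff' m] at h1
    have h2 : ∑ i ∈ Finset.range m, (qExpansion w g).coeff i • 𝕢 w τ ^ i = 0 :=
      Finset.sum_eq_zero fun i hi => by rw [h0 i (Finset.mem_range.mp hi), zero_smul]
    rw [h2, sub_zero] at h1
    have h3 := h1.div_const (𝕢 w τ ^ m)
    refine h3.congr_fun ?_
    intro n
    have hq : 𝕢 w τ ≠ 0 := Periodic.qParam_ne_zero _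
    simp only [smul_eq_mul]
    rw [pow_add]; field_simp
  have hgood : Good w (fun τ : ℍ => g τ / 𝕢 w τ ^ m) := by
    refine ⟨?_, ?_, isBoundedAtImInfty_of_hasSum_qExpansion hw hsum⟩
    · intro z
      have hper := hg.per z
      by_cases hz : 0 < z.im
      · have hz' : 0 < (z + w).im := by simpa using hz
        simp only [comp_apply] at hper ⊢
        rw [hper]
        congr 2
        simp only [ofComplex_apply_of_im_pos hz, ofComplex_apply_of_im_pos hz']
        exact qParam_add hw z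
      · have hz0 : z.im ≤ 0 := not_lt.mp hz
        have hz' : (z + w).im ≤ 0 := by simpa using hz0
        simp only [comp_apply, ofComplex_apply_of_im_nonpos hz0, ofComplex_apply_of_im_nonpos hz']
    · rw [UpperHalfPlane.mdifferentiable_iff]
      have h1 := UpperHalfPlane.mdifferentiable_iff.mp hg.hol
      have h2 : DifferentiableOn ℂ (fun z => (g ∘ ofComplex) z / 𝕢 w z ^ m) {z | 0 < z.im} :=
        h1.div ((Periodic.differentiable_qParam.pow m).differentiableOn)
          (fun z _ => pow_ne_zero _ (Periodic.qParam_ne_zero _))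
      refine h2.congr fun z hz => ?_
      have hz' : 0 < z.im := hz
      simp [comp_apply, ofComplex_apply_of_im_pos hz']
  refine ⟨hgood, fun n => ?_⟩
  exact (hgood.coeff_unique hw hsum n).symm

lemma tendsto_div_pow (hw : 0 < w) (hg : Good w g) {m : ℕ}
    (h0 : ∀ n < m, (qExpansion w g).coeff n = 0) :
    Tendsto (fun τ : ℍ => g τ / 𝕢 w τ ^ m) atImInfty (𝓝 ((qExpansion w g).coeff m)) := by
  obtain ⟨h1, h2⟩ := hg.div_pow hw h0
  have := h1.tendsto hw
  rw [h2 0, zero_add] at this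
  exact this

end Good

section

variable {X : Type} [MulAction SL(2, ℤ) X] {w : ℕ}

lemma denom_T_zpow (n : ℤ) (z : ℍ) : denom ((T ^ n : SL(2, ℤ)) : GL (Fin 2) ℝ) z = 1 := by
  rw [ModularGroup.denom_apply]
  simp [coe_T_zpow]

lemma V_T {k : ℤ} {f : X → ℍ → ℂ} (hf : f ∈ V X k) (n : ℤ) (x : X) (z : ℍ) :
    f (T ^ n • x) (T ^ n • z) = f x z := by
  have := congrFun (hf.2.1 (T ^ n) x) z
  rw [SL_slash_apply, denom_T_zpow, one_zpow, mul_one] at this
  exact this

lemma V_good {k : ℤ} (hw : ∀ x : X, (T ^ (w : ℤ) : SL(2, ℤ)) • x = x) {f : X → ℍ → ℂ}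
    (hf : f ∈ V X k) (x : X) : Good (w : ℝ) (f x) := by
  refine ⟨?_, hf.1 x, hf.2.2 x⟩
  intro z
  by_cases hz : 0 < z.im
  · have hz' : 0 < (z + ((w : ℝ) : ℂ)).im := by simpa using hz
    simp only [comp_apply, ofComplex_apply_of_im_pos hz, ofComplex_apply_of_im_pos hz']
    have h1 := V_T hf w x ⟨z, hz⟩
    rw [hw x] at h1
    rw [← h1]
    congr 1
    apply UpperHalfPlane.ext
    rw [coe_T_zpow_smul_eq]
    simp
  · have hz0 : z.im ≤ 0 := not_lt.mp hz
    have hz' : (z + ((w : ℝ) : ℂ)).im ≤ 0 := by simpa using hz0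
    simp only [comp_apply, ofComplex_apply_of_im_nonpos hz0, ofComplex_apply_of_im_nonpos hz']

/-- the `n`-th coefficient vector. -/
def coef (w : ℕ) (n : ℕ) (f : X → ℍ → ℂ) : X → ℂ := fun x => (qExpansion (w : ℝ) (f x)).coeff n

lemma coef_T {k : ℤ} (hw0 : 0 < w) (hw : ∀ x : X, (T ^ (w : ℤ) : SL(2, ℤ)) • x = x)
    {f : X → ℍ → ℂ} (hf : f ∈ V X k) (n : ℕ) (x : X) :
    coef w n f (T • x) * Complex.exp (2 * Real.pi * Complex.I / w) ^ n = coef w n f x := by
  have hw0' : (0 : ℝ) < w := by exact_mod_cast hw0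
  have hx := V_good hw hf x
  have hTx := V_good hw hf (T • x)
  have hw1 : (w : ℂ) ≠ 0 := by exact_mod_cast hw0.ne'
  refine hx.coeff_unique
    (c := fun n => coef w n f (T • x) * Complex.exp (2 * Real.pi * Complex.I / w) ^ n)
    hw0' (fun τ => ?_) n
  have h1 := hTx.hasSum hw0' (T • τ)
  have h2 := V_T hf 1 x τ
  rw [zpow_one] at h2
  rw [h2] at h1
  refine h1.congr_fun ?_
  intro m
  simp only [smul_eq_mul, coef]
  rw [mul_assoc]
  congr 1
  rw [← mul_pow]
  congr 1
  have h3 : ((T • τ : ℍ) : ℂ) = τ + 1 := by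
    have := coe_T_zpow_smul_eq τ (n := 1)
    rw [zpow_one] at this; rw [this]; simp
  rw [h3]
  simp only [Periodic.qParam]
  rw [← Complex.exp_add]
  congr 1
  push_cast
  field_simp
  ring

end

end Fermat.Agent.H14
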