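import Fermat.Agent.H14.Cusp

set_option autoImplicit false

open UpperHalfPlane ModularForm MatrixGroups ModularGroup Filter Function
open scoped Manifold Topology

noncomputable section

namespace Fermat.Agent.H14

local notation "𝕢" => Periodic.qParam

variable {X : Type} [MulAction SL(2, ℤ) X] {w : ℕ}

section
variable (hw0 : 0 < w) (hw : ∀ x : X, (T ^ (w : ℤ) : SL(2, ℤ)) • x = x)

/-- the `n`-th coefficient as a linear map. -/
def coefL (hw0 : 0 < w) (hw : ∀ x : X, (T ^ (w : ℤ) : SL(2, ℤ)) • x = x) (k : ℤ) (n : ℕ) :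
    V X k →ₗ[ℂ] (X → ℂ) where
  toFun f := coef w n f
  map_add' f g := by
    have hw0' : (0 : ℝ) < w := by exact_mod_cast hw0
    ext x
    simp only [coef, Submodule.coe_add, Pi.add_apply]
    rw [qExpansion_add ((V_good hw f.2 x).analytic hw0') ((V_good hw g.2 x).analytic hw0')]
    simp
  map_smul' c f := by
    have hw0' : (0 : ℝ) < w := by exact_mod_cast hw0
    ext x
    simp only [coef, Submodule.coe_smul, Pi.smul_apply, RingHom.id_apply]
    rw [qExpansion_smul ((V_good hw f.2 x).analytic hw0')]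
    simp

/-- the leading coefficient map. -/
def lam (hw0 : 0 < w) (hw : ∀ x : X, (T ^ (w : ℤ) : SL(2, ℤ)) • x = x) (k : ℤ) :
    V X k →ₗ[ℂ] (X → ℂ) := ∑ n ∈ Finset.range w, coefL hw0 hw k n

lemma lam_apply (k : ℤ) (f : V X k) :
    lam hw0 hw k f = ∑ n ∈ Finset.range w, coef w n (f : X → ℍ → ℂ) := by
  simp [lam, coefL]

/-- the root of unity. -/
def zet (w : ℕ) : ℂ := Complex.exp (2 * Real.pi * Complex.I / w)

lemma zet_prim (hw0 : 0 < w) : IsPrimitiveRoot (zet w) w :=
  Complex.isPrimitiveRoot_exp w hw0.ne'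

include hw0 hw

lemma coef_T_inv {k : ℤ} {f : X → ℍ → ℂ} (hf : f ∈ V X k) (n : ℕ) (m : ℕ) (x : X) :
    coef w n f ((T⁻¹ : SL(2, ℤ)) ^ m • x) = (zet w ^ m) ^ n * coef w n f x := by
  induction m with
  | zero => simp
  | succ m ih =>
    have h := coef_T hw0 hw hf n ((T⁻¹ : SL(2, ℤ)) ^ (m + 1) • x)
    rw [← mul_smul, pow_succ', ← mul_assoc, mul_inv_cancel, one_mul, ih] at h
    rw [pow_succ' (T⁻¹ : SL(2, ℤ)) m, ← h]
    change _ * zet w ^ n = _
    ring

/-- the kernel of the leading coefficient map. -/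
lemma coef_eq_zero {k : ℤ} {f : X → ℍ → ℂ} (hf : f ∈ V X k)
    (h0 : ∑ n ∈ Finset.range w, coef w n f = 0) {n : ℕ} (hn : n < w) : coef w n f = 0 := by
  ext x
  have hinj : Function.Injective (fun m : Fin w => zet w ^ (m : ℕ)) := by
    intro a b hab
    exact Fin.ext ((zet_prim hw0).pow_inj a.2 b.2 hab)
  have h1 : ∀ m : Fin w, ∑ i : Fin w, (zet w ^ (m : ℕ)) ^ (i : ℕ) * coef w i f x = 0 := by
    intro m
    have h2 := congrFun h0 ((T⁻¹ : SL(2, ℤ)) ^ (m : ℕ) • x)
    rw [Finset.sum_apply, Finset.sum_range, Pi.zero_apply] at h2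
    rw [← h2]
    exact Finset.sum_congr rfl fun i _ => (coef_T_inv hw0 hw hf i m x).symm
  have h3 := Matrix.eq_zero_of_forall_index_sum_pow_mul_eq_zero hinj h1
  exact congrFun h3 ⟨n, hn⟩

/-- divisibility by `Δ`. -/
lemma exists_dl_smul {k : ℤ} {f : X → ℍ → ℂ} (hf : f ∈ V X k)
    (h0 : ∑ n ∈ Finset.range w, coef w n f = 0) : ∃ g ∈ V X (k - 12), f = dl • g := by
  have hw0' : (0 : ℝ) < w := by exact_mod_cast hw0
  refine ⟨fun x z => f x z / dl z, ?_, ?_⟩
  · apply div_dl_mem_V hf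
    intro x
    have h1 := (V_good hw hf x).tendsto_div_pow hw0' (m := w)
      (fun n hn => congrFun (coef_eq_zero hw0 hw hf h0 hn) x)
    have h2 := h1.isBigO_one ℝ
    have h3 : (fun τ : ℍ => 𝕢 w τ ^ w) =O[atImInfty] fun τ ↦ Real.exp (-2 * Real.pi * τ.im) := by
      refine Asymptotics.IsBigO.of_bound 1 (Eventually.of_forall fun τ => ?_)
      rw [norm_pow, Periodic.norm_qParam, Real.norm_of_nonneg (Real.exp_pos _).le, one_mul,
        ← Real.exp_nat_mul]
      apply le_of_eq
      congr 1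
      have : (w : ℝ) ≠ 0 := hw0'.ne'
      field_simp
      rfl
    have h4 := h2.mul h3
    refine (h4.congr_left ?_).congr_right ?_
    · intro τ
      have hq : 𝕢 w (τ : ℂ) ≠ 0 := Periodic.qParam_ne_zero _
      field_simp
    · intro τ; simp
  · ext x z
    show f x z = dl z * (f x z / dl z)
    field_simp [dl_ne_zero z]

omit hw0 hw in
lemma dl_smul_mem {k : ℤ} {g : X → ℍ → ℂ} (hg : g ∈ V X (k - 12)) : dl • g ∈ V X k := by
  have := mul_mem_V dl_mem hg
  rw [show (12 : ℤ) + (k - 12) = k by ring] at this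
  exact this

/-- coefficients of a multiple of `Δ` vanish. -/
lemma coef_dl_smul {k : ℤ} {g : X → ℍ → ℂ} (hg : g ∈ V X (k - 12)) {n : ℕ} (hn : n < w) :
    coef w n (dl • g) = 0 := by
  have hw0' : (0 : ℝ) < w := by exact_mod_cast hw0
  ext x
  have hf := dl_smul_mem hg
  -- minimal non vanishing coefficient
  by_contra hne
  have hex : ∃ m, (qExpansion (w : ℝ) ((dl • g) x)).coeff m ≠ 0 ∧ m < w := ⟨n, hne, hn⟩
  classical
  obtain ⟨h1, h2⟩ := Nat.find_spec hex
  set m := Nat.find hex with hm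
  have h3 := (V_good hw hf x).tendsto_div_pow hw0' (m := m) (fun i hi => by
    by_contra hi'
    exact Nat.find_min hex hi ⟨hi', hi.trans h2⟩)
  have h4 : Tendsto (fun τ : ℍ => (dl • g) x τ / 𝕢 w τ ^ m) atImInfty (𝓝 0) := by
    have e1 : dl =O[atImInfty] fun τ : ℍ ↦ Real.exp (-2 * Real.pi * τ.im) := by
      have := CuspFormClass.exp_decay_atImInfty (h := 1) CuspForm.discriminant one_pos
        one_mem_strictPeriods_SL
      simpa [dl] using this
    have e2 := e1.mul (hg.2.2 x)
    have e3 : (fun τ : ℍ => (dl • g) x τ / 𝕢 w τ ^ m) =O[atImInfty]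
        fun τ : ℍ => Real.exp (-2 * Real.pi * τ.im) / ‖𝕢 w τ ^ m‖ := by
      have e4 : (fun τ : ℍ => (dl • g) x τ) =O[atImInfty] fun τ : ℍ ↦ Real.exp (-2 * Real.pi * τ.im) := by
        refine (e2.congr_left ?_).congr_right ?_
        · intro τ; rfl
        · intro τ; simp
      simp_rw [div_eq_mul_inv]
      refine e4.mul ?_
      refine Asymptotics.IsBigO.of_bound 1 (Eventually.of_forall fun τ => ?_)
      rw [norm_inv, norm_inv, norm_norm, one_mul]
    refine e3.trans_tendsto ?_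
    have e5 : ∀ τ : ℍ, Real.exp (-2 * Real.pi * τ.im) / ‖𝕢 w τ ^ m‖ =
        Real.exp (-(2 * Real.pi * (1 - m / w)) * τ.im) := by
      intro τ
      rw [norm_pow, Periodic.norm_qParam, ← Real.exp_nat_mul, ← Real.exp_sub]
      congr 1
      have : (w : ℝ) ≠ 0 := hw0'.ne'
      simp only [UpperHalfPlane.coe_im]
      field_simp
      ring
    simp_rw [e5]
    have hpos : 0 < 2 * Real.pi * (1 - (m : ℝ) / w) := by
      have : (m : ℝ) / w < 1 := by
        rw [div_lt_one hw0']; exact_mod_cast h2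
      have := Real.pi_pos
      apply mul_pos (by positivity); linarith
    have e6 : Tendsto (fun τ : ℍ => (2 * Real.pi * (1 - (m : ℝ) / w)) * τ.im) atImInfty atTop :=
      Tendsto.const_mul_atTop hpos tendsto_comap
    have e7 := Real.tendsto_exp_neg_atTop_nhds_zero.comp e6
    refine e7.congr fun τ => ?_
    simp only [comp_apply]
    congr 1; ring
  exact h1 (tendsto_nhds_unique h3 h4)

/-- the kernel of `lam` is the image of multiplication by `Δ`. -/
lemma mem_ker_lam {k : ℤ} (f : V X k) : f ∈ LinearMap.ker (lam hw0 hw k) ↔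
    ∃ g ∈ V X (k - 12), (f : X → ℍ → ℂ) = dl • g := by
  rw [LinearMap.mem_ker, lam_apply]
  constructor
  · intro h
    exact exists_dl_smul hw0 hw f.2 h
  · rintro ⟨g, hg, hfg⟩
    rw [hfg]
    exact Finset.sum_eq_zero fun n hn => coef_dl_smul hw0 hw hg (Finset.mem_range.mp hn)

end

/-- multiplication by `Δ` as a linear map -/
def mulDl (X : Type) [MulAction SL(2, ℤ) X] (k : ℤ) : V X (k - 12) →ₗ[ℂ] V X k where
  toFun g := ⟨dl • (g : X → ℍ → ℂ), dl_smul_mem g.2⟩
  map_add' a b := by apply Subtype.ext; simp [smul_add]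
  map_smul' c a := by apply Subtype.ext; simp [smul_comm dl c]

lemma mulDl_injective (k : ℤ) : Function.Injective (mulDl X k) := by
  intro a b hab
  apply Subtype.ext
  ext x z
  have := congrFun (congrFun (congrArg Subtype.val hab) x) z
  have h : dl z * (a : X → ℍ → ℂ) x z = dl z * (b : X → ℍ → ℂ) x z := this
  exact mul_left_cancel₀ (dl_ne_zero z) h

variable (hw0 : 0 < w) (hw : ∀ x : X, (T ^ (w : ℤ) : SL(2, ℤ)) • x = x)

include hw0 hw

lemma ker_lam_eq_range (k : ℤ) : LinearMap.ker (lam hw0 hw k) = LinearMap.range (mulDl X k) := by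
  ext f
  rw [mem_ker_lam]
  constructor
  · rintro ⟨g, hg, hfg⟩
    exact ⟨⟨g, hg⟩, Subtype.ext hfg.symm⟩
  · rintro ⟨g, rfl⟩
    exact ⟨g, g.2, rfl⟩

lemma finiteDimensional_V_aux [Finite X] (hneg : ∀ k < 0, ∀ v ∈ V X k, v = 0) :
    ∀ (n : ℕ) (k : ℤ), k < n → FiniteDimensional ℂ (V X k) := by
  intro n
  induction n with
  | zero =>
    intro k hk
    have : V X k = ⊥ := by
      rw [eq_bot_iff]; intro v hv; exact hneg k (by exact_mod_cast hk) v hv
    rw [this]; infer_instance
  | succ n ih =>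
    intro k hk
    have h1 := ih (k - 12) (by push_cast at hk; lia)
    have h2 : FiniteDimensional ℂ (LinearMap.ker (lam hw0 hw k)) := by
      rw [ker_lam_eq_range hw0 hw k]
      infer_instance
    have h3 : FiniteDimensional ℂ (V X k ⧸ LinearMap.ker (lam hw0 hw k)) :=
      Module.Finite.equiv (lam hw0 hw k).quotKerEquivRange.symm
    exact Module.Finite.of_submodule_quotient (LinearMap.ker (lam hw0 hw k))

lemma finiteDimensional_V [Finite X] (hneg : ∀ k < 0, ∀ v ∈ V X k, v = 0) (k : ℤ) :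
    FiniteDimensional ℂ (V X k) :=
  finiteDimensional_V_aux hw0 hw hneg (k.toNat + 1) k (by lia)

lemma finrank_V_eq [Finite X] (hneg : ∀ k < 0, ∀ v ∈ V X k, v = 0) (k : ℤ) :
    Module.finrank ℂ (LinearMap.range (lam hw0 hw k)) + Module.finrank ℂ (V X (k - 12)) =
      Module.finrank ℂ (V X k) := by
  have := finiteDimensional_V hw0 hw hneg k
  have h1 := LinearMap.finrank_range_add_finrank_ker (lam hw0 hw k)
  rw [ker_lam_eq_range hw0 hw k, LinearMap.finrank_range_of_inj (mulDl_injective k)] at h1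
  exact h1

lemma finrank_V_le [Fintype X] (hneg : ∀ k < 0, ∀ v ∈ V X k, v = 0) (k : ℤ) :
    Module.finrank ℂ (V X k) ≤ Module.finrank ℂ (V X (k - 12)) + Fintype.card X := by
  have h1 := finrank_V_eq hw0 hw hneg k
  have h2 : Module.finrank ℂ (LinearMap.range (lam hw0 hw k)) ≤ Fintype.card X := by
    have := Submodule.finrank_le (LinearMap.range (lam hw0 hw k))
    rwa [Module.finrank_fintype_fun_eq_card] at this
  lia

lemma lam_surjective [Fintype X] (hneg : ∀ k < 0, ∀ v ∈ V X k, v = 0) {k : ℤ}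
    (h : Module.finrank ℂ (V X k) = Module.finrank ℂ (V X (k - 12)) + Fintype.card X) :
    Function.Surjective (lam hw0 hw k) := by
  have h1 := finrank_V_eq hw0 hw hneg k
  rw [← LinearMap.range_eq_top]
  apply Submodule.eq_top_of_finrank_eq
  rw [Module.finrank_fintype_fun_eq_card]
  lia

end Fermat.Agent.H14
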