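import Fermat.Agent.H14.Struct

set_option autoImplicit false

open UpperHalfPlane ModularForm MatrixGroups ModularGroup Filter Function
open scoped Manifold Topology

noncomputable section

namespace Fermat.Agent.H14

local notation "𝕢" => Periodic.qParam

variable {X : Type} [MulAction SL(2, ℤ) X] [Fintype X] [DecidableEq X]

omit [MulAction SL(2, ℤ) X] in
/-- holomorphy of determinants. -/
lemma mdiff_det {M : X → X → ℍ → ℂ} (hM : ∀ i j, MDifferentiable 𝓘(ℂ) 𝓘(ℂ) (M i j)) :
    MDifferentiable 𝓘(ℂ) 𝓘(ℂ) (fun z => Matrix.det (Matrix.of fun i j => M i j z)) := by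
  have h : (fun z => Matrix.det (Matrix.of fun i j => M i j z)) =
      ∑ σ : Equiv.Perm X, (fun _ => ((Equiv.Perm.sign σ : ℤ) : ℂ)) * ∏ i : X, M (σ i) i := by
    ext z
    rw [Matrix.det_apply']
    simp [Finset.sum_apply, Finset.prod_apply]
  rw [h]
  refine MDifferentiable.sum fun σ _ => ?_
  exact mdifferentiable_const.mul (MDifferentiable.prod fun i _ => hM _ _)

namespace FreeBasis

variable (B : FreeBasis X)

/-- the matrix of values. -/
def A (z : ℍ) : Matrix X X ℂ := Matrix.of fun j x => B.F j x z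

lemma isUnit_A (z : ℍ) : IsUnit (B.A z) := by
  rw [← Matrix.linearIndependent_rows_iff_isUnit]
  exact B.linInd z

lemma isUnit_det (z : ℍ) : IsUnit (B.A z).det := (Matrix.isUnit_iff_isUnit_det _).mp (B.isUnit_A z)

lemma eq_of_forall {z : ℍ} {u v : X → ℂ} (h : ∀ j, ∑ x, u x * B.F j x z = ∑ x, v x * B.F j x z) :
    u = v := by
  have h1 : (B.A z).mulVec u = (B.A z).mulVec v := by
    ext j
    simp only [Matrix.mulVec, dotProduct, A, Matrix.of_apply]
    have := h j
    simp_rw [mul_comm (B.F j _ z)]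
    exact this
  have h2 := congrArg (fun t => ((B.A z)⁻¹).mulVec t) h1
  simp only [Matrix.mulVec_mulVec, Matrix.nonsing_inv_mul _ (B.isUnit_det z), Matrix.one_mulVec] at h2
  exact h2

/-- the solution of the linear system. -/
def sol (r : X → ℍ → ℂ) : X → ℍ → ℂ := fun x z => dl z * ((B.A z)⁻¹.mulVec fun j => r j z) x

lemma sol_spec (r : X → ℍ → ℂ) (j : X) : ∑ x, B.sol r x * B.F j x = dl * r j := by
  ext z
  have h1 : (B.A z).mulVec ((B.A z)⁻¹.mulVec fun j => r j z) = fun j => r j z := by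
    rw [Matrix.mulVec_mulVec, Matrix.mul_nonsing_inv _ (B.isUnit_det z), Matrix.one_mulVec]
  have h2 := congrFun h1 j
  rw [Matrix.mulVec, dotProduct] at h2
  simp only [Finset.sum_apply, Pi.mul_apply, sol]
  rw [← h2, Finset.mul_sum]
  refine Finset.sum_congr rfl fun x _ => ?_
  simp only [A, Matrix.of_apply]
  ring

lemma sol_mdiff {r : X → ℍ → ℂ} (hr : ∀ j, MDifferentiable 𝓘(ℂ) 𝓘(ℂ) (r j)) (x : X) :
    MDifferentiable 𝓘(ℂ) 𝓘(ℂ) (B.sol r x) := by
  have hF : ∀ i j, MDifferentiable 𝓘(ℂ) 𝓘(ℂ) (B.F i j) := fun i j => (B.mem i).1 j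
  have hdet : MDifferentiable 𝓘(ℂ) 𝓘(ℂ) (fun z => (B.A z).det) := mdiff_det hF
  have hadj : ∀ i j, MDifferentiable 𝓘(ℂ) 𝓘(ℂ) (fun z => (B.A z).adjugate i j) := by
    intro i j
    have h1 : (fun z => (B.A z).adjugate i j) = fun z => Matrix.det (Matrix.of fun a b =>
        (if a = j then (fun _ => (Pi.single i 1 : X → ℂ) b : ℍ → ℂ) else B.F a b) z) := by
      ext z
      rw [Matrix.adjugate_apply]
      congr 1
      ext a b
      rw [Matrix.updateRow_apply, Matrix.of_apply]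
      split_ifs <;> rfl
    rw [h1]
    refine mdiff_det fun a b => ?_
    split_ifs
    · exact mdifferentiable_const
    · exact hF _ _
  have h2 : B.sol r x = (dl * ∑ j, (fun z => (B.A z).adjugate x j) * r j) / (fun z => (B.A z).det) := by
    ext z
    simp only [sol, Pi.mul_apply, Pi.div_apply, Finset.sum_apply]
    rw [Matrix.inv_def, Matrix.smul_mulVec, Pi.smul_apply, smul_eq_mul, Ring.inverse_eq_inv']
    simp only [Matrix.mulVec, dotProduct]
    ring
  rw [h2]
  exact (dl_mem.1.mul (MDifferentiable.sum fun j _ => (hadj _ _).mul (hr j))).div hdet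
    (fun z => (B.isUnit_det z).ne_zero)

end FreeBasis

omit [DecidableEq X] in
/-- the trace pairing is level one. -/
lemma pairing_slash {k l : ℤ} {g f : X → ℍ → ℂ}
    (hg : ∀ (γ : SL(2, ℤ)) (x : X), g (γ • x) ∣[l] γ = g x)
    (hf : ∀ (γ : SL(2, ℤ)) (x : X), f (γ • x) ∣[k] γ = f x) (γ : SL(2, ℤ)) :
    (∑ x, g x * f x) ∣[l + k] γ = ∑ x, g x * f x := by
  rw [SlashAction.sum_slash]
  rw [← Equiv.sum_comp (MulAction.toPerm γ)]
  refine Finset.sum_congr rfl fun x _ => ?_
  rw [mul_slash_SL2, MulAction.toPerm_apply, hg, hf]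

lemma S_pairing_mem {k l : ℤ} {g f : X → ℍ → ℂ} (hg : g ∈ S' X l) (hf : f ∈ V X k) :
    (∑ x, g x * f x) ∈ R (l + k) ∧ Tendsto (∑ x, g x * f x) atImInfty (𝓝 0) := by
  have h1 : Tendsto (∑ x, g x * f x) atImInfty (𝓝 0) := by
    have h2 : (∑ x, g x * f x) = fun z => ∑ x, g x z * f x z := by ext z; simp
    rw [h2, show (0 : ℂ) = ∑ _x : X, (0 : ℂ) by simp]
    refine tendsto_finsetSum _ fun x _ => ?_
    exact (hg.2.2 x).mul_boundedAtFilter (hf.2.2 x)
  refine ⟨⟨MDifferentiable.sum fun x _ => (hg.1 x).mul (hf.1 x), pairing_slash hg.2.1 hf.2.1, ?_⟩, h1⟩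
  exact h1.isBigO_one ℝ

namespace FreeBasis

variable (B : FreeBasis X)

lemma sol_slash {l : ℤ} {r : X → ℍ → ℂ} (hr : ∀ j, r j ∈ R (l + B.wt j - 12))
    (γ : SL(2, ℤ)) (x : X) : B.sol r (γ • x) ∣[l] γ = B.sol r x := by
  have key : ∀ z, (fun x => (B.sol r (γ • x) ∣[l] γ) z) = fun x => B.sol r x z := by
    intro z
    apply B.eq_of_forall
    intro j
    have h1 : ∑ x, (B.sol r (γ • x) ∣[l] γ) * B.F j x = dl * r j := by
      calc ∑ x, (B.sol r (γ • x) ∣[l] γ) * B.F j x
          = ∑ x, (B.sol r (γ • x) * B.F j (γ • x)) ∣[l + B.wt j] γ := by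
            refine Finset.sum_congr rfl fun x _ => ?_
            rw [mul_slash_SL2, (B.mem j).2.1]
        _ = (∑ x, (B.sol r (γ • x) * B.F j (γ • x))) ∣[l + B.wt j] γ := by
            rw [SlashAction.sum_slash]
        _ = (∑ x, (B.sol r x * B.F j x)) ∣[l + B.wt j] γ := by
            congr 1
            exact Equiv.sum_comp (MulAction.toPerm γ) (fun x => B.sol r x * B.F j x)
        _ = (dl * r j) ∣[12 + (l + B.wt j - 12)] γ := by
            rw [B.sol_spec]; congr 1; ring
        _ = dl * r j := by rw [mul_slash_SL2, dl_mem.2.1, (hr j).2.1]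
    have h2 := B.sol_spec r j
    have h3 := congrFun (h1.trans h2.symm) z
    simpa [Finset.sum_apply] using h3
  ext z
  exact congrFun (key z) x

end FreeBasis

end Fermat.Agent.H14
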