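import Fermat.Agent.H14.Dual

set_option autoImplicit false

open UpperHalfPlane ModularForm MatrixGroups ModularGroup Filter Function
open scoped Manifold Topology

noncomputable section

namespace Fermat.Agent.H14

local notation "𝕢" => Periodic.qParam

variable {X : Type} [MulAction SL(2, ℤ) X]

/-- independence of eigenvectors of `T`. -/
lemma eigen_indep {w : ℕ} (hw0 : 0 < w) {u : ℕ → X → ℂ}
    (hu : ∀ n < w, ∀ x, u n (T • x) * zet w ^ n = u n x)
    (h0 : ∑ n ∈ Finset.range w, u n = 0) {n : ℕ} (hn : n < w) : u n = 0 := by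
  have hT : ∀ n < w, ∀ (m : ℕ) (x : X),
      u n ((T⁻¹ : SL(2, ℤ)) ^ m • x) = (zet w ^ m) ^ n * u n x := by
    intro n hn m x
    induction m with
    | zero => simp
    | succ m ih =>
      have h := hu n hn ((T⁻¹ : SL(2, ℤ)) ^ (m + 1) • x)
      rw [← mul_smul, pow_succ', ← mul_assoc, mul_inv_cancel, one_mul, ih] at h
      rw [pow_succ' (T⁻¹ : SL(2, ℤ)) m, ← h]
      ring
  ext x
  have hinj : Function.Injective (fun m : Fin w => zet w ^ (m : ℕ)) := by
    intro a b hab
    exact Fin.ext ((zet_prim hw0).pow_inj a.2 b.2 hab)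
  have h1 : ∀ m : Fin w, ∑ i : Fin w, (zet w ^ (m : ℕ)) ^ (i : ℕ) * u i x = 0 := by
    intro m
    have h2 := congrFun h0 ((T⁻¹ : SL(2, ℤ)) ^ (m : ℕ) • x)
    rw [Finset.sum_apply, Finset.sum_range, Pi.zero_apply] at h2
    rw [← h2]
    exact Finset.sum_congr rfl fun i _ => (hT i i.2 m x).symm
  have h3 := Matrix.eq_zero_of_forall_index_sum_pow_mul_eq_zero hinj h1
  exact congrFun h3 ⟨n, hn⟩

variable [Fintype X] (st : Setup X) (B : FreeBasis X)

/-- a large even weight. -/
def FreeBasis.K : ℤ := 4 + ∑ j, B.wt j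

lemma FreeBasis.K_even : Even B.K := by
  unfold FreeBasis.K
  refine Even.add (by decide) ?_
  exact Finset.even_sum _ fun j _ => B.wt_even j

lemma FreeBasis.wt_le (j : X) : B.wt j + 4 ≤ B.K := by
  unfold FreeBasis.K
  have := Finset.single_le_sum (f := B.wt) (fun i _ => B.wt_nonneg i) (Finset.mem_univ j)
  linarith

lemma lam_surj {k : ℤ} (hk : Even k) (hkK : B.K ≤ k) :
    Function.Surjective (lam st.hw0 st.hw k) := by
  apply lam_surjective st.hw0 st.hw st.hneg
  rw [B.finrank_V, B.finrank_V, Fintype.card_eq_sum_ones, ← Finset.sum_add_distrib]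
  refine Finset.sum_congr rfl fun j _ => ?_
  rw [rdim_sub_twelve (hk.sub (B.wt_even j)) (by have := B.wt_le j; linarith)]
  congr 2
  ring

/-- vectors with prescribed eigenvalue are leading coefficients -/
lemma exists_coef {k : ℤ} (hk : Even k) (hkK : B.K ≤ k) {n : ℕ} (hn : n < st.w) {v : X → ℂ}
    (hv : ∀ x, v (T • x) * zet st.w ^ n = v x) :
    ∃ f ∈ V X k, coef st.w n f = v ∧ ∀ m < st.w, m ≠ n → coef st.w m f = 0 := by
  obtain ⟨f, hf⟩ := lam_surj st B hk hkK v
  rw [lam_apply] at hf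
  have h1 : ∀ m < st.w, (fun m => coef st.w m (f : X → ℍ → ℂ) - if m = n then v else 0) m = 0 := by
    intro m hm
    refine eigen_indep (u := fun m => coef st.w m (f : X → ℍ → ℂ) - if m = n then v else 0)
      st.hw0 ?_ ?_ hm
    · intro m hm x
      have h2 : coef st.w m (f : X → ℍ → ℂ) (T • x) * zet st.w ^ m = coef st.w m f x :=
        coef_T st.hw0 st.hw f.2 m x
      simp only [Pi.sub_apply]
      rw [sub_mul, h2]
      split_ifs with h
      · subst h; rw [hv]
      · simp
    · rw [Finset.sum_sub_distrib, hf, Finset.sum_ite_eq', if_pos (Finset.mem_range.mpr hn), sub_self]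
  refine ⟨f, f.2, ?_, fun m hm hmn => ?_⟩
  · have := h1 n hn
    simpa [sub_eq_zero] using this
  · have := h1 m hm
    simpa [hmn] using this

/-- adapted basis at infinity. -/
lemma exists_adapted {k : ℤ} (hk : Even k) (hkK : B.K ≤ k) :
    ∃ (nn : X → ℕ) (b : X → X → ℂ) (f : X → X → ℍ → ℂ), (∀ i, nn i < st.w) ∧
      LinearIndependent ℂ b ∧ (∀ i, f i ∈ V X k) ∧
      ∀ i x, Tendsto (fun τ : ℍ => f i x τ / 𝕢 (st.w : ℝ) τ ^ (nn i)) atImInfty (𝓝 (b i x)) := by
  classical
  set s : Set (X → ℂ) := {v | ∃ n < st.w, ∃ f ∈ V X k, coef st.w n f = v ∧ ∀ m < n, coef st.w m f = 0}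
    with hs
  have hspan : Submodule.span ℂ s = ⊤ := by
    rw [eq_top_iff]
    intro v _
    obtain ⟨f, hf⟩ := lam_surj st B hk hkK v
    rw [lam_apply] at hf
    rw [← hf]
    refine Submodule.sum_mem _ fun n hn => Submodule.subset_span ?_
    have hn' := Finset.mem_range.mp hn
    obtain ⟨g, hg, hg1, hg2⟩ := exists_coef st B hk hkK hn' (v := coef st.w n (f : X → ℍ → ℂ))
      (fun x => coef_T st.hw0 st.hw f.2 n x)
    exact ⟨n, hn', g, hg, hg1, fun m hm => hg2 m (hm.trans hn') hm.ne⟩
  obtain ⟨t, hts, htspan, htind⟩ := exists_linearIndependent ℂ s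
  rw [hspan] at htspan
  let bas : Module.Basis t ℂ (X → ℂ) := Module.Basis.mk htind (by simp [htspan])
  have : Finite t := Module.Finite.finite_basis bas
  let _ := Fintype.ofFinite t
  have hcard : Fintype.card X = Fintype.card t := by
    rw [← Module.finrank_eq_card_basis bas, Module.finrank_fintype_fun_eq_card]
  obtain ⟨e⟩ : Nonempty (X ≃ t) := ⟨Fintype.equivOfCardEq hcard⟩
  have hmem : ∀ i : X, (e i : X → ℂ) ∈ s := fun i => hts (e i).2
  choose nn hnn f hf hf1 hf2 using hmem
  refine ⟨nn, fun i => (e i : X → ℂ), f, hnn, ?_, hf, ?_⟩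
  · exact htind.comp e e.injective
  · intro i x
    have hw0' : (0 : ℝ) < st.w := by exact_mod_cast st.hw0
    have := (V_good st.hw (hf i) x).tendsto_div_pow hw0' (m := nn i)
      (fun m hm => congrFun (hf2 i m hm) x)
    have h1 := congrFun (hf1 i) x
    show Tendsto _ _ (𝓝 ((e i : X → ℂ) x))
    rw [← h1]
    exact this

/-- `Δ/q^n → 0` for `n < w`. -/
lemma tendsto_dl_div {w : ℕ} (hw0 : 0 < w) {n : ℕ} (hn : n < w) :
    Tendsto (fun τ : ℍ => dl τ / 𝕢 (w : ℝ) τ ^ n) atImInfty (𝓝 0) := by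
  have hw0' : (0 : ℝ) < w := by exact_mod_cast hw0
  have e1 : dl =O[atImInfty] fun τ : ℍ ↦ Real.exp (-2 * Real.pi * τ.im) := by
    have := CuspFormClass.exp_decay_atImInfty (h := 1) CuspForm.discriminant one_pos
      one_mem_strictPeriods_SL
    simpa [dl] using this
  have e3 : (fun τ : ℍ => dl τ / 𝕢 (w : ℝ) τ ^ n) =O[atImInfty]
      fun τ : ℍ => Real.exp (-2 * Real.pi * τ.im) / ‖𝕢 (w : ℝ) τ ^ n‖ := by
    simp_rw [div_eq_mul_inv]
    refine e1.mul ?_
    refine Asymptotics.IsBigO.of_bound 1 (Eventually.of_forall fun τ => ?_)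
    rw [norm_inv, norm_inv, norm_norm, one_mul]
  refine e3.trans_tendsto ?_
  have e5 : ∀ τ : ℍ, Real.exp (-2 * Real.pi * τ.im) / ‖𝕢 (w : ℝ) τ ^ n‖ =
      Real.exp (-(2 * Real.pi * (1 - n / w)) * τ.im) := by
    intro τ
    rw [norm_pow, Periodic.norm_qParam, ← Real.exp_nat_mul, ← Real.exp_sub]
    congr 1
    have : (w : ℝ) ≠ 0 := hw0'.ne'
    simp only [UpperHalfPlane.coe_im]
    field_simp
    ring
  simp_rw [e5]
  have hpos : 0 < 2 * Real.pi * (1 - (n : ℝ) / w) := by
    have : (n : ℝ) / w < 1 := by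
      rw [div_lt_one hw0']; exact_mod_cast hn
    have := Real.pi_pos
    apply mul_pos (by positivity); linarith
  have e6 : Tendsto (fun τ : ℍ => (2 * Real.pi * (1 - (n : ℝ) / w)) * τ.im) atImInfty atTop :=
    Tendsto.const_mul_atTop hpos tendsto_comap
  have e7 := Real.tendsto_exp_neg_atTop_nhds_zero.comp e6
  refine e7.congr fun τ => ?_
  simp only [comp_apply]
  congr 1; ring

variable [DecidableEq X]

include st in
lemma sol_zero {l : ℤ} {r : X → ℍ → ℂ} (hr : ∀ j, r j ∈ R (l + B.wt j - 12)) (x : X) :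
    IsZeroAtImInfty (B.sol r x) := by
  obtain ⟨nn, b, f, hnn, hb, hf, hlim⟩ := exists_adapted st B B.K_even le_rfl
  -- the pairing with the adapted basis
  have hpair : ∀ i, ∃ t : ℍ → ℂ, IsBoundedAtImInfty t ∧ ∑ x, B.sol r x * f i x = dl * t := by
    intro i
    obtain ⟨s, hs, hfs⟩ := B.span B.K (f i) (hf i)
    refine ⟨∑ j, s j * r j, ?_, ?_⟩
    · have : ∑ j, s j * r j ∈ R (B.K + l - 12) := by
        refine Submodule.sum_mem _ fun j _ => ?_
        convert mul_mem_R (hs j) (hr j) using 2; ring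
      exact this.2.2
    · rw [hfs]
      have h1 : ∀ x, B.sol r x * (∑ j, s j • B.F j) x = ∑ j, s j * (B.sol r x * B.F j x) := by
        intro x
        rw [Finset.sum_apply, Finset.mul_sum]
        refine Finset.sum_congr rfl fun j _ => ?_
        rw [Pi.smul_apply, smul_eq_mul]; ring
      simp_rw [h1]
      rw [Finset.sum_comm, Finset.mul_sum]
      refine Finset.sum_congr rfl fun j _ => ?_
      rw [← Finset.mul_sum, B.sol_spec]; ring
  choose t ht htp using hpair
  set M : ℍ → Matrix X X ℂ := fun τ => Matrix.of fun i x => f i x τ / 𝕢 (st.w : ℝ) τ ^ (nn i) with hM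
  have hMlim : Tendsto M atImInfty (𝓝 (Matrix.of b)) := by
    refine tendsto_pi_nhds.mpr fun i => tendsto_pi_nhds.mpr fun x => ?_
    exact hlim i x
  have hdet : (Matrix.of b).det ≠ 0 := by
    have : IsUnit (Matrix.of b) := by
      rw [← Matrix.linearIndependent_rows_iff_isUnit]; exact hb
    exact ((Matrix.isUnit_iff_isUnit_det _).mp this).ne_zero
  have hdetlim : Tendsto (fun τ => (M τ).det) atImInfty (𝓝 (Matrix.of b).det) :=
    ((Continuous.matrix_det continuous_id).tendsto _).comp hMlim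
  have hadjlim : Tendsto (fun τ => (M τ).adjugate) atImInfty (𝓝 (Matrix.of b).adjugate) :=
    ((Continuous.matrix_adjugate continuous_id).tendsto _).comp hMlim
  have hh : ∀ i, Tendsto (fun τ => (M τ).mulVec (fun x => B.sol r x τ) i) atImInfty (𝓝 0) := by
    intro i
    have h1 : (fun τ => (M τ).mulVec (fun x => B.sol r x τ) i) =
        fun τ : ℍ => (dl τ / 𝕢 (st.w : ℝ) τ ^ (nn i)) * t i τ := by
      ext τ
      have h2 := congrFun (htp i) τ
      simp only [Finset.sum_apply, Pi.mul_apply] at h2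
      simp only [hM, Matrix.mulVec, dotProduct, Matrix.of_apply]
      rw [div_mul_eq_mul_div, ← h2, Finset.sum_div]
      exact Finset.sum_congr rfl fun x _ => by ring
    rw [h1]
    exact ZeroAtFilter.mul_boundedAtFilter (tendsto_dl_div st.hw0 (hnn i)) (ht i)
  have hadjh : ∀ x, Tendsto (fun τ => (M τ).adjugate.mulVec ((M τ).mulVec (fun x => B.sol r x τ)) x)
      atImInfty (𝓝 0) := by
    intro x
    simp only [Matrix.mulVec, dotProduct]
    rw [show (0 : ℂ) = ∑ i : X, (Matrix.of b).adjugate x i * 0 by simp]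
    refine tendsto_finsetSum _ fun i _ => ?_
    refine Tendsto.mul ?_ (hh i)
    exact (tendsto_pi_nhds.mp (tendsto_pi_nhds.mp hadjlim x)) i
  have hfin : Tendsto (fun τ => (M τ).det⁻¹ *
      (M τ).adjugate.mulVec ((M τ).mulVec (fun x => B.sol r x τ)) x) atImInfty (𝓝 0) := by
    have := (hdetlim.inv₀ hdet).mul (hadjh x)
    simpa using this
  refine hfin.congr' ?_
  have hne : ∀ᶠ τ in atImInfty, (M τ).det ≠ 0 := hdetlim.eventually_ne hdet
  filter_upwards [hne] with τ hτ
  rw [Matrix.mulVec_mulVec, Matrix.adjugate_mul, Matrix.smul_mulVec, Matrix.one_mulVec,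
    Pi.smul_apply, smul_eq_mul]
  field_simp

include st in
/-- the solution is a cusp form. -/
lemma sol_mem {l : ℤ} {r : X → ℍ → ℂ} (hr : ∀ j, r j ∈ R (l + B.wt j - 12)) : B.sol r ∈ S' X l :=
  ⟨B.sol_mdiff fun j => (hr j).1, B.sol_slash hr, sol_zero st B hr⟩

/-- the duality isomorphism. -/
def dualEquiv (st : Setup X) (B : FreeBasis X) (l : ℤ) : S' X l ≃ₗ[ℂ] (∀ j : X, R (l + B.wt j - 12)) :=
  LinearEquiv.ofBijective
    ({ toFun := fun g j => ⟨fun z => (∑ x, (g : X → ℍ → ℂ) x * B.F j x) z / dl z,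
          div_dl_mem_R (S_pairing_mem g.2 (B.mem j)).1 (S_pairing_mem g.2 (B.mem j)).2⟩
       map_add' := fun g h => by
        funext j
        apply Subtype.ext
        ext z
        simp only [Submodule.coe_add, Pi.add_apply, Finset.sum_apply, Pi.mul_apply, add_mul,
          Finset.sum_add_distrib, add_div]
       map_smul' := fun c g => by
        funext j
        apply Subtype.ext
        ext z
        simp only [Submodule.coe_smul, Pi.smul_apply, Finset.sum_apply, Pi.mul_apply,
          RingHom.id_apply, smul_eq_mul, mul_assoc, ← Finset.mul_sum, mul_div_assoc] } :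
      S' X l →ₗ[ℂ] (∀ j : X, R (l + B.wt j - 12))) (by
    constructor
    · intro g h hgh
      apply Subtype.ext
      funext x z
      have key : (fun x => (g : X → ℍ → ℂ) x z) = fun x => (h : X → ℍ → ℂ) x z := by
        apply B.eq_of_forall
        intro j
        have h1 := congrFun (congrArg Subtype.val (congrFun hgh j)) z
        have h2 : (∑ x, (g : X → ℍ → ℂ) x * B.F j x) z / dl z =
          (∑ x, (h : X → ℍ → ℂ) x * B.F j x) z / dl z := h1
        rw [div_left_inj' (dl_ne_zero z)] at h2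
        simpa [Finset.sum_apply] using h2
      exact congrFun key x
    · intro r
      refine ⟨⟨B.sol fun j => r j, sol_mem st B fun j => (r j).2⟩, ?_⟩
      funext j
      apply Subtype.ext
      ext z
      show (∑ x, B.sol (fun j => (r j : ℍ → ℂ)) x * B.F j x) z / dl z = (r j : ℍ → ℂ) z
      rw [B.sol_spec, Pi.mul_apply, mul_div_cancel_left₀ _ (dl_ne_zero z)])

include st in
lemma finrank_S (l : ℤ) : Module.finrank ℂ (S' X l) = ∑ j, rdim (l + B.wt j - 12) := by
  rw [(dualEquiv st B l).finrank_eq, Module.finrank_pi_fintype]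
  rfl

end Fermat.Agent.H14
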