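import Fermat.Agent.H14.LevelOne

set_option autoImplicit false

open UpperHalfPlane ModularForm MatrixGroups ModularGroup Filter
open scoped Manifold Topology

noncomputable section

namespace Fermat.Agent.H14

variable (X : Type) [MulAction SL(2, ℤ) X]

/-- the decomposable part of `V X k`. -/
def D (k : ℤ) : Submodule ℂ (X → ℍ → ℂ) where
  carrier := {v | ∃ a ∈ V X (k - 4), ∃ b ∈ V X (k - 6), v = e4 • a + e6 • b}
  zero_mem' := ⟨0, Submodule.zero_mem _, 0, Submodule.zero_mem _, by simp⟩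
  add_mem' := by
    rintro _ _ ⟨a, ha, b, hb, rfl⟩ ⟨a', ha', b', hb', rfl⟩
    exact ⟨a + a', Submodule.add_mem _ ha ha', b + b', Submodule.add_mem _ hb hb', by
      rw [smul_add, smul_add]; abel⟩
  smul_mem' := by
    rintro c _ ⟨a, ha, b, hb, rfl⟩
    refine ⟨c • a, Submodule.smul_mem _ _ ha, c • b, Submodule.smul_mem _ _ hb, ?_⟩
    rw [smul_add, smul_comm c e4, smul_comm c e6]

variable {X}

lemma smul_mem_V {k l m : ℤ} {f : ℍ → ℂ} {g : X → ℍ → ℂ} (hf : f ∈ R k) (hg : g ∈ V X l)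
    (h : k + l = m) : f • g ∈ V X m := by
  subst h; exact mul_mem_V hf hg

lemma D_le_V (k : ℤ) : D X k ≤ V X k := by
  rintro _ ⟨a, ha, b, hb, rfl⟩
  exact Submodule.add_mem _ (smul_mem_V e4_mem ha (by ring)) (smul_mem_V e6_mem hb (by ring))

/-- generators: homogeneous lifts of a basis of `V / (E₄, E₆) V`. -/
lemma exists_gens (hfin : ∀ k, FiniteDimensional ℂ (V X k)) :
    ∃ (J : Type) (wt : J → ℤ) (f : J → X → ℍ → ℂ), (∀ j, 0 ≤ wt j) ∧ (∀ j, f j ∈ V X (wt j)) ∧
      (∀ (n : ℕ) (T : Finset J) (c : J → ℂ), (∀ j ∈ T, c j ≠ 0 → wt j = n) →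
        ∑ j ∈ T, c j • f j ∈ D X n → ∀ j ∈ T, c j = 0) ∧
      (∀ (n : ℕ) (v : X → ℍ → ℂ), v ∈ V X n → ∃ (T : Finset J) (c : J → ℂ),
        (∀ j, c j ≠ 0 → wt j = n) ∧ (∀ j, j ∉ T → c j = 0) ∧ v - ∑ j ∈ T, c j • f j ∈ D X n) := by
  classical
  have hcompl : ∀ k : ℕ, ∃ U : Submodule ℂ (X → ℍ → ℂ), U ≤ V X k ∧ Disjoint (D X k) U ∧
      D X k ⊔ U = V X k := by
    intro k
    obtain ⟨W, hW⟩ := Submodule.exists_isCompl (D X k)
    refine ⟨W ⊓ V X k, inf_le_right, hW.disjoint.mono_right inf_le_left, ?_⟩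
    rw [← sup_inf_assoc_of_le W (D_le_V (k : ℤ)), hW.sup_eq_top, top_inf_eq]
  choose U hUV hdisj hsup using hcompl
  have hUfin : ∀ k : ℕ, FiniteDimensional ℂ (U k) := fun k => by
    have := hfin k
    exact Submodule.finiteDimensional_of_le (hUV k)
  let β : ∀ k : ℕ, Module.Basis (Fin (Module.finrank ℂ (U k))) ℂ (U k) :=
    fun k => Module.finBasis ℂ (U k)
  let J := Σ k : ℕ, Fin (Module.finrank ℂ (U k))
  let f : J → X → ℍ → ℂ := fun j => (β j.1 j.2 : U j.1)
  let ι : ∀ n : ℕ, Fin (Module.finrank ℂ (U n)) ↪ J := fun n =>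
    ⟨fun i => ⟨n, i⟩, fun a b h => by
      have := (Sigma.mk.inj_iff.mp h).2; exact eq_of_heq this⟩
  refine ⟨J, fun j => j.1, f, fun j => by positivity, fun j => ?_, ?_, ?_⟩
  · exact hUV _ ((β j.1 j.2 : U j.1)).2
  · intro n T c hc hD
    -- reduce the sum to the fibre over `n`
    have hsum : ∑ j ∈ T, c j • f j =
        ∑ i : Fin (Module.finrank ℂ (U n)), (if (⟨n, i⟩ : J) ∈ T then c ⟨n, i⟩ else 0) • f ⟨n, i⟩ := by
      have h1 : ∑ i : Fin (Module.finrank ℂ (U n)),
          (if (⟨n, i⟩ : J) ∈ T then c ⟨n, i⟩ else 0) • f ⟨n, i⟩ =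
          ∑ j ∈ Finset.univ.map (ι n), (if j ∈ T then c j else 0) • f j := by
        rw [Finset.sum_map]; rfl
      rw [h1]
      have h2 : ∑ j ∈ T, c j • f j = ∑ j ∈ T, (if j ∈ T then c j else 0) • f j :=
        Finset.sum_congr rfl fun j hj => by rw [if_pos hj]
      rw [h2]
      symm
      -- both sides agree with the sum over the intersection
      rw [← Finset.sum_filter_add_sum_filter_not (Finset.univ.map _) (fun j => j ∈ T),
        ← Finset.sum_filter_add_sum_filter_not T (fun j => (j.1 = n))]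
      have e1 : ∑ j ∈ (Finset.univ.map (ι n)).filter (fun j => j ∉ T),
            (if j ∈ T then c j else 0) • f j = 0 := by
        refine Finset.sum_eq_zero fun j hj => ?_
        rw [if_neg (Finset.mem_filter.mp hj).2, zero_smul]
      have e2 : ∑ j ∈ T.filter (fun j => ¬ (j.1 = n)), (if j ∈ T then c j else 0) • f j = 0 := by
        refine Finset.sum_eq_zero fun j hj => ?_
        have hj' := Finset.mem_filter.mp hj
        rw [if_pos hj'.1]
        have : c j = 0 := by
          by_contra h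
          have h5 : ((j.1 : ℕ) : ℤ) = n := hc j hj'.1 h
          exact hj'.2 (by exact_mod_cast h5)
        rw [this, zero_smul]
      rw [e1, e2, add_zero, add_zero]
      refine Finset.sum_congr ?_ fun _ _ => rfl
      ext ⟨m, i⟩
      simp only [Finset.mem_filter, Finset.mem_map, Finset.mem_univ, true_and, ι]
      constructor
      · rintro ⟨⟨i', hi'⟩, hT⟩
        refine ⟨hT, ?_⟩
        have := (Sigma.mk.inj_iff.mp hi').1
        exact this.symm
      · rintro ⟨hT, hm⟩
        subst hm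
        exact ⟨⟨i, rfl⟩, hT⟩
    -- now the element of `U n`
    set u : U n := ∑ i : Fin (Module.finrank ℂ (U n)),
      (if (⟨n, i⟩ : J) ∈ T then c ⟨n, i⟩ else 0) • β n i with hu
    have hcoe : ((u : U n) : X → ℍ → ℂ) = ∑ j ∈ T, c j • f j := by
      rw [hsum, hu]
      simp only [Submodule.coe_sum, Submodule.coe_smul]
      rfl
    have hu0 : (u : X → ℍ → ℂ) = 0 :=
      (Submodule.disjoint_def.mp (hdisj n)) _ (by rw [hcoe]; exact hD) u.2
    have hu0' : u = 0 := Subtype.ext hu0
    have hlin := (β n).linearIndependent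
    rw [Fintype.linearIndependent_iff] at hlin
    have := hlin _ (hu ▸ hu0')
    rintro ⟨m, i⟩ hj
    by_contra hne
    have hm : m = n := by
      have h5 : ((m : ℕ) : ℤ) = n := hc _ hj hne
      exact_mod_cast h5
    subst hm
    have h3 := this i
    rw [if_pos hj] at h3
    exact hne h3
  · intro n v hv
    obtain ⟨d, hd, u, hu, hdu⟩ : ∃ d ∈ D X n, ∃ u ∈ U n, d + u = v := by
      rw [← hsup n] at hv
      exact Submodule.mem_sup.mp hv
    let T : Finset J := Finset.univ.map (ι n)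
    let c : J → ℂ := fun j => if h : j.1 = n then (β n).repr ⟨u, hu⟩ (h ▸ j.2) else 0
    refine ⟨T, c, ?_, ?_, ?_⟩
    · intro j hj
      by_contra h
      apply hj
      have h' : ¬ j.1 = n := fun h' => h (by show ((j.1 : ℕ) : ℤ) = n; exact_mod_cast h')
      exact dif_neg h'
    · intro j hj
      have h' : ¬ j.1 = n := by
        rintro rfl
        apply hj
        simp only [T, Finset.mem_map, Finset.mem_univ, true_and, ι]
        exact ⟨j.2, rfl⟩
      exact dif_neg h'
    · have : ∑ j ∈ T, c j • f j = u := by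
        simp only [T, Finset.sum_map, ι]
        have h1 := (β n).sum_repr ⟨u, hu⟩
        have h2 : (u : X → ℍ → ℂ) = ((⟨u, hu⟩ : U n) : X → ℍ → ℂ) := rfl
        rw [h2]
        conv_rhs => rw [← h1]
        simp only [Submodule.coe_sum, Submodule.coe_smul]
        refine Finset.sum_congr rfl fun i _ => ?_
        congr 1
        show c ⟨n, i⟩ = _
        simp [c]
      rw [this, ← hdu, add_sub_cancel_right]
      exact hd

end Fermat.Agent.H14
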