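import Fermat.Agent.H14.Free

set_option autoImplicit false

open UpperHalfPlane ModularForm MatrixGroups ModularGroup Filter
open scoped Manifold Topology

noncomputable section

namespace Fermat.Agent.H14

variable {X : Type} [MulAction SL(2, ℤ) X]

/-- the data of homogeneous generators lifting a basis of `V/(E₄,E₆)V`. -/
structure Gens (X : Type) [MulAction SL(2, ℤ) X] where
  J : Type
  wt : J → ℤ
  f : J → X → ℍ → ℂ
  wt_nonneg : ∀ j, 0 ≤ wt j
  mem : ∀ j, f j ∈ V X (wt j)
  P1 : ∀ (n : ℕ) (T : Finset J) (c : J → ℂ), (∀ j ∈ T, c j ≠ 0 → wt j = n) →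
        ∑ j ∈ T, c j • f j ∈ D X n → ∀ j ∈ T, c j = 0
  P2 : ∀ (n : ℕ) (v : X → ℍ → ℂ), v ∈ V X n → ∃ (T : Finset J) (c : J → ℂ),
        (∀ j, c j ≠ 0 → wt j = n) ∧ (∀ j, j ∉ T → c j = 0) ∧ v - ∑ j ∈ T, c j • f j ∈ D X n

lemma nonempty_gens (hfin : ∀ k, FiniteDimensional ℂ (V X k)) : Nonempty (Gens X) := by
  obtain ⟨J, wt, f, h1, h2, h3, h4⟩ := exists_gens hfin
  exact ⟨⟨J, wt, f, h1, h2, h3, h4⟩⟩

lemma const_mem_R (c : ℂ) : (fun _ => c : ℍ → ℂ) ∈ R 0 := by
  have := Submodule.smul_mem (R 0) c one_mem_R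
  convert this using 1
  ext; simp

omit [MulAction SL(2, ℤ) X] in
lemma const_smul_eq (c : ℂ) (g : X → ℍ → ℂ) : (fun _ => c : ℍ → ℂ) • g = c • g := by
  ext x z; simp

lemma exists_const_of_mem_R_zero {r : ℍ → ℂ} (hr : r ∈ R 0) : ∃ c : ℂ, r = fun _ => c := by
  obtain ⟨g, rfl⟩ := exists_of_mem_R hr
  obtain ⟨c, hc⟩ := ModularFormClass.levelOne_weight_zero_const g
  exact ⟨c, hc⟩

namespace Gens

variable (G : Gens X)

lemma sum_mem {k : ℤ} (T : Finset G.J) (r : G.J → ℍ → ℂ) (hr : ∀ j ∈ T, r j ∈ R (k - G.wt j)) :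
    ∑ j ∈ T, r j • G.f j ∈ V X k :=
  Submodule.sum_mem _ fun j hj => smul_mem_V (hr j hj) (G.mem j) (by ring)

/-- spanning. -/
lemma span_aux (hneg : ∀ k < 0, ∀ v ∈ V X k, v = 0) :
    ∀ (n : ℕ) (k : ℤ), k < n → ∀ v ∈ V X k,
      ∃ (T : Finset G.J) (r : G.J → ℍ → ℂ), (∀ j, r j ∈ R (k - G.wt j)) ∧ (∀ j, j ∉ T → r j = 0) ∧
        v = ∑ j ∈ T, r j • G.f j := by
  classical
  intro n
  induction n with
  | zero =>
    intro k hk v hv
    refine ⟨∅, 0, fun j => Submodule.zero_mem _, fun _ _ => rfl, ?_⟩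
    rw [hneg k (by exact_mod_cast hk) v hv]; simp
  | succ n ih =>
    intro k hk v hv
    rcases lt_or_ge k (n : ℤ) with hlt | hge
    · exact ih k hlt v hv
    obtain rfl : k = (n : ℤ) := by push_cast at hk; lia
    obtain ⟨T0, c, hc1, hc2, a, ha, b, hb, hab⟩ := G.P2 n v hv
    obtain ⟨T1, r1, hr1, hz1, rfl⟩ := ih _ (by lia) a ha
    obtain ⟨T2, r2, hr2, hz2, rfl⟩ := ih _ (by lia) b hb
    refine ⟨T0 ∪ (T1 ∪ T2), fun j => (fun _ => c j) + (e4 * r1 j + e6 * r2 j), ?_, ?_, ?_⟩
    · intro j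
      refine Submodule.add_mem _ ?_ (Submodule.add_mem _ ?_ ?_)
      · by_cases h : c j = 0
        · rw [h]; exact Submodule.zero_mem _
        · rw [hc1 j h, sub_self]; exact const_mem_R _
      · convert mul_mem_R e4_mem (hr1 j) using 2; ring
      · convert mul_mem_R e6_mem (hr2 j) using 2; ring
    · intro j hj
      simp only [Finset.mem_union, not_or] at hj
      show (fun _ : ℍ => c j) + (e4 * r1 j + e6 * r2 j) = 0
      rw [hc2 j hj.1, hz1 j hj.2.1, hz2 j hj.2.2]
      ext; simp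
    · have s0 : ∑ j ∈ T0 ∪ (T1 ∪ T2), c j • G.f j = ∑ j ∈ T0, c j • G.f j :=
        (Finset.sum_subset Finset.subset_union_left fun j _ hj => by rw [hc2 j hj, zero_smul]).symm
      have s1 : ∑ j ∈ T0 ∪ (T1 ∪ T2), r1 j • G.f j = ∑ j ∈ T1, r1 j • G.f j :=
        (Finset.sum_subset (Finset.subset_union_left.trans Finset.subset_union_right)
          fun j _ hj => by rw [hz1 j hj, zero_smul]).symm
      have s2 : ∑ j ∈ T0 ∪ (T1 ∪ T2), r2 j • G.f j = ∑ j ∈ T2, r2 j • G.f j :=
        (Finset.sum_subset (Finset.subset_union_right.trans Finset.subset_union_right)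
          fun j _ hj => by rw [hz2 j hj, zero_smul]).symm
      have : ∀ j, ((fun _ => c j) + (e4 * r1 j + e6 * r2 j)) • G.f j =
          c j • G.f j + (e4 • (r1 j • G.f j) + e6 • (r2 j • G.f j)) := by
        intro j
        rw [add_smul, add_smul, const_smul_eq, mul_smul, mul_smul]
      simp_rw [this]
      rw [Finset.sum_add_distrib, Finset.sum_add_distrib, ← Finset.smul_sum, ← Finset.smul_sum,
        s0, s1, s2, ← hab]
      abel

lemma span (hneg : ∀ k < 0, ∀ v ∈ V X k, v = 0) {k : ℤ} {v : X → ℍ → ℂ} (hv : v ∈ V X k) :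
      ∃ (T : Finset G.J) (r : G.J → ℍ → ℂ), (∀ j, r j ∈ R (k - G.wt j)) ∧ (∀ j, j ∉ T → r j = 0) ∧
        v = ∑ j ∈ T, r j • G.f j :=
  G.span_aux hneg (k.toNat + 1) k (by lia) v hv

/-- independence. -/
lemma indep_aux (hneg : ∀ k < 0, ∀ v ∈ V X k, v = 0) :
    ∀ (n : ℕ) (k : ℤ), k < n → ∀ (T : Finset G.J) (r : G.J → ℍ → ℂ),
      (∀ j ∈ T, r j ∈ R (k - G.wt j)) → ∑ j ∈ T, r j • G.f j = 0 → ∀ j ∈ T, r j = 0 := by
  classical
  intro n
  induction n with
  | zero =>
    intro k hk T r hr _ j hj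
    have := G.wt_nonneg j
    exact R_eq_zero_of_rdim (rdim_of_neg (by push_cast at hk; lia)) (hr j hj)
  | succ n ih =>
    intro k hk T r hr hsum
    rcases lt_or_ge k (n : ℤ) with hlt | hge
    · exact ih k hlt T r hr hsum
    obtain rfl : k = (n : ℤ) := by push_cast at hk; lia
    have hdec : ∀ j, j ∈ T → ∃ (a b : ℍ → ℂ) (c : ℂ), a ∈ R ((n : ℤ) - G.wt j - 4) ∧
        b ∈ R ((n : ℤ) - G.wt j - 6) ∧ (c ≠ 0 → G.wt j = n) ∧
        r j = (fun _ => c) + (e4 * a + e6 * b) := by
      intro j hj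
      by_cases h : (n : ℤ) - G.wt j = 0
      · have hrj := hr j hj
        rw [h] at hrj
        obtain ⟨c, hc⟩ := exists_const_of_mem_R_zero hrj
        exact ⟨0, 0, c, Submodule.zero_mem _, Submodule.zero_mem _, fun _ => by lia, by simp [hc]⟩
      · obtain ⟨a, b, ha, hb, hab⟩ := exists_decomp h (hr j hj)
        refine ⟨a, b, 0, ha, hb, fun h => absurd rfl h, ?_⟩
        rw [hab]; ext; simp
    choose! a b c ha hb hc hrabc using hdec
    have hexp : ∑ j ∈ T, r j • G.f j = ∑ j ∈ T, c j • G.f j +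
        (e4 • ∑ j ∈ T, a j • G.f j + e6 • ∑ j ∈ T, b j • G.f j) := by
      rw [Finset.smul_sum, Finset.smul_sum, ← Finset.sum_add_distrib, ← Finset.sum_add_distrib]
      refine Finset.sum_congr rfl fun j hj => ?_
      rw [hrabc j hj, add_smul, add_smul, const_smul_eq, mul_smul, mul_smul]
    have hA : ∑ j ∈ T, a j • G.f j ∈ V X ((n : ℤ) - 4) :=
      G.sum_mem T a fun j hj => by convert ha j hj using 2; ring
    have hB : ∑ j ∈ T, b j • G.f j ∈ V X ((n : ℤ) - 6) :=
      G.sum_mem T b fun j hj => by convert hb j hj using 2; ring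
    have hc0 : ∀ j ∈ T, c j = 0 := by
      refine G.P1 n T c hc ⟨-∑ j ∈ T, a j • G.f j, Submodule.neg_mem _ hA,
        -∑ j ∈ T, b j • G.f j, Submodule.neg_mem _ hB, ?_⟩
      rw [hsum] at hexp
      rw [smul_neg, smul_neg, ← neg_add, eq_neg_iff_add_eq_zero]
      exact hexp.symm
    have hc0' : ∑ j ∈ T, c j • G.f j = 0 :=
      Finset.sum_eq_zero fun j hj => by rw [hc0 j hj, zero_smul]
    rw [hc0', zero_add, hsum] at hexp
    -- apply the regular sequence property
    obtain ⟨C, hC, hC1, hC2⟩ := regular (m := (n : ℤ) - 10) (a := ∑ j ∈ T, a j • G.f j)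
      (b := -∑ j ∈ T, b j • G.f j) (by convert hA using 2; ring)
      (by convert Submodule.neg_mem _ hB using 2; ring) (by
        intro x
        have := congrFun hexp x
        simp only [Pi.zero_apply, Pi.add_apply, Pi.smul_apply, smul_eq_mul] at this
        rw [Pi.neg_apply, mul_neg, eq_neg_iff_add_eq_zero]
        exact this.symm)
    obtain ⟨T', s, hs, hs0, hCs⟩ := G.span hneg hC
    -- extend a, b by zero
    let a' : G.J → ℍ → ℂ := fun j => if j ∈ T then a j else 0
    let b' : G.J → ℍ → ℂ := fun j => if j ∈ T then b j else 0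
    have ha' : ∑ j ∈ T ∪ T', a' j • G.f j = ∑ j ∈ T, a j • G.f j := by
      rw [← Finset.sum_subset (Finset.subset_union_left (s₁ := T) (s₂ := T')) (f := fun j => a' j • G.f j)
        (fun j _ hj => by simp [a', hj])]
      exact Finset.sum_congr rfl fun j hj => by simp [a', hj]
    have hb' : ∑ j ∈ T ∪ T', b' j • G.f j = ∑ j ∈ T, b j • G.f j := by
      rw [← Finset.sum_subset (Finset.subset_union_left (s₁ := T) (s₂ := T')) (f := fun j => b' j • G.f j)
        (fun j _ hj => by simp [b', hj])]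
      exact Finset.sum_congr rfl fun j hj => by simp [b', hj]
    have hs' : ∑ j ∈ T ∪ T', s j • G.f j = C := by
      rw [hCs]
      exact (Finset.sum_subset Finset.subset_union_right fun j _ hj => by
        rw [hs0 j hj, zero_smul]).symm
    have r1 : ∀ j ∈ T ∪ T', a' j - e6 * s j = 0 := by
      refine ih ((n : ℤ) - 4) (by lia) (T ∪ T') (fun j => a' j - e6 * s j) ?_ ?_
      · intro j hj
        refine Submodule.sub_mem _ ?_ ?_
        · by_cases h : j ∈ T
          · simp only [a', h, if_true]; convert ha j h using 2; ring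
          · simp only [a', h, if_false]; exact Submodule.zero_mem _
        · convert mul_mem_R e6_mem (hs j) using 2; ring
      · have : ∀ j, (a' j - e6 * s j) • G.f j = a' j • G.f j - e6 • (s j • G.f j) := by
          intro j; rw [sub_smul, mul_smul]
        simp_rw [this]
        rw [Finset.sum_sub_distrib, ← Finset.smul_sum, ha', hs', sub_eq_zero]
        ext1 x; exact hC1 x
    have r2 : ∀ j ∈ T ∪ T', b' j + e4 * s j = 0 := by
      refine ih ((n : ℤ) - 6) (by lia) (T ∪ T') (fun j => b' j + e4 * s j) ?_ ?_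
      · intro j hj
        refine Submodule.add_mem _ ?_ ?_
        · by_cases h : j ∈ T
          · simp only [b', h, if_true]; convert hb j h using 2; ring
          · simp only [b', h, if_false]; exact Submodule.zero_mem _
        · convert mul_mem_R e4_mem (hs j) using 2; ring
      · have : ∀ j, (b' j + e4 * s j) • G.f j = b' j • G.f j + e4 • (s j • G.f j) := by
          intro j; rw [add_smul, mul_smul]
        simp_rw [this]
        rw [Finset.sum_add_distrib, ← Finset.smul_sum, hb', hs']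
        ext1 x
        have := hC2 x
        rw [Pi.neg_apply] at this
        rw [Pi.add_apply, Pi.smul_apply, smul_eq_mul, ← this, Pi.zero_apply, add_neg_cancel]
    intro j hj
    have h1 := r1 j (Finset.mem_union_left _ hj)
    have h2 := r2 j (Finset.mem_union_left _ hj)
    simp only [a', b', hj, if_true] at h1 h2
    rw [sub_eq_zero] at h1
    rw [add_eq_zero_iff_eq_neg] at h2
    rw [hrabc j hj, hc0 j hj, h1, h2]
    ext z; simp; ring

lemma indep (hneg : ∀ k < 0, ∀ v ∈ V X k, v = 0) {k : ℤ} (T : Finset G.J) (r : G.J → ℍ → ℂ)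
    (hr : ∀ j ∈ T, r j ∈ R (k - G.wt j)) (h0 : ∑ j ∈ T, r j • G.f j = 0) : ∀ j ∈ T, r j = 0 :=
  G.indep_aux hneg (k.toNat + 1) k (by lia) T r hr h0

/-- the dimension inequality. -/
lemma sum_rdim_le (hfin : ∀ k, FiniteDimensional ℂ (V X k)) (hneg : ∀ k < 0, ∀ v ∈ V X k, v = 0)
    (k : ℤ) (T : Finset G.J) :
    ∑ j ∈ T, rdim (k - G.wt j) ≤ Module.finrank ℂ (V X k) := by
  classical
  let Φ : (∀ j : T, R (k - G.wt j)) →ₗ[ℂ] V X k :=
    { toFun := fun r => ⟨∑ j : T, (r j : ℍ → ℂ) • G.f j,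
        Submodule.sum_mem _ fun j _ => smul_mem_V (r j).2 (G.mem j) (by ring)⟩
      map_add' := fun r s => by
        apply Subtype.ext
        simp only [Pi.add_apply, Submodule.coe_add, add_smul, Finset.sum_add_distrib]
      map_smul' := fun c r => by
        apply Subtype.ext
        simp only [Pi.smul_apply, Submodule.coe_smul, RingHom.id_apply, Finset.smul_sum, smul_assoc] }
  have hinj : Function.Injective Φ := by
    rw [← LinearMap.ker_eq_bot, LinearMap.ker_eq_bot']
    intro r hr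
    have h1 : ∑ j : T, (r j : ℍ → ℂ) • G.f j = 0 := congrArg Subtype.val hr
    let r' : G.J → ℍ → ℂ := fun j => if h : j ∈ T then (r ⟨j, h⟩ : ℍ → ℂ) else 0
    have h2 : ∑ j ∈ T, r' j • G.f j = 0 := by
      rw [← h1, ← Finset.sum_coe_sort T]
      exact Finset.sum_congr rfl fun j _ => by simp [r']
    have h3 := G.indep hneg T r' (k := k) (fun j hj => by
      simp only [r', hj, dif_pos]; exact (r ⟨j, hj⟩).2) h2
    funext j
    apply Subtype.ext
    have := h3 j.1 j.2
    simp only [r', j.2, dif_pos] at this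
    exact this
  have := hfin k
  have h := LinearMap.finrank_le_finrank_of_injective hinj
  rw [Module.finrank_pi_fintype] at h
  rw [← Finset.sum_coe_sort T]
  exact h

end Gens

end Fermat.Agent.H14
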