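import Fermat.Agent.H14.Basic

set_option autoImplicit false

open UpperHalfPlane ModularForm MatrixGroups ModularGroup Filter
open scoped Manifold Topology

noncomputable section

namespace Fermat.Agent.H14

/-! ### dimensions of the level one spaces -/

/-- dimension of the space of level one forms. -/
def rdim (k : ℤ) : ℕ := Module.finrank ℂ (R k)

instance (k : ℤ) : FiniteDimensional ℂ (R k) := Module.Finite.equiv (toR k)

lemma rdim_eq (k : ℤ) : rdim k = Module.finrank ℂ (ModularForm 𝒮ℒ k) := (toR k).symm.finrank_eq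

lemma rdim_of_neg {k : ℤ} (hk : k < 0) : rdim k = 0 := by
  rw [rdim_eq, Module.finrank, ModularForm.levelOne_neg_weight_rank_zero hk]; simp

lemma rdim_of_odd {k : ℤ} (hk : Odd k) : rdim k = 0 := by
  rw [rdim_eq, Module.finrank, ModularForm.levelOne_odd_weight_rank_zero hk]; simp

lemma rdim_nat {k : ℕ} (hk : Even k) :
    rdim k = if k ≡ 2 [MOD 12] then k / 12 else k / 12 + 1 := by
  rw [rdim_eq, Module.finrank, ModularForm.dimension_level_one k hk]
  split_ifs with h
  · exact Cardinal.toNat_natCast _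
  · exact Cardinal.toNat_natCast _

/-- the recursion `rdim k = rdim (k - 12) + 1` for even `k ≥ 4`. -/
lemma rdim_sub_twelve {k : ℤ} (hk : Even k) (h4 : 4 ≤ k) : rdim k = rdim (k - 12) + 1 := by
  lift k to ℕ using by lia
  have hk' : Even k := by exact_mod_cast hk
  rw [rdim_nat hk']
  rcases lt_or_ge k 12 with h | h
  · rw [rdim_of_neg (by lia)]
    have h4' : 4 ≤ k := by exact_mod_cast h4
    have : ¬ (k ≡ 2 [MOD 12]) := by
      simp only [Nat.ModEq]; lia
    rw [if_neg this]; lia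
  · rw [show (k : ℤ) - 12 = ((k - 12 : ℕ) : ℤ) by lia, rdim_nat (by
      rcases hk' with ⟨m, hm⟩; exact ⟨m - 6, by lia⟩)]
    simp only [Nat.ModEq]
    split_ifs <;> lia

lemma rdim_zero : rdim 0 = 1 := by
  have := rdim_nat (k := 0) (by simp)
  simpa [Nat.ModEq] using this

lemma rdim_two : rdim 2 = 0 := by
  have := rdim_nat (k := 2) (by decide)
  simpa [Nat.ModEq] using this

lemma R_eq_zero_of_rdim {k : ℤ} (hk : rdim k = 0) {f : ℍ → ℂ} (hf : f ∈ R k) : f = 0 := by
  have h := Module.finrank_zero_iff.mp hk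
  have := h.elim ⟨f, hf⟩ 0
  exact congrArg Subtype.val this

/-! ### the Eisenstein series and the discriminant as functions -/

/-- `E₄` as a function. -/
def e4 : ℍ → ℂ := ⇑E₄
/-- `E₆` as a function. -/
def e6 : ℍ → ℂ := ⇑E₆
/-- the discriminant as a function. -/
def dl : ℍ → ℂ := ModularForm.discriminant

lemma e4_mem : e4 ∈ R 4 := coe_mem_R E₄
lemma e6_mem : e6 ∈ R 6 := coe_mem_R E₆
lemma dl_mem : dl ∈ R 12 := by
  have := coe_mem_R (CuspForm.toModularFormₗ CuspForm.discriminant : ModularForm 𝒮ℒ 12)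
  exact this

lemma dl_ne_zero (z : ℍ) : dl z ≠ 0 := discriminant_ne_zero z

lemma dl_eq (z : ℍ) : 1728 * dl z = e4 z ^ 3 - e6 z ^ 2 := by
  have := discriminant_eq_E₄_cube_sub_E₆_sq z
  unfold dl e4 e6
  rw [this]; ring

lemma tendsto_of_mem_R {k : ℤ} (f : ModularForm 𝒮ℒ k) :
    Tendsto (f : ℍ → ℂ) atImInfty (𝓝 ((qExpansion 1 f).coeff 0)) := by
  have hanal := ModularFormClass.analyticAt_cuspFunction_zero f one_pos one_mem_strictPeriods_SL
  have hper := SlashInvariantFormClass.periodic_comp_ofComplex f one_mem_strictPeriods_SL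
  rw [qExpansion_coeff_zero one_pos hanal hper, ← cuspFunction_apply_zero one_pos hanal hper]
  exact (hanal.continuousAt.tendsto.comp (qParam_tendsto_atImInfty one_pos)).congr
    (fun τ ↦ SlashInvariantFormClass.eq_cuspFunction f τ one_mem_strictPeriods_SL one_ne_zero)

lemma tendsto_e4 : Tendsto e4 atImInfty (𝓝 1) := by
  have := tendsto_of_mem_R E₄
  rwa [EisensteinSeries.E_qExpansion_coeff_zero _ ⟨2, rfl⟩] at this

lemma tendsto_e6 : Tendsto e6 atImInfty (𝓝 1) := by
  have := tendsto_of_mem_R E₆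
  rwa [EisensteinSeries.E_qExpansion_coeff_zero _ ⟨3, rfl⟩] at this

lemma tendsto_dl : Tendsto dl atImInfty (𝓝 0) := discriminant_isZeroAtImInfty

/-- every element of `R k` has a limit at `i∞`. -/
lemma exists_tendsto_of_mem_R {k : ℤ} {f : ℍ → ℂ} (hf : f ∈ R k) :
    ∃ c, Tendsto f atImInfty (𝓝 c) := by
  obtain ⟨g, rfl⟩ := exists_of_mem_R hf
  exact ⟨_, tendsto_of_mem_R g⟩

/-- a level one form vanishing at infinity is divisible by the discriminant. -/
lemma div_dl_mem_R {k : ℤ} {f : ℍ → ℂ} (hf : f ∈ R k) (h0 : Tendsto f atImInfty (𝓝 0)) :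
    (fun z => f z / dl z) ∈ R (k - 12) := by
  obtain ⟨g, rfl⟩ := exists_of_mem_R hf
  have h : (qExpansion 1 g).coeff 0 = 0 := tendsto_nhds_unique (tendsto_of_mem_R g) h0
  have := coe_mem_R (CuspForm.discriminantEquiv (toCuspForm g h))
  exact this

/-- the general division lemma by the discriminant. -/
lemma div_dl_mem_V {X : Type*} [MulAction SL(2, ℤ) X] {k : ℤ} {f : X → ℍ → ℂ} (hf : f ∈ V X k)
    (h0 : ∀ x, f x =O[atImInfty] fun τ ↦ Real.exp (-2 * Real.pi * τ.im)) :
    (fun x z => f x z / dl z) ∈ V X (k - 12) := by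
  refine ⟨fun x => ?_, fun γ x => ?_, fun x => ?_⟩
  · exact (hf.1 x).div dl_mem.1 dl_ne_zero
  · show (f (γ • x) / dl) ∣[k - 12] γ = f x / dl
    rw [div_slash_SL2, hf.2.1, dl_mem.2.1]
  · exact (Asymptotics.div_isBoundedUnder_of_isBigO
      ((h0 x).trans exp_isBigO_discriminant)).isBigO_one ℝ

/-- existence of a form of weight `k ≥ 4` even with constant term one, which is a monomial in
`E₄` and `E₆`. -/
lemma exists_monomial {k : ℤ} (hk : Even k) (h4 : 4 ≤ k) :
    ∃ a b : ℍ → ℂ, a ∈ R (k - 4) ∧ b ∈ R (k - 6) ∧ Tendsto (e4 * a + e6 * b) atImInfty (𝓝 1) := by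
  have hpow : ∀ n : ℕ, e4 ^ n ∈ R (4 * n) := by
    intro n
    induction n with
    | zero => simpa using one_mem_R
    | succ n ih =>
      rw [pow_succ]
      have := mul_mem_R ih e4_mem
      convert this using 2
      push_cast; ring
  lift k to ℕ using by lia
  obtain ⟨m, hm⟩ := (show Even k by exact_mod_cast hk)
  rcases Nat.even_or_odd m with ⟨n, hn⟩ | ⟨n, hn⟩
  · -- k = 4 n
    refine ⟨e4 ^ (n - 1), 0, ?_, Submodule.zero_mem _, ?_⟩
    · convert hpow (n - 1) using 2
      lia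
    · have : Tendsto (e4 * e4 ^ (n - 1)) atImInfty (𝓝 (1 * 1 ^ (n-1))) :=
        tendsto_e4.mul (tendsto_e4.pow _)
      simpa using this
  · -- k = 4 n + 2
    refine ⟨0, e4 ^ (n - 1), Submodule.zero_mem _, ?_, ?_⟩
    · convert hpow (n - 1) using 2
      lia
    · have : Tendsto (e6 * e4 ^ (n - 1)) atImInfty (𝓝 (1 * 1 ^ (n-1))) :=
        tendsto_e6.mul (tendsto_e4.pow _)
      simpa using this

lemma pow_mem_R {k : ℤ} {f : ℍ → ℂ} (hf : f ∈ R k) (n : ℕ) : f ^ n ∈ R (n * k) := by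
  induction n with
  | zero => simpa using one_mem_R
  | succ n ih =>
    rw [pow_succ]
    have := mul_mem_R ih hf
    convert this using 2
    push_cast; ring

/-- every form of weight `k ≠ 0` is in the ideal generated by `E₄` and `E₆`. -/
lemma exists_decomp {k : ℤ} (hk : k ≠ 0) {r : ℍ → ℂ} (hr : r ∈ R k) :
    ∃ a b : ℍ → ℂ, a ∈ R (k - 4) ∧ b ∈ R (k - 6) ∧ r = e4 * a + e6 * b := by
  by_cases h0 : rdim k = 0
  · refine ⟨0, 0, Submodule.zero_mem _, Submodule.zero_mem _, ?_⟩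
    rw [R_eq_zero_of_rdim h0 hr]; simp
  have hpos : 0 ≤ k := by
    by_contra h
    exact h0 (rdim_of_neg (by lia))
  have heven : Even k := by
    by_contra h
    exact h0 (rdim_of_odd (Int.not_even_iff_odd.mp h))
  have h2 : k ≠ 2 := by rintro rfl; exact h0 rdim_two
  have h4 : 4 ≤ k := by
    rcases heven with ⟨m, hm⟩; lia
  obtain ⟨a, b, ha, hb, hab⟩ := exists_monomial heven h4
  obtain ⟨c, hc⟩ := exists_tendsto_of_mem_R hr
  have hmono : e4 * a + e6 * b ∈ R k := by
    refine Submodule.add_mem _ ?_ ?_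
    · convert mul_mem_R e4_mem ha using 2; ring
    · convert mul_mem_R e6_mem hb using 2; ring
  have hs : (fun z => (r - c • (e4 * a + e6 * b)) z / dl z) ∈ R (k - 12) := by
    apply div_dl_mem_R (Submodule.sub_mem _ hr (Submodule.smul_mem _ _ hmono))
    have := hc.sub (hab.const_smul c)
    rw [smul_eq_mul, mul_one, sub_self] at this
    exact this
  set s := (fun z => (r - c • (e4 * a + e6 * b)) z / dl z) with hsdef
  refine ⟨c • a + (1 / 1728 : ℂ) • (e4 ^ 2 * s), c • b - (1 / 1728 : ℂ) • (e6 * s), ?_, ?_, ?_⟩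
  · refine Submodule.add_mem _ (Submodule.smul_mem _ _ ha) (Submodule.smul_mem _ _ ?_)
    convert mul_mem_R (pow_mem_R e4_mem 2) hs using 2; push_cast; ring
  · refine Submodule.sub_mem _ (Submodule.smul_mem _ _ hb) (Submodule.smul_mem _ _ ?_)
    convert mul_mem_R e6_mem hs using 2; ring
  · ext z
    have h1 := dl_eq z
    have h2 : s z * dl z = r z - c * (e4 z * a z + e6 z * b z) := by
      simp only [hsdef]
      rw [div_mul_cancel₀ _ (dl_ne_zero z)]
      simp only [Pi.add_apply, Pi.mul_apply, Pi.smul_apply, smul_eq_mul, Pi.sub_apply]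
    simp only [Pi.add_apply, Pi.mul_apply, Pi.smul_apply, smul_eq_mul, Pi.sub_apply, Pi.pow_apply]
    linear_combination (-1 : ℂ) * h2 - s z / 1728 * h1 * (-1)

/-- the regular sequence property. -/
lemma regular {X : Type*} [MulAction SL(2, ℤ) X] {m : ℤ} {a b : X → ℍ → ℂ}
    (ha : a ∈ V X (m + 6)) (hb : b ∈ V X (m + 4))
    (hab : ∀ x, e4 * a x = e6 * b x) :
    ∃ c ∈ V X m, (∀ x, a x = e6 * c x) ∧ (∀ x, b x = e4 * c x) := by
  have hrel : ∀ x z, e4 z * a x z = e6 z * b x z := fun x z => congrFun (hab x) z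
  set c : X → ℍ → ℂ := fun x z => (e4 z ^ 2 * b x z - e6 z * a x z) / (1728 * dl z) with hc
  have h1728 : ∀ z : ℍ, (1728 : ℂ) * dl z ≠ 0 := fun z => mul_ne_zero (by norm_num) (dl_ne_zero z)
  have h6 : ∀ x, a x = e6 * c x := by
    intro x; ext z
    rw [Pi.mul_apply]
    simp only [hc]
    field_simp [h1728 z]
    rw [eq_div_iff (dl_ne_zero z)]
    have := dl_eq z; have h := hrel x z
    linear_combination (a x z) * this + e4 z ^ 2 * h
  have h4 : ∀ x, b x = e4 * c x := by
    intro x; ext z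
    rw [Pi.mul_apply]
    simp only [hc]
    field_simp [h1728 z]
    rw [eq_div_iff (dl_ne_zero z)]
    have := dl_eq z; have h := hrel x z
    linear_combination (b x z) * this + e6 z * h
  refine ⟨c, ⟨fun x => ?_, fun γ x => ?_, fun x => ?_⟩, h6, h4⟩
  · have e1 : MDiff (e4 ^ 2 * b x - e6 * a x) :=
      ((pow_mem_R e4_mem 2).1.mul (hb.1 x)).sub (e6_mem.1.mul (ha.1 x))
    have e2 : MDifferentiable 𝓘(ℂ) 𝓘(ℂ) ((fun _ => (1728 : ℂ)) * dl : ℍ → ℂ) :=
      mdifferentiable_const.mul dl_mem.1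
    exact e1.div e2 h1728
  · have e1 : c (γ • x) = ((1 / 1728 : ℂ) • ((e4 ^ 2 * b (γ • x) - e6 * a (γ • x)) / dl)) := by
      ext z; simp [hc]; field_simp
    have e2 : c x = ((1 / 1728 : ℂ) • ((e4 ^ 2 * b x - e6 * a x) / dl)) := by
      ext z; simp [hc]; field_simp
    rw [e1, e2, SL_smul_slash]
    congr 1
    rw [show m = (m + 12) - 12 by ring, div_slash_SL2, dl_mem.2.1]
    congr 1
    rw [sub_eq_add_neg, SlashAction.add_slash, SlashAction.neg_slash, ← sub_eq_add_neg]
    congr 1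
    · rw [show m + 12 = 8 + (m + 4) by ring, mul_slash_SL2, hb.2.1]
      congr 1
      exact (pow_mem_R e4_mem 2).2.1 γ
    · rw [show m + 12 = 6 + (m + 6) by ring, mul_slash_SL2, ha.2.1, e6_mem.2.1]
  · have hev : ∀ᶠ z in atImInfty, (1 / 2 : ℝ) ≤ ‖e4 z‖ := by
      have := (tendsto_e4.norm).eventually (lt_mem_nhds (show (1/2 : ℝ) < ‖(1 : ℂ)‖ by norm_num))
      filter_upwards [this] with z hz using hz.le
    have hb' := hb.2.2 x
    rw [IsBoundedAtImInfty, BoundedAtFilter] at hb' ⊢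
    obtain ⟨C, hC⟩ := hb'.bound
    refine Asymptotics.IsBigO.of_bound (2 * C) ?_
    filter_upwards [hev, hC] with z hz hCz
    have hb'' : ‖b x z‖ = ‖e4 z‖ * ‖c x z‖ := by
      rw [h4 x, Pi.mul_apply, norm_mul]
    rw [hb''] at hCz
    have : (1 / 2 : ℝ) * ‖c x z‖ ≤ ‖e4 z‖ * ‖c x z‖ := by gcongr
    linarith

end Fermat.Agent.H14
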