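import Fermat.Agent.H14.Cusp2
import Fermat.Agent.H14.Free2

set_option autoImplicit false

open UpperHalfPlane ModularForm MatrixGroups ModularGroup Filter Function
open scoped Manifold Topology

noncomputable section

namespace Fermat.Agent.H14

/-- the hypotheses on the finite `SL₂(ℤ)`-set. -/
structure Setup (X : Type) [MulAction SL(2, ℤ) X] [Fintype X] where
  w : ℕ
  hw0 : 0 < w
  hw : ∀ x : X, (T ^ (w : ℤ) : SL(2, ℤ)) • x = x
  hneg : ∀ k < 0, ∀ v ∈ V X k, v = 0
  hzero : ∀ v ∈ V X 0, ∃ c : ℂ, v = fun _ _ => c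
  hodd : ∀ x : X, (-1 : SL(2, ℤ)) • x = x
  hev : ∀ (z : ℍ) (v : X → ℂ), v ∈ Submodule.span ℂ
    {u : X → ℂ | ∃ (k : ℤ), ∃ f ∈ V X k, u = fun x => f x z}

/-- a free basis, with fibrewise independence. -/
structure FreeBasis (X : Type) [MulAction SL(2, ℤ) X] [Fintype X] where
  wt : X → ℤ
  F : X → X → ℍ → ℂ
  mem : ∀ j, F j ∈ V X (wt j)
  wt_nonneg : ∀ j, 0 ≤ wt j
  wt_even : ∀ j, Even (wt j)
  span : ∀ k, ∀ v ∈ V X k, ∃ r : X → ℍ → ℂ, (∀ j, r j ∈ R (k - wt j)) ∧ v = ∑ j, r j • F j
  indep : ∀ k (r : X → ℍ → ℂ), (∀ j, r j ∈ R (k - wt j)) → ∑ j, r j • F j = 0 → ∀ j, r j = 0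
  linInd : ∀ z, LinearIndependent ℂ (fun j => (fun x => F j x z))

variable {X : Type} [MulAction SL(2, ℤ) X]

lemma V_odd (hodd : ∀ x : X, (-1 : SL(2, ℤ)) • x = x) {k : ℤ} (hk : Odd k) {f : X → ℍ → ℂ}
    (hf : f ∈ V X k) : f = 0 := by
  ext x z
  have h := congrFun (hf.2.1 (-1) x) z
  rw [hodd x, SL_slash_apply] at h
  have h1 : (-1 : SL(2, ℤ)) • z = z := by
    rw [ModularGroup.SL_neg_smul, one_smul]
  have h2 : denom ((-1 : SL(2, ℤ)) : GL (Fin 2) ℝ) z = -1 := by
    rw [ModularGroup.denom_apply]; simp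
  rw [h1, h2, (Odd.neg hk).neg_one_zpow] at h
  have h3 : (2 : ℂ) * f x z = 0 := by linear_combination -h
  simpa using h3

lemma rdim_ge {m a : ℕ} (ha : Even a) : m - a ≤ rdim (12 * m - a) := by
  rcases lt_or_ge (12 * m) a with h | h
  · have : m - a = 0 := by lia
    rw [this]; exact Nat.zero_le _
  · rw [show (12 * (m : ℤ) - a) = ((12 * m - a : ℕ) : ℤ) by lia]
    have he : Even (12 * m - a) := by
      obtain ⟨b, hb⟩ := ha; exact ⟨6 * m - b, by lia⟩
    rw [rdim_nat he]
    split_ifs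
    · lia
    · lia

variable [Fintype X] (st : Setup X)

namespace Setup

section
include st

lemma fin (k : ℤ) : FiniteDimensional ℂ (V X k) := finiteDimensional_V st.hw0 st.hw st.hneg k

lemma finrank_V_twelve (m : ℕ) : Module.finrank ℂ (V X (12 * m)) ≤ (m + 1) * Fintype.card X := by
  induction m with
  | zero =>
    have h1 := finrank_V_le st.hw0 st.hw st.hneg (12 * (0 : ℕ))
    have h2 : Module.finrank ℂ (V X (12 * ((0 : ℕ) : ℤ) - 12)) = 0 := by
      have : V X (12 * ((0 : ℕ) : ℤ) - 12) = ⊥ := by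
        rw [eq_bot_iff]; intro v hv; exact st.hneg _ (by simp) v hv
      rw [this]; simp
    lia
  | succ m ih =>
    have h1 := finrank_V_le st.hw0 st.hw st.hneg (12 * ((m + 1 : ℕ) : ℤ))
    rw [show 12 * ((m + 1 : ℕ) : ℤ) - 12 = 12 * (m : ℤ) by push_cast; ring] at h1
    nlinarith

lemma wt_even (G : Gens X) (j : G.J) : Even (G.wt j) := by
  by_contra h
  have hodd := Int.not_even_iff_odd.mp h
  have h1 : G.f j = 0 := V_odd st.hodd hodd (G.mem j)
  have h2 := G.P1 (G.wt j).toNat {j} (fun _ => 1) (fun i hi _ => by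
    rw [Finset.mem_singleton] at hi; subst hi; have := G.wt_nonneg i; lia) (by
      rw [Finset.sum_singleton, h1, smul_zero]; exact Submodule.zero_mem _) j
        (Finset.mem_singleton_self j)
  exact one_ne_zero h2

lemma card_le (G : Gens X) (T : Finset G.J) : T.card ≤ Fintype.card X := by
  by_contra hcon
  push Not at hcon
  set m := Fintype.card X + ∑ j ∈ T, (G.wt j).toNat + 1 with hm
  have h1 := G.sum_rdim_le st.fin st.hneg (12 * m) T
  have h2 := h1.trans (st.finrank_V_twelve m)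
  have h3 : ∑ j ∈ T, (m - (G.wt j).toNat) ≤ ∑ j ∈ T, rdim (12 * m - G.wt j) := by
    refine Finset.sum_le_sum fun j _ => ?_
    have hnn := G.wt_nonneg j
    have he : Even (G.wt j).toNat := by
      obtain ⟨b, hb⟩ := st.wt_even G j
      exact ⟨b.toNat, by lia⟩
    have := rdim_ge (m := m) he
    rwa [Int.toNat_of_nonneg hnn] at this
  have h4 : T.card * m ≤ ∑ j ∈ T, (m - (G.wt j).toNat) + ∑ j ∈ T, (G.wt j).toNat := by
    rw [← Finset.sum_add_distrib, ← smul_eq_mul, ← Finset.sum_const]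
    refine Finset.sum_le_sum fun j _ => by lia
  have h5 : (Fintype.card X + 1) * m ≤ T.card * m := Nat.mul_le_mul_right _ hcon
  nlinarith

lemma finite_J (G : Gens X) : Finite G.J := by
  by_contra h
  rw [not_finite_iff_infinite] at h
  obtain ⟨T, hT⟩ := Infinite.exists_subset_card_eq G.J (Fintype.card X + 1)
  have := st.card_le G T
  lia

lemma span_eval (G : Gens X) [Fintype G.J] (z : ℍ) :
    Submodule.span ℂ (Set.range (fun j : G.J => (fun x => G.f j x z : X → ℂ))) = ⊤ := by
  classical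
  rw [eq_top_iff]
  intro v _
  have hv := st.hev z v
  refine Submodule.span_le.mpr ?_ hv
  rintro _ ⟨k, f, hf, rfl⟩
  obtain ⟨T, r, hr, hr0, rfl⟩ := G.span st.hneg hf
  have : (fun x => (∑ j ∈ T, r j • G.f j) x z) = ∑ j ∈ T, r j z • (fun x => G.f j x z : X → ℂ) := by
    ext x
    simp [Finset.sum_apply]
  rw [this]
  exact Submodule.sum_mem _ fun j _ => Submodule.smul_mem _ _ (Submodule.subset_span ⟨j, rfl⟩)

lemma card_J (G : Gens X) [Fintype G.J] : Fintype.card G.J = Fintype.card X := by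
  apply le_antisymm
  · exact st.card_le G Finset.univ
  · have h1 := st.span_eval G UpperHalfPlane.I
    have h2 := finrank_range_le_card (R := ℂ) (fun j : G.J => (fun x => G.f j x UpperHalfPlane.I : X → ℂ))
    rw [Set.finrank, h1, finrank_top, Module.finrank_fintype_fun_eq_card] at h2
    exact h2

theorem exists_freeBasis : Nonempty (FreeBasis X) := by
  classical
  obtain ⟨G⟩ := nonempty_gens st.fin
  have := st.finite_J G
  let _ := Fintype.ofFinite G.J
  have hcard := st.card_J G
  obtain ⟨e⟩ : Nonempty (X ≃ G.J) := ⟨Fintype.equivOfCardEq hcard.symm⟩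
  refine ⟨⟨fun j => G.wt (e j), fun j => G.f (e j), fun j => G.mem _, fun j => G.wt_nonneg _,
    fun j => st.wt_even G _, ?_, ?_, ?_⟩⟩
  · intro k v hv
    obtain ⟨T, r, hr, hr0, rfl⟩ := G.span st.hneg hv
    refine ⟨fun j => r (e j), fun j => hr _, ?_⟩
    rw [Equiv.sum_comp e (fun j => r j • G.f j)]
    exact Finset.sum_subset (Finset.subset_univ _) fun j _ hj => by rw [hr0 j hj, zero_smul]
  · intro k r hr h0 j
    have h1 := G.indep st.hneg (k := k) Finset.univ (fun j => r (e.symm j)) (fun j _ => by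
      have := hr (e.symm j); rwa [Equiv.apply_symm_apply] at this) (by
        rw [← h0, ← Equiv.sum_comp e]
        simp) (e j) (Finset.mem_univ _)
    simpa using h1
  · intro z
    have h1 := st.span_eval G z
    have h2 : LinearIndependent ℂ (fun j : G.J => (fun x => G.f j x z : X → ℂ)) := by
      rw [linearIndependent_iff_card_eq_finrank_span, Set.finrank, h1, finrank_top,
        Module.finrank_fintype_fun_eq_card, hcard]
    exact h2.comp e e.injective

end
end Setup

namespace FreeBasis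

variable (B : FreeBasis X)

/-- the free module structure in weight `k`. -/
def equivV (k : ℤ) : (∀ j : X, R (k - B.wt j)) ≃ₗ[ℂ] V X k :=
  LinearEquiv.ofBijective
    ({ toFun := fun r => ⟨∑ j : X, (r j : ℍ → ℂ) • B.F j,
        Submodule.sum_mem _ fun j _ => smul_mem_V (r j).2 (B.mem j) (by ring)⟩
       map_add' := fun r s => by
        apply Subtype.ext
        simp only [Pi.add_apply, Submodule.coe_add, add_smul, Finset.sum_add_distrib]
       map_smul' := fun c r => by
        apply Subtype.ext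
        simp only [Pi.smul_apply, Submodule.coe_smul, RingHom.id_apply, Finset.smul_sum, smul_assoc] } :
      (∀ j : X, R (k - B.wt j)) →ₗ[ℂ] V X k) (by
    constructor
    · rw [← LinearMap.ker_eq_bot, LinearMap.ker_eq_bot']
      intro r hr
      have h1 : ∑ j : X, (r j : ℍ → ℂ) • B.F j = 0 := congrArg Subtype.val hr
      funext j
      exact Subtype.ext (B.indep k (fun j => r j) (fun j => (r j).2) h1 j)
    · rintro ⟨v, hv⟩
      obtain ⟨r, hr, hv'⟩ := B.span k v hv
      exact ⟨fun j => ⟨r j, hr j⟩, Subtype.ext hv'.symm⟩)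

lemma finrank_V (k : ℤ) : Module.finrank ℂ (V X k) = ∑ j, rdim (k - B.wt j) := by
  rw [← (B.equivV k).finrank_eq, Module.finrank_pi_fintype]
  rfl

end FreeBasis

end Fermat.Agent.H14
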